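/-
GATE-E (S59) / block E8 (MINLEVEL) / node SQ ("lowering at `q² ∥ M`"), leaf MP2-FIX (helper97).

**A group acting on a nonzero finite `𝔽_p`-vector space by unipotent operators of index two has a
nonzero fixed vector.**

Use: `V = ` the `ρ̄`-eigenspace `eigQ` of `Kum_p(F_N)`, `H = ` the inertia group at a prime `q ≠ p`
of a semistable curve; `GB/A/A6/EigQ.eigQ_rel` gives `g + χ_p(g) g⁻¹ = tr ρ̄(g)` on `eigQ`, i.e.
`(g - 1)² = 0` for `g ∈ I_q` (`χ_p(g) = 1`, `tr ρ̄(g) = 2`).  Mathlib only.

* `pow_eq_one_add_nsmul`  : `(1 + n)^k = 1 + k • n` when `n * n = 0`;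
* `pow_prime_eq_one`      : `f^p = 1` for `f : End_{𝔽_p} V` with `(f - 1)² = 0`;
* `exists_ne_zero_fixed`  : the fixed vector.
-/
import Mathlib

set_option autoImplicit false
set_option linter.style.haveILetI false

namespace Fermat.Agent.GE8.SQ.FixedVec

section Ring

variable {R : Type*} [Ring R]

/-- `(1 + n)^k = 1 + k • n` when `n² = 0`. -/
theorem pow_eq_one_add_nsmul {n : R} (hn : n * n = 0) (k : ℕ) : (1 + n) ^ k = 1 + k • n := by
  induction k with
  | zero => simp
  | succ k ih =>
    rw [pow_succ, ih, mul_add, mul_one, add_mul, one_mul, smul_mul_assoc, hn, smul_zero, add_zero,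
      succ_nsmul, add_assoc]

end Ring

section Module

variable {p : ℕ} [Fact p.Prime] {V : Type*} [AddCommGroup V] [Module (ZMod p) V]

/-- an endomorphism `f` of a `ZMod p`-module with `(f - 1)² = 0` satisfies `f ^ p = 1`. -/
theorem pow_prime_eq_one (f : Module.End (ZMod p) V) (hf : (f - 1) * (f - 1) = 0) :
    f ^ p = 1 := by
  have h1 : f = 1 + (f - 1) := by abel
  rw [h1, pow_eq_one_add_nsmul hf p]
  have h2 : p • (f - 1) = 0 := by
    ext v
    rw [LinearMap.smul_apply, LinearMap.zero_apply, ← Nat.cast_smul_eq_nsmul (ZMod p),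
      ZMod.natCast_self, zero_smul]
  rw [h2, add_zero]

variable [Finite V] [Nontrivial V] {G : Type*} [Group G]

/-- **the fixed vector**: if every element of the subgroup `H` acts on the nonzero finite
`ZMod p`-module `V` with `g (g v - v) = g v - v`, some nonzero `v` is fixed by all of `H`. -/
theorem exists_ne_zero_fixed (ρ : G →* Module.End (ZMod p) V) (H : Subgroup G)
    (hunip : ∀ g ∈ H, ∀ v : V, ρ g (ρ g v - v) = ρ g v - v) :
    ∃ v : V, v ≠ 0 ∧ ∀ g ∈ H, ρ g v = v := by
  classical
  have hp : p.Prime := Fact.out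
  -- the action of `H` on `V`
  letI act : MulAction H V :=
    { smul := fun g v => ρ (g : G) v
      one_smul := fun v => by
        show ρ ((1 : H) : G) v = v
        rw [Subgroup.coe_one, map_one]; rfl
      mul_smul := fun g h v => by
        show ρ ((g * h : H) : G) v = ρ (g : G) (ρ (h : G) v)
        rw [Subgroup.coe_mul, map_mul]; rfl }
  have hsmul : ∀ (g : H) (v : V), g • v = ρ (g : G) v := fun _ _ => rfl
  -- the image of `H` in `Perm V` is a `p`-group
  let φ : H →* Equiv.Perm V := MulAction.toPermHom H V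
  have hpow : ∀ g : H, φ g ^ p = 1 := by
    intro g
    have hsq : (ρ (g : G) - 1) * (ρ (g : G) - 1) = 0 := by
      ext v
      have := hunip g g.2 v
      simp only [Module.End.mul_apply, LinearMap.sub_apply, Module.End.one_apply,
        LinearMap.zero_apply, map_sub]
      rw [map_sub] at this
      rw [this]; abel
    have h1 := pow_prime_eq_one (ρ (g : G)) hsq
    rw [← map_pow]
    ext v
    show (g ^ p) • v = v
    rw [hsmul, Subgroup.coe_pow, map_pow, h1]; rfl
  have hPG : IsPGroup p φ.range := by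
    rintro ⟨_, g, rfl⟩
    refine ⟨1, Subtype.ext ?_⟩
    rw [pow_one, Subgroup.coe_pow, Subgroup.coe_one]
    exact hpow g
  -- `p ∣ card V`
  have hcard : p ∣ Nat.card V := by
    haveI : Fintype V := Fintype.ofFinite V
    haveI : Module.Finite (ZMod p) V := Module.Finite.of_finite
    have h1 : Fintype.card V = Fintype.card (ZMod p) ^ Module.finrank (ZMod p) V :=
      Module.card_eq_pow_finrank
    have h2 : 0 < Module.finrank (ZMod p) V := Module.finrank_pos
    rw [Nat.card_eq_fintype_card, h1, ZMod.card]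
    exact dvd_pow_self p h2.ne'
  have h0 : (0 : V) ∈ MulAction.fixedPoints φ.range V := by
    rintro ⟨_, g, rfl⟩
    show φ g (0 : V) = 0
    show g • (0 : V) = 0
    rw [hsmul, map_zero]
  obtain ⟨b, hb, hb0⟩ := hPG.exists_fixed_point_of_prime_dvd_card_of_fixed_point V hcard h0
  refine ⟨b, fun h => hb0 h.symm, fun g hg => ?_⟩
  have := hb ⟨φ ⟨g, hg⟩, ⟨g, hg⟩, rfl⟩
  exact this

end Module

end Fermat.Agent.GE8.SQ.FixedVec
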