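/-
GATE-E (S59) / block E8 (MINLEVEL) / node SQ, TOP FILE in hypothesis form (helper97, E8 design owner).

**SQ = "lowering at `q² ∥ M`"**: a semistable `W` (irreducible `W[p]`, `p` odd, `q ≠ p`) which is
residually modular of a level `L' * q` with `q ∥ L'` is residually modular of level `L'`.
(The frozen S59 allows `q² ∥ M₀`, frozen S56 forces the minimal Hecke algebra to a squarefree level.)

DESIGN (board, GATE-E / E8 DESIGN v1): no group theory (`GL₂(𝔽_q)` blocks) and no local–global at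
depth-zero types is needed.  SQ is **Mazur's principle at `q²`**: the inertia group `I_q` acts
UNIPOTENTLY on the `ρ̄`-eigenspace `Q = eigQ (L' q)` of `Kum_p(F_{L' q}) = J₀(L' q)[p]`
(`EigQ.eigQ_rel` + BLR `Inertia.exists_algHom_eigQ`), so `Q^{I_q} ≠ 0` (`FixedVec`), and an
`I_q`-invariant class of `J₀(L' q)[p]` lives in the special fibre of the Néron model, whose three
layers (component group = Eisenstein; abelian part = three copies of `J₀(L'/q)` in characteristic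
`q`; toric part = the two PULLED-BACK copies `α^* T' + β^* T'` of the torus `T'` of `J₀(L')` at `q`:
the graph map `Γ_{L' q} → Γ_{L'}` induced by `α`, `β` is an isomorphism on `H₁`) all have Hecke
support at level `L'`.  If `ρ̄` did not occur at level `L'`, the old-killer `t = P(T)` of level `L'` would be
the identity on `Q` and would kill `Q^{I_q}`: contradiction.

This file:
* `MP2Gate`          : the GEOMETRIC gate (the only open binder), in the vocabulary of CASE A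
                       (`GB/A/A6/CaseA.ToricStmt`): with the killer of level `L'`, an inertia-invariant
                       class of the eigenspace at level `L' q` VANISHES;  stated at the good auxiliary
                       levels of the S36 gate (`GL/Final/GeomGate.GoodAuxLevel`: no elliptic points);
* `eigQ_unip`        : unipotent inertia on `W[p]` ⟹ unipotent on `eigQ`;
* `exists_fixed_eigQ`: a nonzero inertia-invariant class in `eigQ`;
* `sq_good_of_gate`  : **`MP2Gate → SQGood`** (SQ at the good auxiliary levels), proved here;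
* `AuxStmt`, `sq_of_gate_aux` : SQ at every level from the gate and the auxiliary-prime node
                       (`r` prime to everything, `L' r` good, and `r` removable by S35: the same
                       node as lead's p = 3 trick, GATE-E input B).
-/
import Mathlib
import Fermat.Agent.GB.A.A6.Toric
import Fermat.Agent.GB.Top.SplitT
import Fermat.Agent.GL.Final.GeomGate
import Fermat.Agent.GE8.SQ.FixedVec

set_option autoImplicit false
set_option linter.unusedSectionVars false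
set_option linter.style.haveILetI false

noncomputable section

namespace Fermat.Agent.GE8.SQ.Top

open AlgebraicCurve ModularCurve
open CuspForm ModularFormClass CongruenceSubgroup
open Fermat.Agent.GJ Fermat.Agent.GJ.KumGroup Fermat.Agent.GJ.Kum.KumType
open Fermat.Agent.GK.UQ Fermat.Agent.GK.New Fermat.Agent.GK.Tate.KumHecke
open Fermat.Agent.GJ.CycChar
open Fermat.Agent.GB.A Fermat.Agent.GB.A.A6.ECDet Fermat.Agent.GB.A.A6.EigQ
open Fermat.Agent.GB.A.A6.Killer Fermat.Agent.GB.A.A6.Abs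
open Fermat.Agent.GL.Final.GeomGate

local notation "GQ'" => (AlgebraicClosure ℚ ≃ₐ[ℚ] AlgebraicClosure ℚ)

/-! ### the geometric gate -/

/-- **Mazur's principle at `q²`, geometric gate.**  `L'` a good auxiliary level with `q ∥ L'`; `P` an
old-killer of level `L'` (`P(T^{L'}) = 0`) acting as the identity on the `a_ℓ(W)`-eigenspace of
`Kum_p(F_{L' q})`.  Then every class of that eigenspace which is invariant under the inertia group
of a place `A ∣ q` is zero. -/
def MP2Gate : Prop :=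
  ∀ (p : ℕ) [Fact p.Prime] (_ : p ≠ 2) (W : WeierstrassCurve ℤ) (_ : W.Δ ≠ 0)
    (_ : Nat.card (Tp W p) = p ^ 2) (_ : W.ModRepIsIrreducible p)
    (L' q : ℕ) [NeZero L'] [Fact q.Prime] (_ : q ≠ p) (_ : GoodAuxLevel L' q)
    (S : Finset ℕ) (hL'S : ∀ r : ℕ, r.Prime → r ∣ L' → r ∈ S)
    (hMS : ∀ r : ℕ, r.Prime → r ∣ L' * q → r ∈ S) (_ : p ∈ S)
    (_ : ∀ ℓ : ℕ, ℓ.Prime → (ℓ : ℤ) ∣ W.Δ → ℓ ∈ S)
    (P : MvPolynomial (PrimeIdx S) ℤ) (_ : MvPolynomial.aeval (TfamH hL'S) P = 0)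
    (_ : ∀ (ζ : ℂ) (hζ : IsPrimitiveRoot ζ p) (x : Additive (Kum Kb (FK (L' * q)) p)),
      x ∈ eigQ (L' * q) p S hMS (fun ℓ => W.apOfModel ℓ) →
        kumHecke (L' * q) (↑S : Set ℕ) p hζ (MvPolynomial.aeval (TfamH hMS) P) x = x)
    (A : ValuationSubring Kb) (_ : A.LiesOverPrime q),
    ∀ y ∈ eigQ (L' * q) p S hMS (fun ℓ => W.apOfModel ℓ),
      y ∈ FP.invSub (M := L' * q) A p → y = 0

/-- **SQ at the good auxiliary levels.** -/
def SQGood : Prop :=
  ∀ (p : ℕ) [Fact p.Prime] (_ : p ≠ 2) (W : WeierstrassCurve ℤ) (_ : W.Δ ≠ 0)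
    (_ : Nat.card (Tp W p) = p ^ 2) (_ : W.ModRepIsIrreducible p)
    (L' q : ℕ) [NeZero L'] [Fact q.Prime] (_ : q ≠ p) (_ : GoodAuxLevel L' q)
    (_ : ∀ A : ValuationSubring Kb, A.LiesOverPrime q → ∀ σ ∈ A.inertiaSubgroupIn ℚ,
      (rho W p σ - 1) * (rho W p σ - 1) = 0)
    (_ : W.IsResiduallyModularOfLevel p (L' * q)),
    W.IsResiduallyModularOfLevel p L'

/-! ### unipotent inertia on the eigenspace -/

section Unip

variable {M : ℕ} [NeZero M] {p : ℕ} [Fact p.Prime] {W : WeierstrassCurve ℤ}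
  (hΔ : W.Δ ≠ 0) (hcard : Nat.card (Tp W p) = p ^ 2) (hirr : W.ModRepIsIrreducible p)
  (hp2 : p ≠ 2) (S : Finset ℕ) (hMS : ∀ q : ℕ, q.Prime → q ∣ M → q ∈ S) (hpS : p ∈ S)
  (a : ℕ → ℤ) (ha : ∀ ℓ : ℕ, ℓ.Prime → ℓ ∉ S → W.IsGoodPrimeFor ℓ → a ℓ = W.apOfModel ℓ)
include hΔ hcard hirr hp2 hpS ha

/-- `(ρ̄ σ - 1)² = 0 ⟹ (σ - 1)² = 0` on the eigenspace `Q` (BLR). -/
theorem eigQ_unip {σ : GQ'} (hσ : (rho W p σ - 1) * (rho W p σ - 1) = 0)
    {x : Additive (Kum Kb (FK M) p)} (hx : x ∈ eigQ M p S hMS a) :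
    gal M p σ (gal M p σ x - x) = gal M p σ x - x := by
  obtain ⟨b, h0, h1⟩ := exists_basis_conj hΔ hcard hirr hp2
  obtain ⟨Φ, hΦ⟩ := Fermat.Agent.GB.A.A6.Inertia.exists_algHom_eigQ (M := M) hΔ hcard hirr hp2 S hMS
    hpS a ha b h0 h1
  have hm : (rhoM b σ - 1) * (rhoM b σ - 1) = 0 := by
    have := congrArg (LinearMap.toMatrixAlgEquiv b) hσ
    rw [map_mul, map_sub, map_one, map_zero] at this
    rw [rhoM_apply]
    exact this
  have hΦm : (Φ (rhoM b σ) - 1) * (Φ (rhoM b σ) - 1) = 0 := by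
    have := congrArg Φ hm
    rw [map_mul, map_sub, map_one, map_zero] at this
    exact this
  have h2 := LinearMap.congr_fun hΦm ⟨x, hx⟩
  simp only [Module.End.mul_apply, LinearMap.sub_apply, Module.End.one_apply,
    LinearMap.zero_apply, map_sub] at h2
  have h3 := congrArg (fun z : eigQ M p S hMS a => (z : Additive (Kum Kb (FK M) p))) h2
  simp only [Submodule.coe_sub, Submodule.coe_zero, hΦ] at h3
  rw [map_sub, ← sub_eq_zero]
  rw [← h3]

/-- **a nonzero inertia-invariant class in the eigenspace.** -/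
theorem exists_fixed_eigQ (hQ0 : eigQ M p S hMS a ≠ ⊥) (A : ValuationSubring Kb)
    (hunip : ∀ σ ∈ A.inertiaSubgroupIn ℚ, (rho W p σ - 1) * (rho W p σ - 1) = 0) :
    ∃ y ∈ eigQ M p S hMS a, y ≠ 0 ∧ y ∈ FP.invSub (M := M) A p := by
  have hQG : ∀ g : GQ', ∀ x ∈ eigQ M p S hMS a, gal M p g x ∈ eigQ M p S hMS a :=
    fun g x hx => gal_mem_eigQ g hx
  haveI : Nontrivial (eigQ M p S hMS a) := Submodule.nontrivial_iff_ne_bot.2 hQ0
  haveI : Finite (Additive (Kum Kb (FK M) p)) := finite_kum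
  haveI : Finite (eigQ M p S hMS a) := Finite.of_injective _ Subtype.val_injective
  obtain ⟨v, hv0, hv⟩ := Fermat.Agent.GE8.SQ.FixedVec.exists_ne_zero_fixed
    (actSub (gal M p) (eigQ M p S hMS a) hQG) (A.inertiaSubgroupIn ℚ) (fun g hg v => by
      apply Subtype.ext
      have := eigQ_unip hΔ hcard hirr hp2 S hMS hpS a ha (hunip g hg) v.2
      simpa [actSub_apply] using this)
  refine ⟨v, v.2, fun h => hv0 (Subtype.ext h), fun σ hσ => ?_⟩
  have := congrArg (fun z : eigQ M p S hMS a => (z : Additive (Kum Kb (FK M) p))) (hv σ hσ)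
  simpa [actSub_apply] using this

end Unip

/-! ### SQ at the good levels from the gate -/

/-- **`MP2Gate → SQGood`.** -/
theorem sq_good_of_gate (hgate : MP2Gate) : SQGood := by
  intro p _ hp2 W hΔ hcard hirr L' q _ _ hqp hgood hunip hres
  by_contra hnot
  have hp : p.Prime := Fact.out
  have hq : q.Prime := Fact.out
  have hL'0 : L' ≠ 0 := NeZero.ne L'
  have hM0 : L' * q ≠ 0 := mul_ne_zero hL'0 hq.ne_zero
  haveI : NeZero (L' * q) := ⟨hM0⟩
  have hΔabs : W.Δ.natAbs ≠ 0 := Int.natAbs_ne_zero.2 hΔ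
  have hn0 : L' * q * p * W.Δ.natAbs ≠ 0 := mul_ne_zero (mul_ne_zero hM0 hp.ne_zero) hΔabs
  set S : Finset ℕ := (L' * q * p * W.Δ.natAbs).primeFactors with hS
  have hmemS : ∀ r : ℕ, r.Prime → r ∣ L' * q * p * W.Δ.natAbs → r ∈ S := fun r hr hd =>
    Nat.mem_primeFactors.2 ⟨hr, hd, hn0⟩
  have hMS : ∀ r : ℕ, r.Prime → r ∣ L' * q → r ∈ S := fun r hr hd =>
    hmemS r hr (Dvd.dvd.mul_right (Dvd.dvd.mul_right hd p) _)
  have hL'S : ∀ r : ℕ, r.Prime → r ∣ L' → r ∈ S := fun r hr hd =>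
    hMS r hr (Dvd.dvd.mul_right hd q)
  have hpS : p ∈ S := hmemS p hp (Dvd.dvd.mul_right (Dvd.intro_left _ rfl) _)
  have hΔS : ∀ ℓ : ℕ, ℓ.Prime → (ℓ : ℤ) ∣ W.Δ → ℓ ∈ S := fun ℓ hℓ hd =>
    hmemS ℓ hℓ (Dvd.dvd.mul_left (Int.natCast_dvd.1 hd) _)
  set a : ℕ → ℤ := fun ℓ => W.apOfModel ℓ with ha
  -- the eigenspace at level `L' q`
  have hQ0 : eigQ (L' * q) p S hMS a ≠ ⊥ :=
    Fermat.Agent.GB.A.A6.Supply.eigQ_ne_bot W hres S hMS hpS hΔS _ (fun _ _ _ => rfl)
  -- the killer of level `L'`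
  have hno : ¬ ∃ (g : CuspForm (Gamma0 L') 2) (𝔪' : Ideal (integralClosure ℤ ℂ)),
      g.IsNormalizedEigenform ∧ 𝔪'.IsMaximal ∧ (p : integralClosure ℤ ℂ) ∈ 𝔪' ∧
      ∀ ℓ : ℕ, ℓ.Prime → ℓ ∉ S →
        ∃ c : integralClosure ℤ ℂ, (c : ℂ) = qCoeff g ℓ ∧
          c - ((a ℓ : ℤ) : integralClosure ℤ ℂ) ∈ 𝔪' := by
    rintro ⟨g, 𝔪', hg, hmax, hpm, hc⟩
    exact hnot ⟨g, 𝔪', hg, hmax, hpm,
      Fermat.Agent.GB.Top.CongrAll.congr_all_of_cofinite W hΔ p L' hp g 𝔪' hg hmax hpm S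
        (fun ℓ hℓ hℓS _ _ _ => hc ℓ hℓ hℓS)⟩
  obtain ⟨P, hP0, hPid⟩ := exists_killer hL'S p a hno
  -- a nonzero inertia-invariant class
  obtain ⟨A, φ, hA, -⟩ := Fermat.Agent.Common_helper32.exists_isFrobeniusAt q hq
  obtain ⟨y, hyQ, hy0, hyI⟩ := exists_fixed_eigQ (M := L' * q) hΔ hcard hirr hp2 S hMS hpS a
    (fun _ _ _ _ => rfl) hQ0 A (hunip A hA)
  exact hy0 (hgate p hp2 W hΔ hcard hirr L' q hqp hgood S hL'S hMS hpS hΔS P hP0
    (fun ζ hζ x hx => hPid (L' * q) hMS ζ hζ x hx) A hA y hyQ hyI)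

/-! ### every level: the auxiliary prime -/

/-- **The auxiliary-prime node** (same node as the `p = 3` trick of GATE-E input B): for a level
`L'` with `q ∥ L'` there is `r` prime to `L' q p Δ_W` such that `L' r` is a good auxiliary level
and `r` can be REMOVED from the level of `ρ̄_W` (S35: an `r`-new eigenform of level `r ∥ L' r` has
`a_r² = (r+1)²` residually; choose `r` by Chebotarev with `a_r(W)² ≢ (r+1)²`). -/
def AuxStmt : Prop :=
  ∀ (p : ℕ) [Fact p.Prime] (_ : p ≠ 2) (W : WeierstrassCurve ℤ) (_ : W.Δ ≠ 0)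
    (_ : Nat.card (Tp W p) = p ^ 2) (_ : W.ModRepIsIrreducible p)
    (L' q : ℕ) [NeZero L'] [Fact q.Prime] (_ : q ≠ p) (_ : q ∣ L') (_ : ¬ q ^ 2 ∣ L'),
    ∃ r : ℕ, r ≠ 0 ∧ Nat.Coprime r (L' * q * p) ∧ GoodAuxLevel (L' * r) q ∧
      (W.IsResiduallyModularOfLevel p (L' * r) → W.IsResiduallyModularOfLevel p L')

/-- **SQ at every level**, `q ∥ L'`. -/
def SQStmt : Prop :=
  ∀ (p : ℕ) [Fact p.Prime] (_ : p ≠ 2) (W : WeierstrassCurve ℤ) (_ : W.Δ ≠ 0)
    (_ : Nat.card (Tp W p) = p ^ 2) (_ : W.ModRepIsIrreducible p)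
    (L' q : ℕ) [NeZero L'] [Fact q.Prime] (_ : q ≠ p) (_ : q ∣ L') (_ : ¬ q ^ 2 ∣ L')
    (_ : ∀ A : ValuationSubring Kb, A.LiesOverPrime q → ∀ σ ∈ A.inertiaSubgroupIn ℚ,
      (rho W p σ - 1) * (rho W p σ - 1) = 0)
    (_ : W.IsResiduallyModularOfLevel p (L' * q)),
    W.IsResiduallyModularOfLevel p L'

/-- **`MP2Gate → AuxStmt → SQStmt`.** -/
theorem sq_of_gate_aux (hgate : MP2Gate) (haux : AuxStmt) : SQStmt := by
  intro p _ hp2 W hΔ hcard hirr L' q _ _ hqp hqL' hq2 hunip hres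
  obtain ⟨r, hr0, -, hgood, hrem⟩ := haux p hp2 W hΔ hcard hirr L' q hqp hqL' hq2
  have hL'0 : L' ≠ 0 := NeZero.ne L'
  have hq : q.Prime := Fact.out
  haveI : NeZero (L' * r) := ⟨mul_ne_zero hL'0 hr0⟩
  refine hrem (sq_good_of_gate hgate p hp2 W hΔ hcard hirr (L' * r) q hqp hgood hunip ?_)
  refine Fermat.Agent.GB.Top.SplitT.isResiduallyModularOfLevel_of_dvd hres ⟨r, by ring⟩ ?_
  exact mul_ne_zero (mul_ne_zero hL'0 hr0) hq.ne_zero

end Fermat.Agent.GE8.SQ.Top
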