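/-
GATE-E (S59) / block E8 / node E8.SQ = `MP2Gate` (helper97, owner): THE NODE TABLE.

Level `N = L' q`, `q ∥ L'` (so `q² ∥ N`), `L'` a good auxiliary level (`GL/Final/GeomGate.GoodAuxLevel`:
no elliptic points), `A` a place of `ℚ̄` over `q`, `p` an odd prime `≠ q`, `V = Kum_p(F_N) = J₀(N)[p]`.

The route (board: GATE-E / E8 DESIGN v1 + helper29 6958 + RULING A5): "Mazur's principle at `q²`".
For an inertia-invariant class `y`, the Eisenstein twist `E_ℓ y = T_ℓ y − (ℓ+1) y` has a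
representative which is a unit along the three components of the fibre at `q` (the component group
is Eisenstein); the old-killer `t` of level `L'` kills its three reductions (the abelian part is
three copies of `J₀(L'/q)` in characteristic `q`); what is left is TORIC, and the toric part at
level `L' q` is OLD: it is `α^* T' + β^* T'` for the torus `T'` of level `L'`.

Two node statements, both in the Kummer vocabulary, with the predicate "toric" as a PARAMETER
(`TorPred`), so that the two sides can agree on its spelling without touching this file: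

* `ToTorStmt IsTor`  (valuation / reduction side: (V) + NORM3 + NODE3 + AB3, or (V) + helper29's
                      (S4) `GE8/SQ2/NormUnit.exists_normalised_unit` when `p ∤ q − 1`):
      `y ∈ V^{I_A}`, `P(T^{L'}) = 0`, `ℓ ∤ L' q` prime  ⟹  `IsTor (P(T) (E_ℓ y))`;
* `TorOldStmt IsTor` (toric side: XI-INJ + PULL + TORIC-EXIST = helper29's (TOR-OLD) + (E1)):
      `IsTor y`, `y ∈ V^{I_A}`  ⟹  `y = α^* x₁ + β^* x₂` with `x₁ x₂ ∈ Kum_p(F_{L'})`.

`GE8/SQ/Asm.lean` proves `ToTorStmt IsTor → TorOldStmt IsTor → Top.MP2Gate` for EVERY `IsTor`.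

A DEFAULT spelling of the predicate is given here: `IsTor3` (`ℚ̄`-level, the three reduction data
on main: `redDataBar` (cusp `∞`), `GL.AL.redData2Q` (`w₁ ∘ W_{q²}`), `GL.W3.redData3` (cusp
`1/L'`)): an `I_A`-fixed representative whose three reductions are `1`.  `IsU3` is the matching
spelling of "unit along the three components" for the internal seam (V)/NORM3 → AB3.
-/
import Mathlib
import Fermat.Agent.GE8.SQ.Top
import Fermat.Agent.GL.AL.SecondValHall
import Fermat.Agent.GL.Val.ThirdVal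
import Fermat.Agent.GK.UTr.KumBeta

set_option autoImplicit false
set_option linter.unusedSectionVars false

noncomputable section

namespace Fermat.Agent.GE8.SQ.Stmt

open AlgebraicCurve ModularCurve IsLocalRing
open Fermat.Agent.GJ Fermat.Agent.GJ.KumGroup Fermat.Agent.GJ.Kum.KumType
open Fermat.Agent.GJ.J1 Fermat.Agent.GJ.J1.Val
open Fermat.Agent.GK.UQ Fermat.Agent.GK.New Fermat.Agent.GK.Tate.KumHecke Fermat.Agent.GK.UTr
open Fermat.Agent.GB.A
open Fermat.Agent.GL.Final.GeomGate Fermat.Agent.GL.AL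

/-! ### the Hall divisor `q²` of `L' q` -/

/-- at a good auxiliary level `L'` (`q ∥ L'`), `q²` is a Hall divisor of `L' q`. -/
theorem hallDvd_sq {L' q : ℕ} (hq : q.Prime) (hL' : L' ≠ 0) (h1 : q ∣ L') (h2 : ¬ q ^ 2 ∣ L') :
    HallDvd (q ^ 2) (L' * q) := by
  obtain ⟨c, rfl⟩ := h1
  have hc0 : c ≠ 0 := fun h => hL' (by rw [h, mul_zero])
  have hqc : ¬ q ∣ c := fun hd => h2 (by
    obtain ⟨d, rfl⟩ := hd
    exact ⟨d, by ring⟩)
  have e : q * c * q = q ^ 2 * c := by ring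
  refine ⟨pow_pos hq.pos 2, ⟨c, e⟩, ?_⟩
  rw [e, Nat.mul_div_cancel_left _ (pow_pos hq.pos 2)]
  exact Nat.Coprime.pow_left 2 ((Nat.Prime.coprime_iff_not_dvd hq).2 hqc)

theorem hallDvd_sq_of_good {L' q : ℕ} [NeZero L'] (hq : q.Prime) (hgood : GoodAuxLevel L' q) :
    HallDvd (q ^ 2) (L' * q) :=
  hallDvd_sq hq (NeZero.ne L') hgood.1 hgood.2.1

/-! ### the parameter "toric" -/

/-- the type of a predicate "the class `y ∈ Kum_p(F_{L' q})` is toric at the place `A`". -/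
abbrev TorPred : Type :=
  ∀ (p : ℕ) [Fact p.Prime] (L' q : ℕ) [NeZero L'] [Fact q.Prime] (_ : ValuationSubring Kb),
    Additive (Kum Kb (FK (L' * q)) p) → Prop

/-! ### the two nodes -/

/-- **(V) + NORM3 + NODE3 + AB3**: the old-killer of level `L'` sends the Eisenstein twist of an
inertia-invariant class of `Kum_p(F_{L' q})` into the toric classes. -/
def ToTorStmt (IsTor : TorPred) : Prop :=
  ∀ (p : ℕ) [Fact p.Prime] (_ : p ≠ 2) (L' q : ℕ) [NeZero L'] [Fact q.Prime] (_ : q ≠ p)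
    (_ : GoodAuxLevel L' q) (A : ValuationSubring Kb) (_ : A.LiesOverPrime q)
    (S : Finset ℕ) (hL'S : ∀ r : ℕ, r.Prime → r ∣ L' → r ∈ S)
    (hMS : ∀ r : ℕ, r.Prime → r ∣ L' * q → r ∈ S) (_ : p ∈ S)
    (P : MvPolynomial (PrimeIdx S) ℤ) (_ : MvPolynomial.aeval (TfamH hL'S) P = 0)
    (ζ : ℂ) (hζ : IsPrimitiveRoot ζ p)
    (ℓ : ℕ) (hℓ : ℓ.Prime) (hℓM : ¬ ℓ ∣ L' * q) (_ : ℓ ∉ S),
    ∀ y ∈ FP.invSub (M := L' * q) A p,
      IsTor p L' q A
        (kumHecke (L' * q) (↑S : Set ℕ) p hζ (MvPolynomial.aeval (TfamH hMS) P)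
          (kumTl (L' * q) p hℓ hℓM y - ((ℓ + 1 : ℕ) : ZMod p) • y))

/-- **XI-INJ + PULL + TORIC-EXIST** (`= (TOR-OLD) + (E1)`): an inertia-invariant toric class of
level `L' q` is a sum of two classes pulled back from level `L'` along the two degeneracy maps. -/
def TorOldStmt (IsTor : TorPred) : Prop :=
  ∀ (p : ℕ) [Fact p.Prime] (_ : p ≠ 2) (L' q : ℕ) [NeZero L'] [Fact q.Prime] (_ : q ≠ p)
    (_ : GoodAuxLevel L' q) (A : ValuationSubring Kb) (_ : A.LiesOverPrime q),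
    ∀ y : Additive (Kum Kb (FK (L' * q)) p), IsTor p L' q A y → y ∈ FP.invSub (M := L' * q) A p →
      ∃ x₁ x₂ : Additive (Kum Kb (FK L') p), y = aUp L' q p x₁ + betaUp L' q p x₂

/-! ### the default spelling: three reduction data over `ℚ̄` -/

section Default

variable (p : ℕ) [Fact p.Prime] (L' q : ℕ) [NeZero L'] [Fact q.Prime] (A : ValuationSubring Kb)

/-- `u` is a unit of the valuation ring of a reduction datum. -/
def IsUnitAt {k Ft : Type*} [Field k] [Field Ft] [Algebra k Ft]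
    (R : RedData Kb (FK (L' * q)) k Ft) (u : (FK (L' * q))ˣ) : Prop :=
  (u : FK (L' * q)) ∈ R.Rw ∧ ((u⁻¹ : (FK (L' * q))ˣ) : FK (L' * q)) ∈ R.Rw

/-- the reduction of `u` is `1`. -/
def RedOne {k Ft : Type*} [Field k] [Field Ft] [Algebra k Ft]
    (R : RedData Kb (FK (L' * q)) k Ft) (u : (FK (L' * q))ˣ) : Prop :=
  ∃ hu : (u : FK (L' * q)) ∈ R.Rw, R.red ⟨(u : FK (L' * q)), hu⟩ = 1

/-- **unit along the three components**: `w₁` (cusp `∞`), `w₂ = w₁ ∘ W_{q²}`, `w₃` (cusp `1/L'`). -/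
def IsU3 (h : HallDvd (q ^ 2) (L' * q)) (u : (FK (L' * q))ˣ) : Prop :=
  IsUnitAt L' q (redDataBar (L' * q) A) u ∧ IsUnitAt L' q (redData2Q (L' * q) A h) u ∧
    IsUnitAt L' q (Fermat.Agent.GL.W3.redData3 (L' * q) A q) u

/-- **toric, default spelling**: an `I_A`-fixed representative with the three reductions `1`. -/
def IsTor3 (y : Additive (Kum Kb (FK (L' * q)) p)) : Prop :=
  ∃ (h : HallDvd (q ^ 2) (L' * q)) (u : pDivUnits Kb (FK (L' * q)) p),
    FP.FixedRep A p y u ∧ RedOne L' q (redDataBar (L' * q) A) (u : (FK (L' * q))ˣ) ∧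
      RedOne L' q (redData2Q (L' * q) A h) (u : (FK (L' * q))ˣ) ∧
      RedOne L' q (Fermat.Agent.GL.W3.redData3 (L' * q) A q) (u : (FK (L' * q))ˣ)

end Default

/-- the default predicate, as a `TorPred`. -/
def isTor3 : TorPred := fun p _ L' q _ _ A y => IsTor3 p L' q A y

/-- **the internal seam of `ToTorStmt`** (for the owners of (V)/NORM3 and of NODE3/AB3), default
spelling: (V)+NORM3 = every Eisenstein twist of an invariant class has an `I_A`-fixed
representative which is a unit along the three components. -/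
def Norm3Stmt : Prop :=
  ∀ (p : ℕ) [Fact p.Prime] (_ : p ≠ 2) (L' q : ℕ) [NeZero L'] [Fact q.Prime] (_ : q ≠ p)
    (hgood : GoodAuxLevel L' q) (A : ValuationSubring Kb) (_ : A.LiesOverPrime q)
    (ℓ : ℕ) (hℓ : ℓ.Prime) (hℓM : ¬ ℓ ∣ L' * q),
    ∀ y ∈ FP.invSub (M := L' * q) A p,
      ∃ u : pDivUnits Kb (FK (L' * q)) p,
        FP.FixedRep A p (kumTl (L' * q) p hℓ hℓM y - ((ℓ + 1 : ℕ) : ZMod p) • y) u ∧
          IsU3 L' q A (hallDvd_sq_of_good Fact.out hgood) (u : (FK (L' * q))ˣ)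

/-- NODE3 + AB3, default spelling: the old-killer of level `L'` sends the class of an `I_A`-fixed
`p`-divisible unit which is a unit along the three components to a toric class. -/
def Ab3Stmt : Prop :=
  ∀ (p : ℕ) [Fact p.Prime] (_ : p ≠ 2) (L' q : ℕ) [NeZero L'] [Fact q.Prime] (_ : q ≠ p)
    (hgood : GoodAuxLevel L' q) (A : ValuationSubring Kb) (_ : A.LiesOverPrime q)
    (S : Finset ℕ) (hL'S : ∀ r : ℕ, r.Prime → r ∣ L' → r ∈ S)
    (hMS : ∀ r : ℕ, r.Prime → r ∣ L' * q → r ∈ S) (_ : p ∈ S)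
    (P : MvPolynomial (PrimeIdx S) ℤ) (_ : MvPolynomial.aeval (TfamH hL'S) P = 0)
    (ζ : ℂ) (hζ : IsPrimitiveRoot ζ p)
    (u : pDivUnits Kb (FK (L' * q)) p),
    (∀ σ ∈ A.inertiaSubgroupIn ℚ, galUnits (L' * q) σ (u : (FK (L' * q))ˣ) = (u : (FK (L' * q))ˣ)) →
    IsU3 L' q A (hallDvd_sq_of_good Fact.out hgood) (u : (FK (L' * q))ˣ) →
      IsTor3 p L' q A
        (kumHecke (L' * q) (↑S : Set ℕ) p hζ (MvPolynomial.aeval (TfamH hMS) P)
          (Additive.ofMul (Kum.mk u)))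

/-- `Norm3Stmt ∧ Ab3Stmt ⟹ ToTorStmt isTor3`. -/
theorem toTor_of_norm3_ab3 (h1 : Norm3Stmt) (h2 : Ab3Stmt) : ToTorStmt isTor3 := by
  intro p _ hp2 L' q _ _ hqp hgood A hA S hL'S hMS hpS P hP ζ hζ ℓ hℓ hℓM _ y hy
  obtain ⟨u, ⟨hu, hfix⟩, hU3⟩ := h1 p hp2 L' q hqp hgood A hA ℓ hℓ hℓM y hy
  have := h2 p hp2 L' q hqp hgood A hA S hL'S hMS hpS P hP ζ hζ u hfix hU3
  rw [hu] at this
  exact this

end Fermat.Agent.GE8.SQ.Stmt
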