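/-
GATE-E (S59) / block E8 / node E8.SQ, ASSEMBLY (M7) (helper97):

  `mp2Gate_of_nodes : ToTorStmt IsTor → TorOldStmt IsTor → Top.MP2Gate`   (every `IsTor`),
  `sqStmt_of_nodes  : ToTorStmt IsTor → TorOldStmt IsTor → Top.AuxStmt → Top.SQStmt`.

Proof of the first.  `Q = eigQ (L' q)`, `y ∈ Q ∩ V^{I_A}`, `t = P(T)` the old-killer of level `L'`
(`t = id` on `Q`), `ℓ₀ ∉ S` a non-Eisenstein prime (`GM/NonEis`), `E = T_{ℓ₀} − (ℓ₀ + 1) = c` on `Q`
with `c ≠ 0` in `𝔽_p`.  Then `z := t (E y) = c y` is toric (`ToTorStmt`) and inertia-invariant,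
hence `z = α^* x₁ + β^* x₂` (`TorOldStmt`), and
`z = t z = α^* (P(T^{L'}) x₁) + β^* (P(T^{L'}) x₂) = 0` because every Galois-equivariant map between
Kummer groups intertwines the Hecke polynomials (`GB/A/A5/WCopy.kumHecke_aeval_comp_of_gal`,
Eichler–Shimura trick) and `P(T^{L'}) = 0`.  So `c y = 0`, `y = 0`.
-/
import Mathlib
import Fermat.Agent.GE8.SQ.Stmt
import Fermat.Agent.GB.A.A5.WCopy
import Fermat.Agent.GM.NonEis.Main

set_option autoImplicit false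
set_option linter.unusedSectionVars false
set_option linter.style.haveILetI false

noncomputable section

namespace Fermat.Agent.GE8.SQ.Asm

open AlgebraicCurve ModularCurve
open Fermat.Agent.GJ Fermat.Agent.GJ.KumGroup Fermat.Agent.GJ.Kum.KumType
open Fermat.Agent.GK.UQ Fermat.Agent.GK.New Fermat.Agent.GK.Tate.KumHecke Fermat.Agent.GK.UTr
open Fermat.Agent.GB.A Fermat.Agent.GB.A.A6.EigQ Fermat.Agent.GB.A.A5.WCopy
open Fermat.Agent.GL.Final.GeomGate
open Fermat.Agent.GE8.SQ.Top Fermat.Agent.GE8.SQ.Stmt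

/-- **the old-killer of level `L'` kills every class pulled back from level `L'`** along a
Galois-equivariant linear map. -/
theorem killer_pullback_eq_zero {L' M : ℕ} [NeZero L'] [NeZero M] (S : Finset ℕ) (p : ℕ)
    [NeZero p] {ζ : ℂ} (hζ : IsPrimitiveRoot ζ p)
    (hL'S : ∀ r : ℕ, r.Prime → r ∣ L' → r ∈ S) (hMS : ∀ r : ℕ, r.Prime → r ∣ M → r ∈ S)
    (hmS : ∀ r : ℕ, r.Prime → r ∣ p → r ∈ S)
    (f : Additive (Kum Kb (FK L') p) →ₗ[ZMod p] Additive (Kum Kb (FK M) p))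
    (hf : ∀ (σ : AlgebraicClosure ℚ ≃ₐ[ℚ] AlgebraicClosure ℚ) x,
      f (gal L' p σ x) = gal M p σ (f x))
    (P : MvPolynomial (PrimeIdx S) ℤ) (hP : MvPolynomial.aeval (TfamH hL'S) P = 0)
    (x : Additive (Kum Kb (FK L') p)) :
    kumHecke M (↑S : Set ℕ) p hζ (MvPolynomial.aeval (TfamH hMS) P) (f x) = 0 := by
  rw [← kumHecke_aeval_comp_of_gal S p hζ hL'S hMS hmS f hf P x, hP, _root_.map_zero,
    LinearMap.zero_apply, _root_.map_zero]

/-- **M7: the gate from the two nodes.** -/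
theorem mp2Gate_of_nodes (IsTor : TorPred) (hToTor : ToTorStmt IsTor)
    (hTorOld : TorOldStmt IsTor) : MP2Gate := by
  intro p _ hp2 W hΔ hcard hirr L' q _ _ hqp hgood S hL'S hMS hpS hΔS P hP0 hPid A hA y hyQ hyI
  have hp : p.Prime := Fact.out
  have hq : q.Prime := Fact.out
  haveI : NeZero p := ⟨hp.ne_zero⟩
  haveI : NeZero q := ⟨hq.ne_zero⟩
  have hmS : ∀ r : ℕ, r.Prime → r ∣ p → r ∈ S := fun r hr hrp =>
    ((Nat.prime_dvd_prime_iff_eq hr hp).1 hrp) ▸ hpS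
  have hζ : IsPrimitiveRoot (Complex.exp (2 * Real.pi * Complex.I / p)) p :=
    Complex.isPrimitiveRoot_exp p (NeZero.ne p)
  -- a non-Eisenstein prime outside `S`
  haveI : (W.map (Int.castRingHom ℚ)).IsElliptic := by
    refine ⟨?_⟩
    rw [WeierstrassCurve.map_Δ]
    exact IsUnit.mk0 _ (by simpa using hΔ)
  have hmodel : W.IsIntegralModelOf (W.map (Int.castRingHom ℚ)) := ⟨1, by rw [one_smul]⟩
  obtain ⟨ℓ₀, hℓ₀, hℓ₀S, -, -, hne⟩ :=
    Fermat.Agent.GM.NonEis.exists_good_prime_ap_ne (W.map (Int.castRingHom ℚ)) hmodel hp hp2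
      hirr S
  have hℓ₀M : ¬ ℓ₀ ∣ L' * q := fun hd => hℓ₀S (hMS ℓ₀ hℓ₀ hd)
  set a : ℕ → ℤ := fun ℓ => W.apOfModel ℓ with ha
  set c : ZMod p := ((a ℓ₀ : ℤ) : ZMod p) - ((ℓ₀ + 1 : ℕ) : ZMod p) with hc
  have hc0 : c ≠ 0 := by
    rw [hc, sub_ne_zero]
    intro h1
    apply hne
    rw [h1]
    push_cast
    ring
  set t : Module.End (ZMod p) (Additive (Kum Kb (FK (L' * q)) p)) :=
    kumHecke (L' * q) (↑S : Set ℕ) p hζ (MvPolynomial.aeval (TfamH hMS) P) with ht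
  -- `E y = c y`, `t y = y`
  have hEy : kumTl (L' * q) p hℓ₀ hℓ₀M y - ((ℓ₀ + 1 : ℕ) : ZMod p) • y = c • y := by
    rw [kumTl_eq_of_mem hyQ hℓ₀ hℓ₀S hℓ₀M, hc, sub_smul]
  have hty : t y = y := hPid _ hζ y hyQ
  -- `z = c y` is toric and invariant
  have hz : IsTor p L' q A (c • y) := by
    have h1 := hToTor p hp2 L' q hqp hgood A hA S hL'S hMS hpS P hP0 _ hζ ℓ₀ hℓ₀ hℓ₀M hℓ₀S y hyI
    rw [hEy, ← ht, map_smul, hty] at h1
    exact h1
  have hzI : c • y ∈ FP.invSub (M := L' * q) A p := Submodule.smul_mem _ _ hyI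
  obtain ⟨x₁, x₂, hx⟩ := hTorOld p hp2 L' q hqp hgood A hA (c • y) hz hzI
  -- apply `t`
  have h1 : t (c • y) = c • y := by rw [map_smul, hty]
  have h2 : t (aUp L' q p x₁ + betaUp L' q p x₂) = 0 := by
    rw [map_add, ht,
      killer_pullback_eq_zero S p hζ hL'S hMS hmS (aUp L' q p) (fun σ x => aUp_gal L' q p σ x) P
        hP0 x₁,
      killer_pullback_eq_zero S p hζ hL'S hMS hmS (betaUp L' q p)
        (fun σ x => betaUp_gal L' q p σ x) P hP0 x₂, add_zero]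
  rw [← hx, h1] at h2
  exact (smul_eq_zero.1 h2).resolve_left hc0

/-- **SQ from the two nodes and the auxiliary-prime node.** -/
theorem sqStmt_of_nodes (IsTor : TorPred) (hToTor : ToTorStmt IsTor) (hTorOld : TorOldStmt IsTor)
    (haux : AuxStmt) : SQStmt :=
  sq_of_gate_aux (mp2Gate_of_nodes IsTor hToTor hTorOld) haux

end Fermat.Agent.GE8.SQ.Asm
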