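/-
GATE-E (S59 pre-work) / E8 node SQ, leaf UNIP (helper21): the binder `hunip` of helper97's
`GE8/SQ/Top.lean` (`SQGood`, `SQStmt`, `exists_fixed_eigQ`) for a SEMISTABLE `W`:

  `∀ A ∣ q, ∀ σ ∈ I_A, (rho W p σ - 1) * (rho W p σ - 1) = 0`   (`q ≠ p`),

from `GE/Top/ECFinal.unipInertia` through helper90's `GE8/Irr2/Transv.rhoBar_sub_one_sq_of_inertia`;
and `SQStmt` / `SQGood` with the binder discharged (`sq_semistable`, `sq_good_semistable`).
-/
import Mathlib
import Fermat.Agent.GE8.SQ.Top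
import Fermat.Agent.GE8.Irr2.Transv

set_option autoImplicit false
set_option linter.unusedSectionVars false
set_option linter.unusedVariables false

namespace Fermat.Agent.GE8.SQ.Unip

open Fermat.Agent.GB.A.A6.ECDet Fermat.Agent.GE8.SQ.Top Fermat.Agent.GL.Final.GeomGate

/-- **UNIP**: inertia at `q ≠ p` acts unipotently on `W[p]` for a semistable `W`. -/
theorem hunip_of_semistable (W : WeierstrassCurve ℤ) (hss : W.IsSemistableModel) (hΔ : W.Δ ≠ 0)
    {p : ℕ} [hp : Fact p.Prime] {q : ℕ} (hq : q.Prime) (hqp : q ≠ p) :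
    ∀ A : ValuationSubring (AlgebraicClosure ℚ), A.LiesOverPrime q →
      ∀ σ ∈ A.inertiaSubgroupIn ℚ, (rho W p σ - 1) * (rho W p σ - 1) = 0 := by
  intro A hA σ hσ
  have h := Fermat.Agent.GE8.Irr2.Transv.rhoBar_sub_one_sq_of_inertia W hss hΔ hp.out hq hqp hA hσ
  rw [pow_two] at h
  exact h

/-- `SQStmt` for semistable curves, `hunip` discharged. -/
theorem sq_semistable (hsq : SQStmt) (p : ℕ) [Fact p.Prime] (hp2 : p ≠ 2)
    (W : WeierstrassCurve ℤ) (hss : W.IsSemistableModel) (hΔ : W.Δ ≠ 0)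
    (hcard : Nat.card (Tp W p) = p ^ 2) (hirr : W.ModRepIsIrreducible p)
    (L' q : ℕ) [NeZero L'] [Fact q.Prime] (hqp : q ≠ p) (hqL' : q ∣ L') (hq2 : ¬ q ^ 2 ∣ L')
    (hres : W.IsResiduallyModularOfLevel p (L' * q)) :
    W.IsResiduallyModularOfLevel p L' :=
  hsq p hp2 W hΔ hcard hirr L' q hqp hqL' hq2
    (hunip_of_semistable W hss hΔ Fact.out hqp) hres

/-- `SQGood` for semistable curves, `hunip` discharged. -/
theorem sq_good_semistable (hsq : SQGood) (p : ℕ) [Fact p.Prime] (hp2 : p ≠ 2)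
    (W : WeierstrassCurve ℤ) (hss : W.IsSemistableModel) (hΔ : W.Δ ≠ 0)
    (hcard : Nat.card (Tp W p) = p ^ 2) (hirr : W.ModRepIsIrreducible p)
    (L' q : ℕ) [NeZero L'] [Fact q.Prime] (hqp : q ≠ p) (hgood : GoodAuxLevel L' q)
    (hres : W.IsResiduallyModularOfLevel p (L' * q)) :
    W.IsResiduallyModularOfLevel p L' :=
  hsq p hp2 W hΔ hcard hirr L' q hqp hgood
    (hunip_of_semistable W hss hΔ Fact.out hqp) hres

end Fermat.Agent.GE8.SQ.Unip
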