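/-
GATE-E (S59) / block E8 / node E8.SQ (helper97, owner): THE AUXILIARY PRIME IS DISCHARGED.

With helper90's `GE8/AuxR/Sigma.exists_aux_prime_not_dvd` (an auxiliary prime `r ≡ 11 mod 12`, good
for `W`, `r ≠ p`, `a_r(W)² ≢ (r+1)² mod p`, avoiding any given `n`) and helper10's
`GE8/AuxR/Remove.removableAux` (such an `r` can be removed from the level), and helper21's
`GE8/SQ/Unip.hunip_of_semistable`:

  `sqSide_of_gate : MP2Gate → SQSideStmt`,

`SQSideStmt` := SQ for every SEMISTABLE `W` (irreducible `W[p]`, `p` odd, `q ≠ p`, `q ∥ L'`) with the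
frame side conditions `(q = 2 → 3 ∣ L')`, `(q = 3 → 2 ∣ L')` only (the same side conditions as
E8.3a `CaseA38side`; for `q ≥ 5` there is none).  No `hunip`, no `hcard`, no `AuxStmt` binder.

`sqSide_of_nodes` : the same from the two open nodes `ToTorStmt IsTor`, `TorOldStmt IsTor`.
-/
import Mathlib
import Fermat.Agent.GE8.SQ.Asm
import Fermat.Agent.GE8.SQ.Unip
import Fermat.Agent.GE8.AuxR.Sigma
import Fermat.Agent.GE8.AuxR.Remove
import Fermat.Agent.GL.AuxPrime

set_option autoImplicit false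
set_option linter.unusedSectionVars false
set_option linter.style.haveILetI false

noncomputable section

namespace Fermat.Agent.GE8.SQ.AuxPlug

open Fermat.Agent.GB.A.A6.ECDet
open Fermat.Agent.GL.Final.GeomGate
open Fermat.Agent.GE8.SQ.Top Fermat.Agent.GE8.SQ.Stmt Fermat.Agent.GE8.SQ.Asm

/-- **SQ for semistable curves, frame side conditions at `q ∈ {2, 3}` only.** -/
def SQSideStmt : Prop :=
  ∀ (p : ℕ) [Fact p.Prime] (_ : p ≠ 2) (W : WeierstrassCurve ℤ) (_ : W.IsSemistableModel)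
    (_ : W.Δ ≠ 0) (_ : W.ModRepIsIrreducible p)
    (L' q : ℕ) [NeZero L'] [Fact q.Prime] (_ : q ≠ p) (_ : q ∣ L') (_ : ¬ q ^ 2 ∣ L')
    (_ : q = 2 → 3 ∣ L') (_ : q = 3 → 2 ∣ L')
    (_ : W.IsResiduallyModularOfLevel p (L' * q)),
    W.IsResiduallyModularOfLevel p L'

/-- **`MP2Gate → SQSideStmt`**: the auxiliary prime is chosen and removed here. -/
theorem sqSide_of_gate (hgate : MP2Gate) : SQSideStmt := by
  intro p _ hp2 W hss hΔ hirr L' q _ _ hqp hqL' hq2 h2 h3 hres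
  have hp : p.Prime := Fact.out
  have hq : q.Prime := Fact.out
  have hL'0 : L' ≠ 0 := NeZero.ne L'
  have hcard : Nat.card (Tp W p) = p ^ 2 := Fermat.Agent.GE8.Irr2.Transv.card_tors W hΔ hp
  -- the auxiliary prime
  have hn0 : L' * q * p ≠ 0 := mul_ne_zero (mul_ne_zero hL'0 hq.ne_zero) hp.ne_zero
  obtain ⟨r, hr, hrn, h12, hrp, hgoodr, hne⟩ :=
    Fermat.Agent.GE8.AuxR.Sigma.exists_aux_prime_not_dvd W hss hΔ hp2 hirr hn0
  have hrL' : ¬ r ∣ L' := fun h => hrn (Dvd.dvd.mul_right (Dvd.dvd.mul_right h q) p)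
  have hrq : r ≠ q := fun h => hrn (Dvd.dvd.mul_right (h ▸ Dvd.intro_left L' rfl) p)
  haveI : NeZero (L' * r) := ⟨mul_ne_zero hL'0 hr.ne_zero⟩
  -- `L' r` is a good auxiliary level
  have hgood : GoodAuxLevel (L' * r) q := by
    refine ⟨hqL'.mul_right r, ?_, ⟨r, hr, h12, hrq, Dvd.intro_left L' rfl, ?_⟩, ?_, ?_⟩
    · intro hd
      have hcop : Nat.Coprime (q ^ 2) r :=
        Nat.Coprime.pow_left 2 ((Nat.coprime_primes hq hr).2 (Ne.symm hrq))
      exact hq2 (hcop.dvd_of_dvd_mul_right hd)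
    · intro N'' hrN
      exact ⟨Fermat.Agent.GL.AuxPrime.nuTwo_eq_zero_of_dvd hr
          (Fermat.Agent.GL.AuxPrime.mod_four_of_mod_twelve h12) hrN,
        Fermat.Agent.GL.AuxPrime.nuThree_eq_zero_of_dvd hr
          (Fermat.Agent.GL.AuxPrime.mod_three_of_mod_twelve h12) hrN⟩
    · exact fun hq2' => (h2 hq2').mul_right r
    · exact fun hq3 => (h3 hq3).mul_right r
  -- raise the level by `r`, lower at `q²`, remove `r`
  have hres' : W.IsResiduallyModularOfLevel p (L' * r * q) :=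
    Fermat.Agent.GB.Top.SplitT.isResiduallyModularOfLevel_of_dvd hres ⟨r, by ring⟩
      (mul_ne_zero (mul_ne_zero hL'0 hr.ne_zero) hq.ne_zero)
  have hlow : W.IsResiduallyModularOfLevel p (L' * r) :=
    Fermat.Agent.GE8.SQ.Unip.sq_good_semistable (sq_good_of_gate hgate) p hp2 W hss hΔ hcard hirr
      (L' * r) q hqp hgood hres'
  exact Fermat.Agent.GE8.AuxR.Remove.removableAux hp2 hΔ hirr hr hrp hgoodr hne L' hL'0 hrL' hlow

/-- **SQ (semistable, side conditions at `q ∈ {2,3}`) from the two open nodes.** -/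
theorem sqSide_of_nodes (IsTor : TorPred) (hToTor : ToTorStmt IsTor)
    (hTorOld : TorOldStmt IsTor) : SQSideStmt :=
  sqSide_of_gate (mp2Gate_of_nodes IsTor hToTor hTorOld)

end Fermat.Agent.GE8.SQ.AuxPlug
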