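/-
GATE-E (S59) / E8.SQ / M3 AB3, leaf (RES-ℚ̄) (helper39).

**RES over `ℚ̄` at the top level `N = M' q q`, `q ∤ M'`, `A ∣ q`**: the common residue field of the
two Gauss valuations `w₁` (`redDataBar N A`) and `w₂ = w₁ ∘ W_{q²}` (`GL.AL.redData2Q N A h`) of
`F_N = ℚ̄(X₀(N))` is the function field of the good level,

    `FresBar (M' q q) A = FresBar M' A`   (inside `k((Q))`, `k` the residue field of `A`).

GATE-L has this over `K₀ = ℚ̄^{I_A}` only (`GL/Val/ResK0Top`, `ResW3Top`: there it is a by-product of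
the equality case of the fundamental inequality with THREE valuations and `e₃ = q − 1`).  Over `ℚ̄`
two valuations suffice: `f₂ = q² f₁` (`red₂ j = j~^{q²}`), `f₁ = d ψ(M')` with
`d = [FresBar N A : FresBar M' A]`, and `f₁ + f₂ ≤ ψ(N) = q (q+1) ψ(M')` force
`d (q² + 1) ≤ q² + q < 2 (q² + 1)`, i.e. `d = 1`.

(The THIRD residue field is different: over `ℚ̄` the residue field of `w₃` is strictly bigger than
the rescaled copy `{z(t^N)}` of `FresBar M' A` for `q ≥ 5` — it contains `(θ j~)(t^N)`,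
`GL.W3.coe_red3_tau3` — which is why the seam for the third component is spelled in the copy.)
-/
import Mathlib
import Fermat.Agent.GL.AL.SecondValHall
import Fermat.Agent.GL.Val.DegFres
import Fermat.Agent.GL.Val.ResK0
import Fermat.Agent.GK.Val.Degrees
import Fermat.Agent.GK.QS.OldRed

set_option autoImplicit false
set_option linter.unusedSectionVars false

noncomputable section

namespace Fermat.Agent.GE8.SQ.ResBarTop

open HahnSeries ModularCurve IsLocalRing IntermediateField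
open Fermat.Agent.S24 Fermat.Agent.S24_helper62
open Fermat.Agent.GJ.J1 Fermat.Agent.GJ.J1.Val
open Fermat.Agent.GK.AL Fermat.Agent.GK.MultiVal Fermat.Agent.GK.Val.Degrees
open Fermat.Agent.GL.AL

local notation "Qb" => AlgebraicClosure ℚ

variable (M' : ℕ) [NeZero M'] {q : ℕ} [NeZero q] [NeZero (M' * q * q)]
  (A : ValuationSubring Qb)

local notation "𝕜" => ResidueField A

/-- `q²` is a Hall divisor of `M' q q` for `q ∤ M'`. -/
theorem hallDvd_top (hq : q.Prime) (hqM : ¬ q ∣ M') : HallDvd (q ^ 2) (M' * q * q) where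
  pos := pow_pos hq.pos 2
  dvd := ⟨M', by ring⟩
  coprime := by
    have h1 : M' * q * q / q ^ 2 = M' := by
      rw [mul_assoc, ← pow_two]
      exact Nat.mul_div_cancel _ (pow_pos hq.pos 2)
    rw [h1]
    exact Nat.Coprime.pow_left 2 ((Nat.Prime.coprime_iff_not_dvd hq).mpr hqM)

/-- `ψ(M' q q) = ψ(M') q (q + 1)` for `q ∤ M'`. -/
theorem dedekindPsi_top (hq : q.Prime) (hqM : ¬ q ∣ M') :
    dedekindPsi (M' * q * q) = dedekindPsi M' * (q * (q + 1)) := by
  have hcop : Nat.Coprime M' (q ^ 2) :=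
    (Nat.Coprime.pow_left 2 ((Nat.Prime.coprime_iff_not_dvd hq).mpr hqM)).symm
  have e : M' * q * q = M' * q ^ 2 := by ring
  rw [e, Fermat.Agent.S20_helper27.dedekindPsi_mul hcop,
    Fermat.Agent.S20_helper27.dedekindPsi_prime_pow hq (k := 2) (by norm_num)]
  have e2 : q ^ 2 + q ^ (2 - 1) = q * (q + 1) := by
    rw [show 2 - 1 = 1 from rfl, pow_one]; ring
  rw [e2]

/-- the arithmetic of the degree count. -/
theorem eq_one_of_count {ψ d f q : ℕ} (hψ : 0 < ψ) (hq : 2 ≤ q) (hf : 0 < f) (hmul : ψ * d = f)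
    (hsum : f + q ^ 2 * f ≤ ψ * (q * (q + 1))) : d = 1 := by
  subst hmul
  have hdpos : 0 < d := by
    rcases Nat.eq_zero_or_pos d with h0 | h0
    · rw [h0, mul_zero] at hf; exact absurd hf (lt_irrefl _)
    · exact h0
  have h3 : ψ * (d * (q ^ 2 + 1)) ≤ ψ * (q * (q + 1)) := by
    calc ψ * (d * (q ^ 2 + 1)) = ψ * d + q ^ 2 * (ψ * d) := by ring
      _ ≤ _ := hsum
  have h4 : d * (q ^ 2 + 1) ≤ q * (q + 1) := Nat.le_of_mul_le_mul_left h3 hψ
  by_contra hne
  have h2 : 2 ≤ d := by omega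
  have h5 : 2 * (q ^ 2 + 1) ≤ q * (q + 1) := (Nat.mul_le_mul_right _ h2).trans h4
  nlinarith

include M' in
/-- **RES over `ℚ̄` at the top level**: `FresBar (M' q q) A = FresBar M' A`. -/
theorem FresBar_top_eq (hq : q.Prime) (hqM : ¬ q ∣ M') (hA : A.LiesOverPrime q) :
    FresBar (M' * q * q) A = FresBar M' A := by
  have : Fact q.Prime := ⟨hq⟩
  have h := hallDvd_top M' hq hqM
  have hfd := Fermat.Agent.GJ.J1.Val.finiteDimensional_jF (M' * q * q)
  -- the fundamental inequality for `w₁`, `w₂`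
  have hsum := sum_finrank_le (redCompatQ (M' * q * q) A h)
    (Rw1_ne_Rw2Q (M' * q * q) A h hq (by norm_num : 0 < 2) rfl hA)
    (isGaussChart_jF_1 (M' * q * q) A) (isGaussChart_jF_2Q (M' * q * q) A h)
  rw [Fermat.Agent.S24_helper62.finrank_FN, dedekindPsi_top M' hq hqM] at hsum
  -- `f₁`
  have hf1 : Module.finrank 𝕜⟮(redDataBar (M' * q * q) A).red
        ⟨jF (M' * q * q), (isGaussChart_jF_1 (M' * q * q) A).1⟩⟯ (FresBar (M' * q * q) A) =
      relfinrank 𝕜⟮jqModC 𝕜⟯ (FresBar (M' * q * q) A) :=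
    f1_eq_relfinrank (M' * q * q) A _
  -- `f₂ = q² f₁`
  have hf2 : Module.finrank 𝕜⟮(redData2Q (M' * q * q) A h).red
        ⟨jF (M' * q * q), (isGaussChart_jF_2Q (M' * q * q) A h).1⟩⟯ (FresBar (M' * q * q) A) =
      q ^ 2 * relfinrank 𝕜⟮jqModC 𝕜⟯ (FresBar (M' * q * q) A) := by
    obtain ⟨hx, hred⟩ := isRed2Q_jF (M' * q * q) A h hq (e := 2) rfl hA
    have h1 : (redData2Q (M' * q * q) A h).red
        ⟨jF (M' * q * q), (isGaussChart_jF_2Q (M' * q * q) A h).1⟩ =
        jt (M' * q * q) A ^ q ^ 2 := hred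
    rw [h1, finrank_adjoin_eq_relfinrank]
    have h2 : (((jt (M' * q * q) A ^ q ^ 2 : FresBar (M' * q * q) A)) : LaurentSeries 𝕜) =
        jqModC 𝕜 ^ q ^ 2 := by
      rw [IntermediateField.coe_pow, coe_jt]
    rw [h2, ← Fermat.Agent.GL.Val.ResK0.FresC_Qb_eq_FresBar]
    exact Fermat.Agent.GL.Val.DegFres.relfinrank_pow_eq_mul Qb A (M' * q * q) hq
      hA 2
  rw [hf1, hf2] at hsum
  -- `f₁ = ψ(M') d`
  have hle : FresBar M' A ≤ FresBar (M' * q * q) A :=
    (Fermat.Agent.GK.QS.FresBar_le_mul M' q A).trans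
      (Fermat.Agent.GK.QS.FresBar_le_mul (M' * q) q A)
  have hj : 𝕜⟮jqModC 𝕜⟯ ≤ FresBar M' A := by
    rw [adjoin_simple_le_iff]
    exact jqModC_mem_FresBar M' A
  have hmul := relfinrank_mul_relfinrank hj hle
  rw [relfinrank_FresBar M' q A hqM hA] at hmul
  have hf1pos : 0 < relfinrank 𝕜⟮jqModC 𝕜⟯ (FresBar (M' * q * q) A) := by
    rw [← hf1]
    have := (finiteDimensional_f1 (M' * q * q) A (isGaussChart_jF_1 (M' * q * q) A).1).1
    exact Module.finrank_pos
  have hψ : 0 < dedekindPsi M' := Fermat.Agent.GJ.J1.Desc.dedekindPsi_pos M'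
  have hd1 := eq_one_of_count hψ hq.two_le hf1pos hmul hsum
  rw [relfinrank_eq_one_iff] at hd1
  exact le_antisymm hd1 hle

end Fermat.Agent.GE8.SQ.ResBarTop
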