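/-
GATE-E (S59) / E8.SQ / M3 AB3, leaf (A3.1) = AB3₁ and (A3.2) = AB3₂ (helper39).

LEVEL `N = M' q q`, `q ∤ M'`, `A` a place of `ℚ̄` over `q`, `m ≥ 1` prime to `q`.
Twin of `GB/A/A5/KerRedUp.exists_sub_aUp_mem_kerRed` (level `N' q`, `q ∥`) two levels up.

* `exists_sub_aUp_aUp_mem_kerRed` (**AB3₁**): a class `[u] ∈ Kum_m(F_N)` with a representative `u`
  which is a unit of the first Gauss valuation `w₁` and whose reduction
  `ū₁ ∈ FresBar N A = FresBar M' A` (`ResBarTop.FresBar_top_eq`) is `m`-divisible differs from a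
  class pulled back from the GOOD level `M'` along `γ₁ = α ∘ α` by an element of `ker r₁`:
      `∃ x₁ ∈ Kum_m(F_{M'}),  [u] − α^* α^* x₁ ∈ kerRed N A m`;
* `exists_sub_W_aUp_aUp_mem_kerRedW` (**AB3₂**): the same for `w₂ = w₁ ∘ W` for ANY automorphism
  `W` of `F_N` over `ℚ̄` (to be used with `W = GL.AL.wAutQ h`, `h : HallDvd (q²) N`, for which
  `(redData2Q N A h).red u = (redDataBar N A).red (W u)` by definition):
      `∃ x₂ ∈ Kum_m(F_{M'}),  [u] − W⁻¹ α^* α^* x₂ ∈ kerRedW N A W m`.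

Proof of AB3₁: `ū₁` lifts to an `m`-divisible Gauss unit `u₁` of `F_{M'}` with `red u₁ = ū₁`
EXACTLY (helper19 `GB/A/K2Gen/Bar.exists_lift_unit_bar`), the Gauss valuation of level `N'' q`
restricts to that of level `N''` with the same reduction (helper15 `GK/QS/OldRed`, used twice), so
`u / α α u₁` is a principal unit.
-/
import Mathlib
import Fermat.Agent.GB.A.K2Gen.Bar
import Fermat.Agent.GB.A.A5.KerRedUp
import Fermat.Agent.GE8.SQ.ResBarTop

set_option autoImplicit false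
set_option linter.unusedSectionVars false
set_option synthInstance.maxHeartbeats 400000
set_option maxHeartbeats 1000000

noncomputable section

open AlgebraicCurve ModularCurve IsLocalRing

namespace Fermat.Agent.GE8.SQ.Ab31

open Fermat.Agent.S24 Fermat.Agent.GJ.J1 Fermat.Agent.GJ.J1.Val Fermat.Agent.GJ.HN
  Fermat.Agent.GJ.KumGroup Fermat.Agent.GJ.Kum.KumType Fermat.Agent.GH.Inst
  Fermat.Agent.GK.AL Fermat.Agent.GK.UqKronecker Fermat.Agent.GK.UTr Fermat.Agent.GK.PsiFNGood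
  Fermat.Agent.GK.QS Fermat.Agent.GK.New Fermat.Agent.GK.Tate.KumHecke
  Fermat.Agent.GB.A.A5.KerRedUp

variable {q : ℕ} [Fact q.Prime] (A : ValuationSubring Kbar) (hA : A.LiesOverPrime q)
variable (M' : ℕ) [NeZero M']

local notation "𝕜" => ResidueField A

include hA in
/-- **AB3₁**: the class of a `w₁`-unit of level `M' q q` with `m`-divisible reduction is, modulo
`ker r₁`, pulled back from the good level `M'` along `α ∘ α`. -/
theorem exists_sub_aUp_aUp_mem_kerRed (hqM : ¬ q ∣ M') (h2 : q = 2 → 3 ∣ M')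
    (h3 : q = 3 → 2 ∣ M') {m : ℕ} (hm : 1 ≤ m) (hqm : ¬ q ∣ m)
    (u : pDivUnits Kb (FK (M' * q * q)) m)
    (h1 : ((u : (FK (M' * q * q))ˣ) : FK (M' * q * q)) ∈ (redDataBar (M' * q * q) A).Rw)
    (hr : (redDataBar (M' * q * q) A).red
      ⟨((u : (FK (M' * q * q))ˣ) : FK (M' * q * q)), h1⟩ ≠ 0)
    (hd : ∀ Q : Place 𝕜 (FresBar (M' * q * q) A),
      (m : ℤ) ∣ Q.ord ((redDataBar (M' * q * q) A).red
        ⟨((u : (FK (M' * q * q))ˣ) : FK (M' * q * q)), h1⟩)) :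
    ∃ x₁ : Additive (Kum Kb (FK M') m),
      Additive.ofMul (Kum.mk u) - aUp (M' * q) q m (aUp M' q m x₁) ∈
        kerRed (M' * q * q) A m := by
  have hq : q.Prime := Fact.out
  set ub : FresBar (M' * q * q) A :=
    (redDataBar (M' * q * q) A).red ⟨((u : (FK (M' * q * q))ˣ) : FK (M' * q * q)), h1⟩
    with hub_def
  -- transport to the residue field of the good level
  have hEq : FresBar (M' * q * q) A = FresBar M' A :=
    Fermat.Agent.GE8.SQ.ResBarTop.FresBar_top_eq M' A hq hqM hA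
  have hubT : (ub : LaurentSeries 𝕜) ∈ FresBar M' A := hEq ▸ ub.2
  set ub' : FresBar M' A := ⟨(ub : LaurentSeries 𝕜), hubT⟩ with hub'_def
  have hubL : (ub : LaurentSeries 𝕜) ≠ 0 := fun h => hr (ZeroMemClass.coe_eq_zero.mp h)
  have hub'0 : ub' ≠ 0 := fun h0 => hubL ((ZeroMemClass.coe_eq_zero (x := ub')).mpr h0)
  have hd' : ∀ Q : Place 𝕜 (FresBar M' A), (m : ℤ) ∣ Q.ord ub' :=
    forall_dvd_ord_of_eq hEq (m : ℤ) (ub : LaurentSeries 𝕜) ub.2 hubT hd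
  -- the lift at the good level
  obtain ⟨v₁, hred₁', hdiv₁⟩ :=
    Fermat.Agent.GB.A.K2Gen.Bar.exists_lift_unit_bar M' A hq hqM h2 h3 hA hm hqm hub'0 hd'
  have hv₁0 : ((v₁ : (redDataBar M' A).Rw) : FK M') ≠ 0 :=
    coe_ne_zero_of_red_ne_zero (by rw [hred₁']; exact hub'0)
  set u₁ : pDivUnits Kb (FK M') m := ⟨Units.mk0 _ hv₁0, fun P => hdiv₁ P⟩ with hu₁_def
  have hu₁ : ((u₁ : (FK M')ˣ) : FK M') ∈ (redDataBar M' A).Rw := v₁.2
  have hred₁ : (redDataBar M' A).red ⟨((u₁ : (FK M')ˣ) : FK M'), hu₁⟩ = ub' := hred₁'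
  -- its pull-back to level `M' q`
  have hα : alphaB M' q ((u₁ : (FK M')ˣ) : FK M') ∈ (redDataBar (M' * q) A).Rw :=
    (alpha_mem_RwBar_iff M' q A _).mpr hu₁
  have hαred : (((redDataBar (M' * q) A).red ⟨alphaB M' q ((u₁ : (FK M')ˣ) : FK M'), hα⟩ :
      FresBar (M' * q) A) : LaurentSeries 𝕜) = (ub : LaurentSeries 𝕜) :=
    (coe_red_alpha M' q A ⟨((u₁ : (FK M')ˣ) : FK M'), hu₁⟩ hα).trans
      (congrArg (fun z : FresBar M' A => (z : LaurentSeries 𝕜)) hred₁)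
  -- and to level `M' q q`
  have hαα : alphaB (M' * q) q (alphaB M' q ((u₁ : (FK M')ˣ) : FK M')) ∈
      (redDataBar (M' * q * q) A).Rw :=
    (alpha_mem_RwBar_iff (M' * q) q A _).mpr hα
  have hααred : (redDataBar (M' * q * q) A).red
      ⟨alphaB (M' * q) q (alphaB M' q ((u₁ : (FK M')ˣ) : FK M')), hαα⟩ = ub := by
    apply Subtype.ext
    exact (coe_red_alpha (M' * q) q A ⟨alphaB M' q ((u₁ : (FK M')ˣ) : FK M'), hα⟩ hαα).trans
      hαred
  refine ⟨Additive.ofMul (Kum.mk u₁), ?_⟩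
  rw [aUp_mk, aUp_mk]
  refine ofMul_sub_mem_kerRedW (W := RingEquiv.refl (FK (M' * q * q))) u _ ?_
  show IsCPrin (hasGaussFrac_bar (M' * q * q) A)
    (((u : (FK (M' * q * q))ˣ) : FK (M' * q * q)) /
      alphaB (M' * q) q (alphaB M' q ((u₁ : (FK M')ˣ) : FK M')))
  refine IsPrin.isCPrin ?_
  -- `u / α α u₁` is a principal unit
  have hαi : (alphaB (M' * q) q (alphaB M' q ((u₁ : (FK M')ˣ) : FK M')))⁻¹ ∈
      (redDataBar (M' * q * q) A).Rw :=
    inv_mem_of_red_ne_zero (R := redDataBar (M' * q * q) A) ⟨_, hαα⟩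
      (by rw [hααred]; exact hr)
  have hmem : ((u : (FK (M' * q * q))ˣ) : FK (M' * q * q)) /
      alphaB (M' * q) q (alphaB M' q ((u₁ : (FK M')ˣ) : FK M')) ∈
      (redDataBar (M' * q * q) A).Rw := by
    rw [div_eq_mul_inv]
    exact (redDataBar (M' * q * q) A).Rw.mul_mem _ _ h1 hαi
  refine ⟨hmem, ?_⟩
  have hred : (redDataBar (M' * q * q) A).red ⟨_, hmem⟩ = 1 := by
    have e : (⟨_, hmem⟩ : (redDataBar (M' * q * q) A).Rw) =
        ⟨((u : (FK (M' * q * q))ˣ) : FK (M' * q * q)), h1⟩ * ⟨_, hαi⟩ :=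
      Subtype.ext (div_eq_mul_inv _ _)
    rw [e, map_mul,
      red_inv_of_red_ne_zero (R := redDataBar (M' * q * q) A) ⟨_, hαα⟩
        (by rw [hααred]; exact hr) hαi, hααred]
    exact mul_inv_cancel₀ hr
  have hred' := congrArg (fun z : FresBar (M' * q * q) A => (z : LaurentSeries 𝕜)) hred
  exact hred'

include hA in
/-- **AB3₂**: the same along `w₂ = w₁ ∘ W`, for any automorphism `W` of `F_{M' q q}` over `ℚ̄`:
if `W u` is a `w₁`-unit with `m`-divisible reduction, then `[u] − W⁻¹ α^* α^* x₂ ∈ ker (r₁ ∘ W)`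
for some `x₂ ∈ Kum_m(F_{M'})`. -/
theorem exists_sub_W_aUp_aUp_mem_kerRedW (hqM : ¬ q ∣ M') (h2 : q = 2 → 3 ∣ M')
    (h3 : q = 3 → 2 ∣ M') {m : ℕ} (hm : 1 ≤ m) (hqm : ¬ q ∣ m)
    (W : FK (M' * q * q) ≃ₐ[Kb] FK (M' * q * q))
    (u : pDivUnits Kb (FK (M' * q * q)) m)
    (h1 : W ((u : (FK (M' * q * q))ˣ) : FK (M' * q * q)) ∈ (redDataBar (M' * q * q) A).Rw)
    (hr : (redDataBar (M' * q * q) A).red
      ⟨W ((u : (FK (M' * q * q))ˣ) : FK (M' * q * q)), h1⟩ ≠ 0)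
    (hd : ∀ Q : Place 𝕜 (FresBar (M' * q * q) A),
      (m : ℤ) ∣ Q.ord ((redDataBar (M' * q * q) A).red
        ⟨W ((u : (FK (M' * q * q))ˣ) : FK (M' * q * q)), h1⟩)) :
    ∃ x₂ : Additive (Kum Kb (FK M') m),
      Additive.ofMul (Kum.mk u) - autEnd W.symm m (aUp (M' * q) q m (aUp M' q m x₂)) ∈
        kerRedW (M' * q * q) A (W : FK (M' * q * q) ≃+* FK (M' * q * q)) m := by
  obtain ⟨x₂, hx₂⟩ := exists_sub_aUp_aUp_mem_kerRed A hA M' hqM h2 h3 hm hqm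
    ⟨autUnits W u, autUnits_mem W m u u.2⟩ h1 hr hd
  refine ⟨x₂, ?_⟩
  rw [mem_kerRedW_iff, map_sub, autEnd_autEnd_symm, autEnd_mk]
  exact hx₂

end Fermat.Agent.GE8.SQ.Ab31
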