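/-
GATE-E (S59) / block E8 / node E8.SQ (helper97, owner): THE INTERNAL SEAMS of `Stmt.Ab3Stmt`
(valuation / reduction side), as verbatim three-valuation twins of `GB/A/FP.lean`
(asked for by helper92 7036 (Q3) and helper39 7039 (A3.5)).

Level `N = L' q`, `q ∥ L'`, `h : HallDvd (q²) N`, `A ∣ q`; the three reduction data over `ℚ̄`
  `R₁ = redDataBar N A`            (cusp `∞`,           residue field `FresBar N A`),
  `R₂ = GL.AL.redData2Q N A h`     (`w₁ ∘ W_{q²}`,      residue field `FresBar N A`),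
  `R₃ = GL.W3.redData3 N A q`      (cusp `1/L'`,        residue field `FresCusp N A (cusp3 N q)`).
`Stmt.IsU3` (on main) is "TriUnit".

* `redUnit₁ redUnit₂ redUnit₃`  : the three reductions of a `IsU3` unit;
* `NodeHyp3`   : (M2 NODE3) twin of `FP.NodeHyp` with a third conjunct, ANY modulus `m`;
* `IsCPrinAt R z`, `kerRD R m` : "`z` is a nonzero constant times a principal unit of `R`", and the
                 classes of `Kum_m(F_N)` having such a representative (generic `ker r`);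
                 `K₁ = GK.kerRed N A m`, `K₂ = GK.kerRedW N A W_{q²} m` (both on main, level-free),
                 `K₃ = kerRD R₃ m`;  `tor3 = K₁ ⊓ K₂ ⊓ K₃`;
* `AbHyp3 t`   : (M3 AB3) twin of `FP.AbHyp`: three `m`-divisible reductions ⟹ `t [u] ∈ tor3`;
* `HeckeU3 t`  : (V-val) the classes with an `I_A`-fixed `IsU3` representative are stable under `t`;
* `Approx3`    : (APPROX) a class with an `I_A`-fixed `IsU3` representative lying in `tor3` (three
                 SEPARATE representatives over `ℚ̄`, constants allowed) is `Stmt.IsTor3` (ONE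
                 `I_A`-fixed representative with the three reductions `1`): because `w_i(u) = 0`
                 the three reductions of `u` are `p`-th powers in the residue fields, lift the
                 roots `K₀`-rationally and approximate (`GL/Chain/OneModRad.exists_one_mod_rad`);
* `ab3_of_parts` : `NodeHyp3 ∧ AbHyp3 ∧ HeckeU3 ∧ Approx3 ⟹ Stmt.Ab3Stmt` (all in `∀`-closed form).
-/
import Mathlib
import Fermat.Agent.GE8.SQ.Stmt

set_option autoImplicit false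
set_option linter.unusedSectionVars false

noncomputable section

namespace Fermat.Agent.GE8.SQ.Stmt3

open AlgebraicCurve ModularCurve IsLocalRing
open Fermat.Agent.GJ Fermat.Agent.GJ.KumGroup Fermat.Agent.GJ.Kum.KumType
open Fermat.Agent.GJ.J1 Fermat.Agent.GJ.J1.Val
open Fermat.Agent.GK.UQ Fermat.Agent.GK.New Fermat.Agent.GK.Tate.KumHecke Fermat.Agent.GK.UTr
open Fermat.Agent.GK.UqKronecker
open Fermat.Agent.GB.A
open Fermat.Agent.GL.Final.GeomGate Fermat.Agent.GL.AL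
open Fermat.Agent.GE8.SQ.Stmt

/-! ### generic `ker r` of a reduction datum -/

section Generic

variable {N : ℕ} [NeZero N] {k Ft : Type*} [Field k] [Field Ft] [Algebra k Ft]
  (R : RedData Kb (FK N) k Ft)

/-- `z` is a nonzero constant times a principal unit of the reduction datum `R`. -/
def IsCPrinAt (z : FK N) : Prop :=
  ∃ c : Kb, c ≠ 0 ∧ ∃ hz : algebraMap Kb (FK N) c * z ∈ R.Rw,
    R.red ⟨algebraMap Kb (FK N) c * z, hz⟩ = 1

theorem isCPrinAt_one : IsCPrinAt R (1 : FK N) := by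
  refine ⟨1, one_ne_zero, ?_⟩
  have h1 : algebraMap Kb (FK N) 1 * (1 : FK N) = 1 := by rw [map_one, one_mul]
  refine ⟨by rw [h1]; exact R.Rw.one_mem, ?_⟩
  have : (⟨algebraMap Kb (FK N) 1 * (1 : FK N), by rw [h1]; exact R.Rw.one_mem⟩ : R.Rw) = 1 :=
    Subtype.ext h1
  rw [this, map_one]

theorem IsCPrinAt.mul {z w : FK N} (hz : IsCPrinAt R z) (hw : IsCPrinAt R w) :
    IsCPrinAt R (z * w) := by
  obtain ⟨c, hc, h1, r1⟩ := hz
  obtain ⟨d, hd, h2, r2⟩ := hw
  have e : algebraMap Kb (FK N) (c * d) * (z * w) =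
      (algebraMap Kb (FK N) c * z) * (algebraMap Kb (FK N) d * w) := by
    rw [map_mul]; ring
  refine ⟨c * d, mul_ne_zero hc hd, by rw [e]; exact R.Rw.mul_mem _ _ h1 h2, ?_⟩
  have : (⟨algebraMap Kb (FK N) (c * d) * (z * w), by rw [e]; exact R.Rw.mul_mem _ _ h1 h2⟩ :
      R.Rw) = ⟨_, h1⟩ * ⟨_, h2⟩ := Subtype.ext e
  rw [this, map_mul, r1, r2, one_mul]

theorem IsCPrinAt.inv {z : FK N} (hz : IsCPrinAt R z) : IsCPrinAt R z⁻¹ := by
  obtain ⟨c, hc, h1, r1⟩ := hz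
  set x : R.Rw := ⟨algebraMap Kb (FK N) c * z, h1⟩ with hx
  have hxu : IsUnit x := by
    by_contra hnu
    have : x ∈ IsLocalRing.maximalIdeal R.Rw := hnu
    rw [← R.red_eq_zero_iff, r1] at this
    exact one_ne_zero this
  obtain ⟨v, hv⟩ := hxu
  have hcz : algebraMap Kb (FK N) c * z ≠ 0 := by
    intro h0
    have : x = 0 := Subtype.ext h0
    rw [this, map_zero] at r1
    exact zero_ne_one r1
  have e : algebraMap Kb (FK N) c⁻¹ * z⁻¹ = ((v⁻¹ : R.Rwˣ) : R.Rw) := by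
    have h3 : (x : FK N) * (((v⁻¹ : R.Rwˣ) : R.Rw) : FK N) = 1 := by
      rw [← hv, ← Subring.coe_mul, Units.mul_inv]; rfl
    have h4 : (x : FK N) = algebraMap Kb (FK N) c * z := rfl
    rw [h4] at h3
    rw [map_inv₀, ← mul_inv, eq_comm]
    exact eq_inv_of_mul_eq_one_right h3
  refine ⟨c⁻¹, inv_ne_zero hc, by rw [e]; exact Subtype.mem _, ?_⟩
  have h5 : (⟨algebraMap Kb (FK N) c⁻¹ * z⁻¹, by rw [e]; exact Subtype.mem _⟩ : R.Rw) =
      ((v⁻¹ : R.Rwˣ) : R.Rw) := Subtype.ext e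
  rw [h5]
  have h6 : R.red ((v : R.Rwˣ) : R.Rw) * R.red ((v⁻¹ : R.Rwˣ) : R.Rw) = 1 := by
    rw [← map_mul, Units.mul_inv, map_one]
  rw [hv, r1, one_mul] at h6
  exact h6

/-- the units of `F_N` which are a constant times a principal unit of `R`. -/
def cprinAt : Subgroup (FK N)ˣ where
  carrier := {u | IsCPrinAt R (u : FK N)}
  one_mem' := by
    show IsCPrinAt R ((1 : (FK N)ˣ) : FK N)
    rw [Units.val_one]
    exact isCPrinAt_one R
  mul_mem' := by
    intro a b ha hb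
    show IsCPrinAt R ((a * b : (FK N)ˣ) : FK N)
    rw [Units.val_mul]
    exact IsCPrinAt.mul R ha hb
  inv_mem' := by
    intro a ha
    show IsCPrinAt R ((a⁻¹ : (FK N)ˣ) : FK N)
    rw [Units.val_inv_eq_inv_val]
    exact IsCPrinAt.inv R ha

/-- **generic `ker r`** on `Kum_m(F_N)`: the classes having a representative which is a constant
times a principal unit of `R`. -/
def kerRD (m : ℕ) : AddSubgroup (Additive (Kum Kb (FK N) m)) :=
  Subgroup.toAddSubgroup
    (((cprinAt R).subgroupOf (pDivUnits Kb (FK N) m)).map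
      (Kum.mk : pDivUnits Kb (FK N) m →* Kum Kb (FK N) m))

variable {R} in
theorem mem_kerRD {m : ℕ} {x : Additive (Kum Kb (FK N) m)} :
    x ∈ kerRD R m ↔ ∃ u : pDivUnits Kb (FK N) m,
      IsCPrinAt R ((u : (FK N)ˣ) : FK N) ∧ Additive.ofMul (Kum.mk u) = x := by
  constructor
  · rintro ⟨u, hu, rfl⟩
    exact ⟨u, hu, rfl⟩
  · rintro ⟨u, hu, rfl⟩
    exact ⟨u, hu, rfl⟩

end Generic

/-! ### the three-valuation twins of `FP` -/

section Twins

variable {L' q : ℕ} [NeZero L'] [Fact q.Prime] (A : ValuationSubring Kb)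
  (h : HallDvd (q ^ 2) (L' * q)) (m : ℕ)

local notation "𝕜" => ResidueField A

variable {A h} in
/-- `red₁ u`. -/
def redUnit₁ {u : (FK (L' * q))ˣ} (hu : IsU3 L' q A h u) : (FresBar (L' * q) A)ˣ :=
  FP.redUnit (redDataBar (L' * q) A) u hu.1.1 hu.1.2

variable {A h} in
/-- `red₂ u`. -/
def redUnit₂ {u : (FK (L' * q))ˣ} (hu : IsU3 L' q A h u) : (FresBar (L' * q) A)ˣ :=
  FP.redUnit (redData2Q (L' * q) A h) u hu.2.1.1 hu.2.1.2

variable {A h} in
/-- `red₃ u`. -/
def redUnit₃ {u : (FK (L' * q))ˣ} (hu : IsU3 L' q A h u) :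
    (Fermat.Agent.GL.CuspVal.FresCusp (L' * q) A (Fermat.Agent.GL.W3.cusp3 (L' * q) q))ˣ :=
  FP.redUnit (Fermat.Agent.GL.W3.redData3 (L' * q) A q) u hu.2.2.1 hu.2.2.2

/-- **(M2 NODE3)**: for an `I_A`-fixed `m`-divisible unit which is a unit along the three
components, the three reductions are `m`-divisible units of the residue function fields. -/
def NodeHyp3 : Prop :=
  ∀ u : pDivUnits Kb (FK (L' * q)) m,
    (∀ σ ∈ A.inertiaSubgroupIn ℚ,
      galUnits (L' * q) σ (u : (FK (L' * q))ˣ) = (u : (FK (L' * q))ˣ)) →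
    ∀ hu : IsU3 L' q A h (u : (FK (L' * q))ˣ),
      redUnit₁ hu ∈ pDivUnits 𝕜 (FresBar (L' * q) A) m ∧
        redUnit₂ hu ∈ pDivUnits 𝕜 (FresBar (L' * q) A) m ∧
        redUnit₃ hu ∈ pDivUnits 𝕜
          (Fermat.Agent.GL.CuspVal.FresCusp (L' * q) A (Fermat.Agent.GL.W3.cusp3 (L' * q) q)) m

/-- **the toric part, `ℚ̄`-level spelling**: `ker r₁ ⊓ ker r₂ ⊓ ker r₃`. -/
def tor3 : AddSubgroup (Additive (Kum Kb (FK (L' * q)) m)) :=
  kerRed (L' * q) A m ⊓
    kerRedW (L' * q) A ((wAutQ h : FK (L' * q) ≃ₐ[Kb] FK (L' * q)) : FK (L' * q) ≃+* FK (L' * q)) m ⊓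
    kerRD (Fermat.Agent.GL.W3.redData3 (L' * q) A q) m

/-- **(M3 AB3)** for an endomorphism `t` (the old-killer): an `m`-divisible unit, unit along the
three components, whose three reductions are `m`-divisible, has `t [u] ∈ K₁ ⊓ K₂ ⊓ K₃`. -/
def AbHyp3 (t : Module.End (ZMod m) (Additive (Kum Kb (FK (L' * q)) m))) : Prop :=
  ∀ (u : pDivUnits Kb (FK (L' * q)) m) (hu : IsU3 L' q A h (u : (FK (L' * q))ˣ)),
    redUnit₁ hu ∈ pDivUnits 𝕜 (FresBar (L' * q) A) m →
    redUnit₂ hu ∈ pDivUnits 𝕜 (FresBar (L' * q) A) m →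
    redUnit₃ hu ∈ pDivUnits 𝕜
      (Fermat.Agent.GL.CuspVal.FresCusp (L' * q) A (Fermat.Agent.GL.W3.cusp3 (L' * q) q)) m →
      t (Additive.ofMul (Kum.mk u)) ∈ tor3 A h m

/-- the class `y` has an `I_A`-fixed representative which is a unit along the three components. -/
def HasU3Rep (y : Additive (Kum Kb (FK (L' * q)) m)) : Prop :=
  ∃ u : pDivUnits Kb (FK (L' * q)) m, FP.FixedRep A m y u ∧ IsU3 L' q A h (u : (FK (L' * q))ˣ)

/-- **(V-val)** for `t`: the classes with an `I_A`-fixed `IsU3` representative are stable under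
`t` (`w_i (T_ℓ u) = (ℓ+1) w_i(u)` and `T_ℓ u` is `I_A`-fixed when `u` is). -/
def HeckeU3 (t : Module.End (ZMod m) (Additive (Kum Kb (FK (L' * q)) m))) : Prop :=
  ∀ y, HasU3Rep A h m y → HasU3Rep A h m (t y)

end Twins

/-! ### the `∀`-closed forms and the plug into `Stmt.Ab3Stmt` -/

/-- **(M2 NODE3), closed form**, modulus `p`. -/
def NodeHyp3Stmt : Prop :=
  ∀ (p : ℕ) [Fact p.Prime] (_ : p ≠ 2) (L' q : ℕ) [NeZero L'] [Fact q.Prime] (_ : q ≠ p)
    (hgood : GoodAuxLevel L' q) (A : ValuationSubring Kb) (_ : A.LiesOverPrime q),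
    NodeHyp3 (L' := L') (q := q) A (hallDvd_sq_of_good Fact.out hgood) p

/-- **(M3 AB3), closed form**: for every old-killer `t = P(T^{L' q})`, `P(T^{L'}) = 0`. -/
def AbHyp3Stmt : Prop :=
  ∀ (p : ℕ) [Fact p.Prime] (_ : p ≠ 2) (L' q : ℕ) [NeZero L'] [Fact q.Prime] (_ : q ≠ p)
    (hgood : GoodAuxLevel L' q) (A : ValuationSubring Kb) (_ : A.LiesOverPrime q)
    (S : Finset ℕ) (hL'S : ∀ r : ℕ, r.Prime → r ∣ L' → r ∈ S)
    (hMS : ∀ r : ℕ, r.Prime → r ∣ L' * q → r ∈ S) (_ : p ∈ S)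
    (P : MvPolynomial (PrimeIdx S) ℤ) (_ : MvPolynomial.aeval (TfamH hL'S) P = 0)
    (ζ : ℂ) (hζ : IsPrimitiveRoot ζ p),
    AbHyp3 (L' := L') (q := q) A (hallDvd_sq_of_good Fact.out hgood) p
      (kumHecke (L' * q) (↑S : Set ℕ) p hζ (MvPolynomial.aeval (TfamH hMS) P))

/-- **(V-val), closed form**: every integer polynomial in the good Hecke operators preserves the
classes with an `I_A`-fixed `IsU3` representative. -/
def HeckeU3Stmt : Prop :=
  ∀ (p : ℕ) [Fact p.Prime] (_ : p ≠ 2) (L' q : ℕ) [NeZero L'] [Fact q.Prime] (_ : q ≠ p)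
    (hgood : GoodAuxLevel L' q) (A : ValuationSubring Kb) (_ : A.LiesOverPrime q)
    (S : Finset ℕ) (hMS : ∀ r : ℕ, r.Prime → r ∣ L' * q → r ∈ S) (_ : p ∈ S)
    (P : MvPolynomial (PrimeIdx S) ℤ) (ζ : ℂ) (hζ : IsPrimitiveRoot ζ p),
    HeckeU3 (L' := L') (q := q) A (hallDvd_sq_of_good Fact.out hgood) p
      (kumHecke (L' * q) (↑S : Set ℕ) p hζ (MvPolynomial.aeval (TfamH hMS) P))

/-- **(APPROX), closed form**: a class with an `I_A`-fixed `IsU3` representative lying in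
`K₁ ⊓ K₂ ⊓ K₃` is toric in the sense of `Stmt.IsTor3`. -/
def Approx3Stmt : Prop :=
  ∀ (p : ℕ) [Fact p.Prime] (_ : p ≠ 2) (L' q : ℕ) [NeZero L'] [Fact q.Prime] (_ : q ≠ p)
    (hgood : GoodAuxLevel L' q) (A : ValuationSubring Kb) (_ : A.LiesOverPrime q)
    (y : Additive (Kum Kb (FK (L' * q)) p)),
    HasU3Rep (L' := L') (q := q) A (hallDvd_sq_of_good Fact.out hgood) p y →
    y ∈ tor3 (L' := L') (q := q) A (hallDvd_sq_of_good Fact.out hgood) p →
      IsTor3 p L' q A y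

/-- **`NodeHyp3 ∧ AbHyp3 ∧ HeckeU3 ∧ Approx3 ⟹ Stmt.Ab3Stmt`.** -/
theorem ab3_of_parts (hnode : NodeHyp3Stmt) (hab : AbHyp3Stmt) (hV : HeckeU3Stmt)
    (happ : Approx3Stmt) : Ab3Stmt := by
  intro p _ hp2 L' q _ _ hqp hgood A hA S hL'S hMS hpS P hP ζ hζ u hfix hU3
  obtain ⟨n1, n2, n3⟩ := hnode p hp2 L' q hqp hgood A hA u hfix hU3
  have h1 := hab p hp2 L' q hqp hgood A hA S hL'S hMS hpS P hP ζ hζ u hU3 n1 n2 n3
  have h2 := hV p hp2 L' q hqp hgood A hA S hMS hpS P ζ hζ _ ⟨u, ⟨rfl, hfix⟩, hU3⟩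
  exact happ p hp2 L' q hqp hgood A hA _ h2 h1

/-- **the whole valuation / reduction side**: `Norm3 ∧ NodeHyp3 ∧ AbHyp3 ∧ HeckeU3 ∧ Approx3 ⟹
ToTorStmt isTor3`. -/
theorem toTor_of_parts (hnorm : Norm3Stmt) (hnode : NodeHyp3Stmt) (hab : AbHyp3Stmt)
    (hV : HeckeU3Stmt) (happ : Approx3Stmt) : ToTorStmt isTor3 :=
  toTor_of_norm3_ab3 hnorm (ab3_of_parts hnode hab hV happ)

end Fermat.Agent.GE8.SQ.Stmt3
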