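/-
GATE-E (S59) / E8.SQ / M3 AB3, leaf (A3.3) = AB3₃ (helper39).

LEVEL `N = M' q q`, `q ∤ M'`, `A ∣ q`, `R₃ = GL.W3.redData3 N A q` (the Gauss valuation `w₃` of the
expansion at the cusp `1/(q M')`), `m ≥ 1` prime to `q`.

Over `ℚ̄` the residue field `FresCusp N A (cusp3 N q)` of `w₃` is STRICTLY bigger than the rescaled
copy `κ₃ = { z(t^N) : z ∈ FresBar M' A }` of the function field of `X₀(M')` (it contains
`(θ j~)(t^N)`, `GL.W3.coe_red3_tau3`: the Igusa-type cover), and only `κ₃` is the residue field over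
`K₀ = ℚ̄^{I_A}`.  So the input of AB3₃ is spelled IN THE COPY:

  (D3)  `red₃ u = ū₃(t^N)` with `ū₃ ∈ FresBar M' A` nonzero and `m`-DIVISIBLE on `X₀(M')`.

* `alpha_alpha_mem_Rw3_iff`, `coe_red3_alpha_alpha` : the `w₃`-row of `γ₃ = α ∘ α : F_{M'} → F_N`
  (`GL/Cusp/W3Table` + `GK/QS/OldRed`): `w₃ ∘ γ₃` is the Gauss valuation of the good level and
  `red₃ (γ₃ v) = (red v)(t^N)`;
* `ofMul_sub_mem_kerRD`   : `[u] − [v] ∈ kerRD R m` as soon as `u / v` reduces to `1`;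
* `sub_mem_kerRD3_of_red_eq` : `red₃ u = (red u₁)(t^N)` ⟹ `[u] − α^* α^* [u₁] ∈ kerRD R₃ m`;
* `exists_sub_aUp_aUp_mem_kerRD3` (**AB3₃**): under (D3) there is `x₃ ∈ Kum_m(F_{M'})` with
  `[u] − α^* α^* x₃ ∈ kerRD R₃ m`, and, when `u` is `I_A`-FIXED, with
  `σ ([u] − α^* α^* x₃) ∈ kerRD R₃ m` for EVERY `σ ∈ I_A` (i.e. the difference lies in the kernel of
  the reduction along every `I_A`-conjugate of `w₃`; over `ℚ̄` there are two of them, swapped by the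
  `σ` which are not squares mod `q`, and `T_ℓ` permutes them).
-/
import Mathlib
import Fermat.Agent.GE8.SQ.Ab31
import Fermat.Agent.GE8.SQ.Stmt3
import Fermat.Agent.GL.Cusp.W3Table
import Fermat.Agent.GK.UTr.KumAlphaGal
import Fermat.Agent.GK.AL.SecondValGal

set_option autoImplicit false
set_option linter.unusedSectionVars false
set_option synthInstance.maxHeartbeats 400000
set_option maxHeartbeats 1000000

noncomputable section

open AlgebraicCurve ModularCurve IsLocalRing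

namespace Fermat.Agent.GE8.SQ.Ab33

open Fermat.Agent.S24 Fermat.Agent.GJ.J1 Fermat.Agent.GJ.J1.Val Fermat.Agent.GJ.HN
  Fermat.Agent.GJ.KumGroup Fermat.Agent.GJ.Kum.KumType Fermat.Agent.GH.Inst
  Fermat.Agent.GK.AL Fermat.Agent.GK.UqKronecker Fermat.Agent.GK.UTr Fermat.Agent.GK.PsiFNGood
  Fermat.Agent.GK.QS Fermat.Agent.GK.New Fermat.Agent.GK.Tate.KumHecke
  Fermat.Agent.GB.A.A5.KerRedUp Fermat.Agent.GL.W3 Fermat.Agent.GL.W3Table
  Fermat.Agent.GL.CuspVal Fermat.Agent.GE8.SQ.Stmt3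

/-! ### generic: differences in `kerRD` -/

section Generic

variable {N : ℕ} [NeZero N] {k Ft : Type*} [Field k] [Field Ft] [Algebra k Ft]
  (R : RedData Kb (FK N) k Ft)

/-- an element reducing to `1` is a constant (`1`) times a principal unit. -/
theorem isCPrinAt_of_red_eq_one {z : FK N} (hz : z ∈ R.Rw) (h : R.red ⟨z, hz⟩ = 1) :
    IsCPrinAt R z := by
  have e : algebraMap Kb (FK N) 1 * z = z := by rw [map_one, one_mul]
  refine ⟨1, one_ne_zero, by rw [e]; exact hz, ?_⟩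
  have : (⟨algebraMap Kb (FK N) 1 * z, by rw [e]; exact hz⟩ : R.Rw) = ⟨z, hz⟩ := Subtype.ext e
  rw [this, h]

/-- `[u] − [v] ∈ kerRD R m` as soon as `u / v` is a constant times a principal unit. -/
theorem ofMul_sub_mem_kerRD {m : ℕ} (u v : pDivUnits Kb (FK N) m)
    (h : IsCPrinAt R (((u : (FK N)ˣ) : FK N) / ((v : (FK N)ˣ) : FK N))) :
    Additive.ofMul (Kum.mk u) - Additive.ofMul (Kum.mk v) ∈ kerRD R m := by
  refine mem_kerRD.mpr ⟨u / v, ?_, ?_⟩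
  · have h1 : (((u / v : pDivUnits Kb (FK N) m) : (FK N)ˣ) : FK N) =
        ((u : (FK N)ˣ) : FK N) / ((v : (FK N)ˣ) : FK N) := by
      rw [Subgroup.coe_div, Units.val_div_eq_div_val]
    rw [h1]
    exact h
  · rw [map_div, ofMul_div]

end Generic

variable {q : ℕ} [Fact q.Prime] (A : ValuationSubring Kbar) (hA : A.LiesOverPrime q)
variable (M' : ℕ) [NeZero M']

local notation "𝕜" => ResidueField A

/-! ### the `w₃`-row of `γ₃ = α ∘ α` -/

/-- `γ₃ v ∈ R_{w₃} ↔ v ∈ R_w` (Gauss valuation of the good level `M'`). -/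
theorem alpha_alpha_mem_Rw3_iff (v : FK M') :
    alphaB (M' * q) q (alphaB M' q v) ∈ (redData3 (M' * q * q) A q).Rw ↔
      v ∈ (redDataBar M' A).Rw :=
  (alphaB_mem_Rw3_iff A (Fact.out : q.Prime) (alphaB M' q v)).trans
    (alpha_mem_RwBar_iff M' q A v)

/-- **`red₃ (γ₃ v) = (red v)(t^N)`**. -/
theorem coe_red3_alpha_alpha (v : FK M') (hv : v ∈ (redDataBar M' A).Rw)
    (h : alphaB (M' * q) q (alphaB M' q v) ∈ (redData3 (M' * q * q) A q).Rw) :
    (((redData3 (M' * q * q) A q).red ⟨alphaB (M' * q) q (alphaB M' q v), h⟩ :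
        FresCusp (M' * q * q) A (cusp3 (M' * q * q) q)) : LaurentSeries 𝕜) =
      qExpand 𝕜 (M' * q * q)
        (((redDataBar M' A).red ⟨v, hv⟩ : FresBar M' A) : LaurentSeries 𝕜) := by
  have hα : alphaB M' q v ∈ (redDataBar (M' * q) A).Rw := (alpha_mem_RwBar_iff M' q A v).mpr hv
  rw [coe_red3_alphaB A (Fact.out : q.Prime) (alphaB M' q v) hα h]
  exact congrArg (qExpand 𝕜 (M' * q * q)) (coe_red_alpha M' q A ⟨v, hv⟩ hα)

/-! ### AB3₃ -/

/-- `red₃ u = (red u₁)(t^N)` for a Gauss unit `u₁` of the good level ⟹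
`[u] − α^* α^* [u₁] ∈ kerRD R₃ m`. -/
theorem sub_mem_kerRD3_of_red_eq {m : ℕ} (u : pDivUnits Kb (FK (M' * q * q)) m)
    (h1 : ((u : (FK (M' * q * q))ˣ) : FK (M' * q * q)) ∈ (redData3 (M' * q * q) A q).Rw)
    (u₁ : pDivUnits Kb (FK M') m)
    (hu₁ : ((u₁ : (FK M')ˣ) : FK M') ∈ (redDataBar M' A).Rw)
    (hne : (redDataBar M' A).red ⟨((u₁ : (FK M')ˣ) : FK M'), hu₁⟩ ≠ 0)
    (hred : (((redData3 (M' * q * q) A q).red
        ⟨((u : (FK (M' * q * q))ˣ) : FK (M' * q * q)), h1⟩ :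
          FresCusp (M' * q * q) A (cusp3 (M' * q * q) q)) : LaurentSeries 𝕜) =
      qExpand 𝕜 (M' * q * q)
        (((redDataBar M' A).red ⟨((u₁ : (FK M')ˣ) : FK M'), hu₁⟩ : FresBar M' A) :
          LaurentSeries 𝕜)) :
    Additive.ofMul (Kum.mk u) - aUp (M' * q) q m (aUp M' q m (Additive.ofMul (Kum.mk u₁))) ∈
      kerRD (redData3 (M' * q * q) A q) m := by
  set R₃ := redData3 (M' * q * q) A q with hR₃
  have hαα : alphaB (M' * q) q (alphaB M' q ((u₁ : (FK M')ˣ) : FK M')) ∈ R₃.Rw :=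
    (alpha_alpha_mem_Rw3_iff A M' _).mpr hu₁
  have hααred : R₃.red ⟨alphaB (M' * q) q (alphaB M' q ((u₁ : (FK M')ˣ) : FK M')), hαα⟩ =
      R₃.red ⟨((u : (FK (M' * q * q))ˣ) : FK (M' * q * q)), h1⟩ := by
    apply Subtype.ext
    rw [hred]
    exact coe_red3_alpha_alpha A M' _ hu₁ hαα
  have hr : R₃.red ⟨((u : (FK (M' * q * q))ˣ) : FK (M' * q * q)), h1⟩ ≠ 0 := by
    intro h0
    have h3 := congrArg
      (fun z : FresCusp (M' * q * q) A (cusp3 (M' * q * q) q) => (z : LaurentSeries 𝕜)) h0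
    simp only [ZeroMemClass.coe_zero] at h3
    rw [hred] at h3
    have h4 : (((redDataBar M' A).red ⟨((u₁ : (FK M')ˣ) : FK M'), hu₁⟩ : FresBar M' A) :
        LaurentSeries 𝕜) = 0 := by
      have hinj : Function.Injective (qExpand 𝕜 (M' * q * q)) := (qExpand 𝕜 (M' * q * q)).injective
      exact hinj (by rw [h3, map_zero])
    exact hne (ZeroMemClass.coe_eq_zero.mp h4)
  rw [aUp_mk, aUp_mk]
  refine ofMul_sub_mem_kerRD R₃ u _ ?_
  show IsCPrinAt R₃ (((u : (FK (M' * q * q))ˣ) : FK (M' * q * q)) /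
    alphaB (M' * q) q (alphaB M' q ((u₁ : (FK M')ˣ) : FK M')))
  have hαi : (alphaB (M' * q) q (alphaB M' q ((u₁ : (FK M')ˣ) : FK M')))⁻¹ ∈ R₃.Rw :=
    inv_mem_of_red_ne_zero (R := R₃) ⟨_, hαα⟩ (by rw [hααred]; exact hr)
  have hmem : ((u : (FK (M' * q * q))ˣ) : FK (M' * q * q)) /
      alphaB (M' * q) q (alphaB M' q ((u₁ : (FK M')ˣ) : FK M')) ∈ R₃.Rw := by
    rw [div_eq_mul_inv]
    exact R₃.Rw.mul_mem _ _ h1 hαi
  refine isCPrinAt_of_red_eq_one R₃ hmem ?_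
  have e : (⟨_, hmem⟩ : R₃.Rw) =
      ⟨((u : (FK (M' * q * q))ˣ) : FK (M' * q * q)), h1⟩ * ⟨_, hαi⟩ :=
    Subtype.ext (div_eq_mul_inv _ _)
  rw [e, map_mul,
    red_inv_of_red_ne_zero (R := R₃) ⟨_, hαα⟩ (by rw [hααred]; exact hr) hαi, hααred]
  exact mul_inv_cancel₀ hr

include hA in
/-- **AB3₃**: under (D3) the class of a `w₃`-unit of level `M' q q` is, modulo `ker r₃`, pulled back
from the good level `M'` along `α ∘ α`; for an `I_A`-fixed `u` the difference lies in the kernel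
of the reduction along EVERY `I_A`-conjugate of `w₃`. -/
theorem exists_sub_aUp_aUp_mem_kerRD3 (hqM : ¬ q ∣ M') (h2 : q = 2 → 3 ∣ M')
    (h3 : q = 3 → 2 ∣ M') {m : ℕ} (hm : 1 ≤ m) (hqm : ¬ q ∣ m)
    (u : pDivUnits Kb (FK (M' * q * q)) m)
    (h1 : ((u : (FK (M' * q * q))ˣ) : FK (M' * q * q)) ∈ (redData3 (M' * q * q) A q).Rw)
    (ub : FresBar M' A) (hub0 : ub ≠ 0)
    (hd : ∀ Q : Place 𝕜 (FresBar M' A), (m : ℤ) ∣ Q.ord ub)
    (hred : (((redData3 (M' * q * q) A q).red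
        ⟨((u : (FK (M' * q * q))ˣ) : FK (M' * q * q)), h1⟩ :
          FresCusp (M' * q * q) A (cusp3 (M' * q * q) q)) : LaurentSeries 𝕜) =
      qExpand 𝕜 (M' * q * q) (ub : LaurentSeries 𝕜)) :
    ∃ x₃ : Additive (Kum Kb (FK M') m),
      (Additive.ofMul (Kum.mk u) - aUp (M' * q) q m (aUp M' q m x₃) ∈
        kerRD (redData3 (M' * q * q) A q) m) ∧
      ((∀ σ ∈ A.inertiaSubgroupIn ℚ, galUnits (M' * q * q) σ (u : (FK (M' * q * q))ˣ) =
          (u : (FK (M' * q * q))ˣ)) →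
        ∀ σ ∈ A.inertiaSubgroupIn ℚ,
          gal (M' * q * q) m σ
            (Additive.ofMul (Kum.mk u) - aUp (M' * q) q m (aUp M' q m x₃)) ∈
              kerRD (redData3 (M' * q * q) A q) m) := by
  have hq : q.Prime := Fact.out
  -- the lift at the good level
  obtain ⟨v₁, hred₁', hdiv₁⟩ :=
    Fermat.Agent.GB.A.K2Gen.Bar.exists_lift_unit_bar M' A hq hqM h2 h3 hA hm hqm hub0 hd
  have hv₁0 : ((v₁ : (redDataBar M' A).Rw) : FK M') ≠ 0 :=
    coe_ne_zero_of_red_ne_zero (by rw [hred₁']; exact hub0)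
  set u₁ : pDivUnits Kb (FK M') m := ⟨Units.mk0 _ hv₁0, fun P => hdiv₁ P⟩ with hu₁_def
  have hu₁ : ((u₁ : (FK M')ˣ) : FK M') ∈ (redDataBar M' A).Rw := v₁.2
  have hred₁ : (redDataBar M' A).red ⟨((u₁ : (FK M')ˣ) : FK M'), hu₁⟩ = ub := hred₁'
  refine ⟨Additive.ofMul (Kum.mk u₁), ?_, ?_⟩
  · refine sub_mem_kerRD3_of_red_eq A M' u h1 u₁ hu₁ (by rw [hred₁]; exact hub0) ?_
    rw [hred₁]
    exact hred
  · intro hfix σ hσ
    have hσd := Fermat.Agent.S05.mem_decompositionSubgroup_of_mem_inertiaSubgroupIn hσ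
    rw [map_sub, ← aUp_gal, ← aUp_gal, gal_mk, gal_mk]
    -- the conjugate lift has the same reduction
    have hu₁σ : ((galUnits M' σ (u₁ : (FK M')ˣ) : (FK M')ˣ) : FK M') ∈ (redDataBar M' A).Rw :=
      galF_mem_Rw1 (N := M') hσd hu₁
    have hredσ : (redDataBar M' A).red
        ⟨((galUnits M' σ (u₁ : (FK M')ˣ) : (FK M')ˣ) : FK M'), hu₁σ⟩ = ub :=
      (red1_galF_of_inertia (N := M') hσ hu₁ hu₁σ).trans hred₁
    have hfixσ := hfix σ hσ
    have e : (⟨galUnits (M' * q * q) σ (u : (FK (M' * q * q))ˣ),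
        galUnits_mem (M' * q * q) m σ u u.2⟩ : pDivUnits Kb (FK (M' * q * q)) m) = u :=
      Subtype.ext hfixσ
    rw [e]
    refine sub_mem_kerRD3_of_red_eq A M' u h1
      ⟨galUnits M' σ (u₁ : (FK M')ˣ), galUnits_mem M' m σ u₁ u₁.2⟩ hu₁σ
      (by rw [hredσ]; exact hub0) ?_
    rw [hredσ]
    exact hred

end Fermat.Agent.GE8.SQ.Ab33
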