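/-
GATE-E (S59) / E8.SQ / M3 AB3, leaf (AB3₃') = the `K₀`-FLAVOURED form of AB3₃ (helper39).

LEVEL `N = M' q q`, `q ∤ M'`, `A ∣ q`, `I_A` the inertia group, `K₀ = ℚ̄^{I_A}`, `p` a prime `≠ q`.

Over `ℚ̄` there are TWO valuations of `F_N` above the `K₀`-level valuation `w₃` of the
multiplicity-`(q−1)` component (swapped by the `σ ∈ I_A` which are non-squares mod `q`), with residue
fields the Igusa-type cover of the rescaled copy `κ₃ = { z(t^N) : z ∈ FresBar M' A }` of the function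
field of `X₀(M')`; the Hecke operators `T_ℓ` permute them.  The object that is stable under the
`T_ℓ`, and that the toric side consumes, is the `K₀`-level kernel.  In `ℚ̄` vocabulary:

* `IsPow3 A h m v` : `v` is `I_A`-FIXED (hence `K₀`-rational), a unit along the three components,
                     and `red₃ v = (H(t^N))^m` for some `H ∈ FresBar M' A` (an `m`-th power IN THE
                     COPY `κ₃`, i.e. in the residue field of `w₃` over `K₀`);
* `exists_fixed_unit_rep` : (any level) an `I_A`-invariant class has an `I_A`-fixed representative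
                     which is a unit of the Gauss valuation `w₁` (normalisation by a power of `q`);
* `mem_invSub_of_good`    : at the good level every class of `Kum_p(F_{M'})` is `I_A`-invariant
                     (Néron–Ogg–Shafarevich in Kummer form: `GJ` (ES-i));
* `exists_sub_mem_pow3` (**AB3₃'**) : `u` `I_A`-fixed, unit along the three components, with (D3)
                     `red₃ u = ū₃(t^N)`, `ū₃ ∈ FresBar M' A` `p`-divisible  ⟹
      `∃ x₃ ∈ Kum_p(F_{M'})`, `[u] − α^* α^* x₃` has a representative `v` with `IsPow3 A h p v`.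
-/
import Mathlib
import Fermat.Agent.GE8.SQ.Ab33
import Fermat.Agent.GB.A3.Ob
import Fermat.Agent.GJ.J4.K18sAllFinal
import Fermat.Agent.GL.AL.TableW
import Fermat.Agent.GK.AL.WRealize

set_option autoImplicit false
set_option linter.unusedSectionVars false
set_option synthInstance.maxHeartbeats 400000
set_option maxHeartbeats 1000000

noncomputable section

open AlgebraicCurve ModularCurve IsLocalRing

namespace Fermat.Agent.GE8.SQ.Ab33K0

open Fermat.Agent.S24 Fermat.Agent.GJ.J1 Fermat.Agent.GJ.J1.Val Fermat.Agent.GJ.HN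
  Fermat.Agent.GJ.KumGroup Fermat.Agent.GJ.Kum.KumType Fermat.Agent.GH.Inst
  Fermat.Agent.GK.AL Fermat.Agent.GK.UqKronecker Fermat.Agent.GK.UTr Fermat.Agent.GK.PsiFNGood
  Fermat.Agent.GK.QS Fermat.Agent.GK.New Fermat.Agent.GK.Tate.KumHecke
  Fermat.Agent.GB.A Fermat.Agent.GB.A.A5.KerRedUp Fermat.Agent.GL.W3 Fermat.Agent.GL.W3Table
  Fermat.Agent.GL.CuspVal Fermat.Agent.GL.AL Fermat.Agent.GE8.SQ.Stmt Fermat.Agent.GE8.SQ.Stmt3
  Fermat.Agent.GE8.SQ.Ab33
  Fermat.Agent.GL.Val.GaussK0 Fermat.Agent.GB.A3.Nu Fermat.Agent.GB.A3.Ob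
  Fermat.Agent.GB.A3.OrdUnif

/-! ### an `I_A`-fixed representative which is a `w₁`-unit (any level) -/

section Generic

variable {M : ℕ} [NeZero M] {q : ℕ} (A : ValuationSubring Kb) (m : ℕ)
variable (hq : q.Prime) (hA : (q : Kb) ∈ A.nonunits)

include hq hA in
/-- an `I_A`-invariant class has an `I_A`-fixed representative which is a unit of the Gauss
valuation `w₁`. -/
theorem exists_fixed_unit_rep [NeZero m] (y : Additive (Kum Kb (FK M) m))
    (hy : y ∈ FP.invSub (M := M) A m) :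
    ∃ u : pDivUnits Kb (FK M) m, FP.FixedRep A m y u ∧
      UnitOf (redDataBar M A).Rw (u : (FK M)ˣ) := by
  obtain ⟨u, hu, hfix⟩ := FP.exists_fixedRep A m y hy
  obtain ⟨u0, hu0⟩ := exists_mapU_of_fixed A (u : (FK M)ˣ) hfix
  have h1 : u0 * (qU A M hq ^ ord₁ A M hq hA u0)⁻¹ ∈ (RwK0 A M).unitGroup :=
    ordZ_spec (isUnifOf₁ A M hq hA) u0
  obtain ⟨w, hw⟩ := exists_constB_pow (M := M) m ((qB hq ^ ord₁ A M hq hA u0)⁻¹)
  have he : mapU (M := M) A (u0 * (qU A M hq ^ ord₁ A M hq hA u0)⁻¹) =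
      (u : (FK M)ˣ) * w ^ m := by
    rw [map_mul, map_inv, map_zpow, mapU_qU, hu0, hw]
    unfold constB
    rw [map_inv, map_zpow]
  refine ⟨⟨(u : (FK M)ˣ) * w ^ m, mul_mem u.2 (pow_mem_pDivUnits Kb (FK M) m w)⟩, ⟨?_, ?_⟩, ?_⟩
  · rw [← hu]
    exact (ofMul_mk_eq_of w rfl).symm
  · intro σ hσ
    show galUnits M σ ((u : (FK M)ˣ) * w ^ m) = (u : (FK M)ˣ) * w ^ m
    rw [← he]
    exact galUnits_mapU A σ hσ _
  · show UnitOf (redDataBar M A).Rw ((u : (FK M)ˣ) * w ^ m)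
    rw [← he]
    exact (unitOf₁_mapU_iff A _).mpr h1

end Generic

/-! ### the good level: every class is inertia-invariant -/

section Good

variable {M' : ℕ} [NeZero M'] {q p : ℕ} [Fact p.Prime] (A : ValuationSubring Kb)

/-- at a level prime to `q` every class of `Kum_p` (`p ≠ q`) is fixed by the inertia group at
`A ∣ q`. -/
theorem mem_invSub_of_good (hq : q.Prime) (hA : A.LiesOverPrime q) (hqMp : ¬ q ∣ M' * p)
    (x : Additive (Kum Kb (FK M') p)) : x ∈ FP.invSub (M := M') A p := by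
  intro σ hσ
  have hI := (Fermat.Agent.GJ.KumFinal.es_hyps M' Fermat.Agent.GJ.KumFinal.k18sAll
    (Fact.out : p.Prime) hq hqMp).1
  rw [gal_eq_one_of_inertia M' p hI A hA σ hσ]
  rfl

end Good

/-! ### the `K₀`-flavoured kernel of `r₃` -/

section Pow3

variable {q : ℕ} [Fact q.Prime] (A : ValuationSubring Kbar) (M' : ℕ) [NeZero M']
  (h : HallDvd (q ^ 2) (M' * q * q))

local notation "𝕜" => ResidueField A

/-- **`v` is `I_A`-fixed, a unit along the three components, and `red₃ v` is an `m`-th power in the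
copy `κ₃` of the function field of `X₀(M')`** (the residue field of `w₃` over `K₀`). -/
def IsPow3 (m : ℕ) (v : (FK (M' * q * q))ˣ) : Prop :=
  (∀ σ ∈ A.inertiaSubgroupIn ℚ, galUnits (M' * q * q) σ v = v) ∧
    IsU3 (M' * q) q A h v ∧
    ∃ (hv : (v : FK (M' * q * q)) ∈ (redData3 (M' * q * q) A q).Rw) (H : FresBar M' A), H ≠ 0 ∧
      (((redData3 (M' * q * q) A q).red ⟨(v : FK (M' * q * q)), hv⟩ :
          FresCusp (M' * q * q) A (cusp3 (M' * q * q) q)) : LaurentSeries 𝕜) =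
        qExpand 𝕜 (M' * q * q) (H : LaurentSeries 𝕜) ^ m

/-! #### units of a reduction datum -/

section UnitAt

variable {k Ft : Type*} [Field k] [Field Ft] [Algebra k Ft]
  (R : RedData Kb (FK (M' * q * q)) k Ft)

theorem isUnitAt_div {u v : (FK (M' * q * q))ˣ} (hu : IsUnitAt (M' * q) q R u)
    (hv : IsUnitAt (M' * q) q R v) : IsUnitAt (M' * q) q R (u / v) := by
  refine ⟨?_, ?_⟩
  · rw [div_eq_mul_inv, Units.val_mul]
    exact R.Rw.mul_mem _ _ hu.1 hv.2
  · rw [inv_div, div_eq_mul_inv, Units.val_mul]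
    exact R.Rw.mul_mem _ _ hv.1 hu.2

end UnitAt

include h in
/-- `α α u₁` is a unit along the three components when `u₁` is a Gauss unit of the good level. -/
theorem isU3_alpha_alpha (hqM : ¬ q ∣ M') (u₁ : (FK M')ˣ)
    (hu₁ : UnitOf (redDataBar M' A).Rw u₁) :
    IsU3 (M' * q) q A h (alphaUnits (M' * q) q (alphaUnits M' q u₁)) := by
  have hq : q.Prime := Fact.out
  have hE : ExactDvd q (M' * q) := exactDvd_level hq hqM
  -- the three rows, for any element of `F_{M'}`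
  have r1 : ∀ f : FK M', f ∈ (redDataBar M' A).Rw →
      alphaB (M' * q) q (alphaB M' q f) ∈ (redDataBar (M' * q * q) A).Rw := fun f hf =>
    (alpha_mem_RwBar_iff (M' * q) q A _).mpr ((alpha_mem_RwBar_iff M' q A f).mpr hf)
  have r2 : ∀ f : FK M', f ∈ (redDataBar M' A).Rw →
      alphaB (M' * q) q (alphaB M' q f) ∈ (redData2Q (M' * q * q) A h).Rw := by
    intro f hf
    rw [Fermat.Agent.GL.AL.TableW.alphaB_mem_Rw2Q_iff M' A h hE, mem_Rw2_iff,
      Fermat.Agent.GK.AL.wAut_alphaB M' hE f]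
    exact (beta_mem_RwBar_iff M' q A f).mpr hf
  have r3 : ∀ f : FK M', f ∈ (redDataBar M' A).Rw →
      alphaB (M' * q) q (alphaB M' q f) ∈ (redData3 (M' * q * q) A q).Rw := fun f hf =>
    (alpha_alpha_mem_Rw3_iff A M' f).mpr hf
  have einv : (((alphaUnits (M' * q) q (alphaUnits M' q u₁))⁻¹ : (FK (M' * q * q))ˣ) :
      FK (M' * q * q)) = alphaB (M' * q) q (alphaB M' q ((u₁⁻¹ : (FK M')ˣ) : FK M')) := by
    rw [← map_inv, ← map_inv]
    rfl
  refine ⟨⟨r1 _ hu₁.1, ?_⟩, ⟨r2 _ hu₁.1, ?_⟩, ⟨r3 _ hu₁.1, ?_⟩⟩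
  · rw [einv]; exact r1 _ hu₁.2
  · rw [einv]; exact r2 _ hu₁.2
  · rw [einv]; exact r3 _ hu₁.2

end Pow3

/-! ### AB3₃' -/

section Main

variable {q : ℕ} [Fact q.Prime] (A : ValuationSubring Kbar) (hA : A.LiesOverPrime q)
  (M' : ℕ) [NeZero M'] (h : HallDvd (q ^ 2) (M' * q * q))

local notation "𝕜" => ResidueField A

/-- a unit whose `p`-th power is a unit of a valuation ring is a unit of it. -/
theorem unitOf_of_pow {F : Type*} [Field F] (V : ValuationSubring F) {g : Fˣ} {n : ℕ} (hn : n ≠ 0)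
    (hg : UnitOf V (g ^ n)) : UnitOf V g := by
  rw [unitOf_iff_mem_unitGroup, ValuationSubring.mem_unitGroup_iff] at hg ⊢
  rw [Units.val_pow_eq_pow_val, map_pow] at hg
  exact (pow_eq_one_iff_of_nonneg zero_le hn).mp hg

include hA h in
/-- **AB3₃'** (`K₀`-flavoured AB3₃): for an `I_A`-fixed `p`-divisible unit `u` of level `M' q q`,
unit along the three components, whose third reduction is `ū₃(t^N)` with `ū₃ ∈ FresBar M' A`
`p`-divisible on `X₀(M')`, the class `[u] − α^* α^* x₃` (`x₃ ∈ Kum_p(F_{M'})` the lift of `ū₃`) has an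
`I_A`-fixed representative, unit along the three components, whose third reduction is a `p`-th
power in the copy `κ₃`. -/
theorem exists_sub_mem_pow3 (p : ℕ) [Fact p.Prime] (hqp : q ≠ p) (hqM : ¬ q ∣ M')
    (h2 : q = 2 → 3 ∣ M') (h3 : q = 3 → 2 ∣ M')
    (u : pDivUnits Kb (FK (M' * q * q)) p)
    (hfix : ∀ σ ∈ A.inertiaSubgroupIn ℚ,
      galUnits (M' * q * q) σ (u : (FK (M' * q * q))ˣ) = (u : (FK (M' * q * q))ˣ))
    (hU3 : IsU3 (M' * q) q A h (u : (FK (M' * q * q))ˣ))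
    (ub : FresBar M' A) (hub0 : ub ≠ 0)
    (hd : ∀ Q : Place 𝕜 (FresBar M' A), (p : ℤ) ∣ Q.ord ub)
    (hred : (((redData3 (M' * q * q) A q).red
        ⟨((u : (FK (M' * q * q))ˣ) : FK (M' * q * q)), hU3.2.2.1⟩ :
          FresCusp (M' * q * q) A (cusp3 (M' * q * q) q)) : LaurentSeries 𝕜) =
      qExpand 𝕜 (M' * q * q) (ub : LaurentSeries 𝕜)) :
    ∃ (x₃ : Additive (Kum Kb (FK M') p)) (v : pDivUnits Kb (FK (M' * q * q)) p),
      Additive.ofMul (Kum.mk v) =
          Additive.ofMul (Kum.mk u) - aUp (M' * q) q p (aUp M' q p x₃) ∧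
        IsPow3 A M' h p (v : (FK (M' * q * q))ˣ) := by
  have hq : q.Prime := Fact.out
  have hp : p.Prime := Fact.out
  have : NeZero p := ⟨hp.ne_zero⟩
  have hqm : ¬ q ∣ p := fun hdv => hqp ((Nat.prime_dvd_prime_iff_eq hq hp).mp hdv)
  -- the lift at the good level
  obtain ⟨v₁, hred₁', hdiv₁⟩ :=
    Fermat.Agent.GB.A.K2Gen.Bar.exists_lift_unit_bar M' A hq hqM h2 h3 hA hp.one_lt.le hqm hub0 hd
  have hv₁0 : ((v₁ : (redDataBar M' A).Rw) : FK M') ≠ 0 :=
    coe_ne_zero_of_red_ne_zero (by rw [hred₁']; exact hub0)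
  set u₁ : pDivUnits Kb (FK M') p := ⟨Units.mk0 _ hv₁0, fun P => hdiv₁ P⟩ with hu₁_def
  have hu₁ : ((u₁ : (FK M')ˣ) : FK M') ∈ (redDataBar M' A).Rw := v₁.2
  have hred₁ : (redDataBar M' A).red ⟨((u₁ : (FK M')ˣ) : FK M'), hu₁⟩ = ub := hred₁'
  have hu₁U : UnitOf (redDataBar M' A).Rw (u₁ : (FK M')ˣ) := by
    refine ⟨hu₁, ?_⟩
    rw [Units.val_inv_eq_inv_val]
    exact inv_mem_of_red_ne_zero (R := redDataBar M' A) ⟨_, hu₁⟩ (by rw [hred₁]; exact hub0)
  -- its class is inertia-invariant: an `I_A`-fixed Gauss-unit representative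
  have hqMp : ¬ q ∣ M' * p := fun hdv => (hq.dvd_mul.mp hdv).elim hqM hqm
  have hinv := mem_invSub_of_good (M' := M') A hq hA hqMp (Additive.ofMul (Kum.mk u₁))
  obtain ⟨u₁', ⟨hcls, hfix₁⟩, hunit₁⟩ := exists_fixed_unit_rep (M := M') A p hq hA _ hinv
  obtain ⟨g, hg⟩ := Kum.mk_eq_mk_iff.mp (Additive.ofMul.injective hcls.symm)
  -- `g` is a Gauss unit
  have hgp : UnitOf (redDataBar M' A).Rw (g ^ p) := by
    have e : g ^ p = (u₁' : (FK M')ˣ) * ((u₁ : (FK M')ˣ))⁻¹ := by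
      rw [hg]; exact (mul_inv_cancel_comm _ _).symm
    rw [e, unitOf_iff_mem_unitGroup]
    exact mul_mem ((unitOf_iff_mem_unitGroup _ _).mp hunit₁)
      (inv_mem ((unitOf_iff_mem_unitGroup _ _).mp hu₁U))
  have hgU : UnitOf (redDataBar M' A).Rw g := unitOf_of_pow _ hp.ne_zero hgp
  set H' : FresBar M' A := (redDataBar M' A).red ⟨(g : FK M'), hgU.1⟩ with hH'
  have hH'0 : H' ≠ 0 := by
    intro h0
    have h1 : (⟨(g : FK M'), hgU.1⟩ : (redDataBar M' A).Rw) *
        ⟨((g⁻¹ : (FK M')ˣ) : FK M'), hgU.2⟩ = 1 :=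
      Subtype.ext (by
        show (g : FK M') * ((g⁻¹ : (FK M')ˣ) : FK M') = 1
        rw [← Units.val_mul, mul_inv_cancel, Units.val_one])
    have h2 := congrArg (redDataBar M' A).red h1
    rw [map_mul, map_one, ← hH', h0, zero_mul] at h2
    exact zero_ne_one h2
  -- the reduction of the fixed representative
  have hred₁'' : (redDataBar M' A).red ⟨((u₁' : (FK M')ˣ) : FK M'), hunit₁.1⟩ = ub * H' ^ p := by
    have e : (⟨((u₁' : (FK M')ˣ) : FK M'), hunit₁.1⟩ : (redDataBar M' A).Rw) =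
        ⟨((u₁ : (FK M')ˣ) : FK M'), hu₁⟩ * ⟨(g : FK M'), hgU.1⟩ ^ p :=
      Subtype.ext (by
        show ((u₁' : (FK M')ˣ) : FK M') = ((u₁ : (FK M')ˣ) : FK M') * (g : FK M') ^ p
        rw [hg, Units.val_mul, Units.val_pow_eq_pow_val])
    rw [e, map_mul, map_pow, hred₁]
  have hne₁ : (redDataBar M' A).red ⟨((u₁' : (FK M')ˣ) : FK M'), hunit₁.1⟩ ≠ 0 := by
    rw [hred₁'']
    exact mul_ne_zero hub0 (pow_ne_zero _ hH'0)
  -- the pulled-back unit
  set a₁ : pDivUnits Kb (FK (M' * q * q)) p :=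
    ⟨alphaUnits (M' * q) q (alphaUnits M' q (u₁' : (FK M')ˣ)),
      alphaUnits_mem (M' * q) q p _ (alphaUnits_mem M' q p _ u₁'.2)⟩ with ha₁
  have hU3a : IsU3 (M' * q) q A h (a₁ : (FK (M' * q * q))ˣ) :=
    isU3_alpha_alpha A M' h hqM (u₁' : (FK M')ˣ) hunit₁
  have hfixa : ∀ σ ∈ A.inertiaSubgroupIn ℚ,
      galUnits (M' * q * q) σ (a₁ : (FK (M' * q * q))ˣ) = (a₁ : (FK (M' * q * q))ˣ) := by
    intro σ hσ
    show galUnits (M' * q * q) σ (alphaUnits (M' * q) q (alphaUnits M' q (u₁' : (FK M')ˣ))) = _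
    rw [← alphaUnits_galUnits, ← alphaUnits_galUnits, hfix₁ σ hσ]
  set R₃ := redData3 (M' * q * q) A q with hR₃
  have hαα : ((a₁ : (FK (M' * q * q))ˣ) : FK (M' * q * q)) ∈ R₃.Rw := hU3a.2.2.1
  have hααred : ((R₃.red ⟨((a₁ : (FK (M' * q * q))ˣ) : FK (M' * q * q)), hαα⟩ :
      FresCusp (M' * q * q) A (cusp3 (M' * q * q) q)) : LaurentSeries 𝕜) =
      qExpand 𝕜 (M' * q * q) ((ub : LaurentSeries 𝕜) * (H' : LaurentSeries 𝕜) ^ p) := by
    have h1 := coe_red3_alpha_alpha A M' ((u₁' : (FK M')ˣ) : FK M') hunit₁.1 hαα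
    rw [hred₁''] at h1
    rw [← IntermediateField.coe_pow, ← IntermediateField.coe_mul]
    exact h1
  have hαα0 : R₃.red ⟨((a₁ : (FK (M' * q * q))ˣ) : FK (M' * q * q)), hαα⟩ ≠ 0 := by
    intro h0
    have h3 := congrArg
      (fun z : FresCusp (M' * q * q) A (cusp3 (M' * q * q) q) => (z : LaurentSeries 𝕜)) h0
    simp only [ZeroMemClass.coe_zero] at h3
    rw [hααred] at h3
    have hinj : Function.Injective (qExpand 𝕜 (M' * q * q)) := (qExpand 𝕜 (M' * q * q)).injective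
    have h4 : (ub : LaurentSeries 𝕜) * (H' : LaurentSeries 𝕜) ^ p = 0 :=
      hinj (by rw [h3, map_zero])
    rw [← IntermediateField.coe_pow, ← IntermediateField.coe_mul] at h4
    exact mul_ne_zero hub0 (pow_ne_zero _ hH'0) (ZeroMemClass.coe_eq_zero.mp h4)
  refine ⟨Additive.ofMul (Kum.mk u₁), u / a₁, ?_, ?_, ?_, ?_⟩
  · -- the class
    rw [map_div, ofMul_div, ← hcls, aUp_mk, aUp_mk]
  · -- inertia-fixed
    intro σ hσ
    show galUnits (M' * q * q) σ (((u / a₁ : pDivUnits Kb (FK (M' * q * q)) p) :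
      (FK (M' * q * q))ˣ)) = _
    rw [Subgroup.coe_div, map_div, hfix σ hσ, hfixa σ hσ]
  · -- unit along the three components
    rw [Subgroup.coe_div]
    exact ⟨isUnitAt_div M' _ hU3.1 hU3a.1, isUnitAt_div M' _ hU3.2.1 hU3a.2.1,
      isUnitAt_div M' _ hU3.2.2 hU3a.2.2⟩
  · -- the third reduction is a `p`-th power in the copy
    have hααi : (((a₁ : (FK (M' * q * q))ˣ) : FK (M' * q * q)))⁻¹ ∈ R₃.Rw := by
      have := hU3a.2.2.2
      rwa [Units.val_inv_eq_inv_val] at this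
    have hvmem : ((((u / a₁ : pDivUnits Kb (FK (M' * q * q)) p) : (FK (M' * q * q))ˣ)) :
        FK (M' * q * q)) ∈ R₃.Rw := by
      rw [Subgroup.coe_div, Units.val_div_eq_div_val, div_eq_mul_inv]
      exact R₃.Rw.mul_mem _ _ hU3.2.2.1 hααi
    refine ⟨hvmem, H'⁻¹, inv_ne_zero hH'0, ?_⟩
    have e : (⟨_, hvmem⟩ : R₃.Rw) =
        ⟨((u : (FK (M' * q * q))ˣ) : FK (M' * q * q)), hU3.2.2.1⟩ * ⟨_, hααi⟩ :=
      Subtype.ext (by
        show ((((u / a₁ : pDivUnits Kb (FK (M' * q * q)) p) : (FK (M' * q * q))ˣ)) :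
          FK (M' * q * q)) = _
        rw [Subgroup.coe_div, Units.val_div_eq_div_val, div_eq_mul_inv]
        rfl)
    rw [e, map_mul, red_inv_of_red_ne_zero (R := R₃) ⟨_, hαα⟩ hαα0 hααi,
      IntermediateField.coe_mul, IntermediateField.coe_inv, hred, hααred,
      IntermediateField.coe_inv, map_mul, map_pow, map_inv₀]
    have hub0' : qExpand 𝕜 (M' * q * q) (ub : LaurentSeries 𝕜) ≠ 0 := by
      rw [Ne, map_eq_zero_iff _ (qExpand 𝕜 (M' * q * q)).injective]
      exact fun h0 => hub0 (ZeroMemClass.coe_eq_zero.mp h0)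
    have hH0' : qExpand 𝕜 (M' * q * q) (H' : LaurentSeries 𝕜) ≠ 0 := by
      rw [Ne, map_eq_zero_iff _ (qExpand 𝕜 (M' * q * q)).injective]
      exact fun h0 => hH'0 (ZeroMemClass.coe_eq_zero.mp h0)
    rw [mul_inv, ← mul_assoc, mul_inv_cancel₀ hub0', one_mul, inv_pow]

end Main

end Fermat.Agent.GE8.SQ.Ab33K0
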