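/-
GATE-E (S59) / E8.SQ / M3 AB3, leaf (A3.5), halves 1 + 2 (helper87; second seat of helper39).

LEVEL `N = M' q q`, `q ∤ M'`, `A` a place of `ℚ̄` over `q`, `m ≥ 1` prime to `q`, `t = P(T^N)` the
old-killer of the level `L' = M' q` (`P(T^{L'}) = 0`).

* `killer_mem_kerRed`  : `u` a `w₁`-unit with `m`-divisible reduction ⟹ `t [u] ∈ ker r₁`;
* `killer_mem_kerRedW` : `W u` a `w₁`-unit with `m`-divisible reduction, `W` an automorphism of `F_N`
  over `ℚ̄` commuting with the Galois action ⟹ `t [u] ∈ ker (r₁ ∘ W)`;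
* `killer_mem_K12`     : both, at `W := GL.AL.wAutQ h` (Hall Atkin–Lehner of `q² ∥ N`), in the
  spelling of `Stmt3.AbHyp3` (`IsU3`, `redUnit₁`, `redUnit₂`) at the literal level `(M' q) q`;
* `killer_mem_K12_of_good` : the same at a generic good auxiliary level `L'` (`GoodAuxLevel L' q`),
  i.e. conjuncts 1, 2 of `Stmt3.tor3` for `Stmt3.AbHyp3` (the third conjunct is not used);
* `abHyp3Stmt_of_third` : `Stmt3.AbHyp3Stmt` from AB3₃ alone (`t [u] ∈ kerRD (redData3 ..)`).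

Proof: helper39's `Ab31` (AB3₁, AB3₂: `[u] − γ^* x ∈ ker`) + helper56's
`WCopy.aeval_dies_of_sub_mem` at the Galois-equivariant maps `α^*` resp. `W⁻¹ ∘ α^*` from the level
`L' = M' q` (the class pulled back twice is `α^*` of a class of level `L'`) + the `T_ℓ`-stability of
`ker r₁`, `ker (r₁ ∘ W)` (`HeckeKerRed.kumTl_mem_kerRed`, `kumTl_mem_kerRedW`).
-/
import Mathlib
import Fermat.Agent.GE8.SQ.Ab31
import Fermat.Agent.GB.A.A5.WCopy
import Fermat.Agent.GE8.SQ.Stmt3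
import Fermat.Agent.GL.AL.WHallGal

set_option autoImplicit false
set_option linter.unusedSectionVars false
set_option synthInstance.maxHeartbeats 400000
set_option maxHeartbeats 1000000

noncomputable section

open AlgebraicCurve ModularCurve IsLocalRing

namespace Fermat.Agent.GE8.SQ.Ab3Plug12

open Fermat.Agent.S24 Fermat.Agent.GJ Fermat.Agent.GJ.J1 Fermat.Agent.GJ.J1.Val Fermat.Agent.GJ.HN
  Fermat.Agent.GJ.KumGroup Fermat.Agent.GJ.Kum.KumType Fermat.Agent.GH.Inst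
  Fermat.Agent.GK.AL Fermat.Agent.GK.UqKronecker Fermat.Agent.GK.UQ Fermat.Agent.GK.UTr
  Fermat.Agent.GK.PsiFNGood Fermat.Agent.GK.QS Fermat.Agent.GK.New Fermat.Agent.GK.Tate.KumHecke
  Fermat.Agent.GB.A Fermat.Agent.GB.A.A5.KerRedUp Fermat.Agent.GB.A.A5.HeckeKerRed
  Fermat.Agent.GB.A.A5.WCopy
  Fermat.Agent.GL.Final.GeomGate Fermat.Agent.GL.AL
  Fermat.Agent.GE8.SQ.Stmt Fermat.Agent.GE8.SQ.Stmt3

local notation "GQ'" => (AlgebraicClosure ℚ ≃ₐ[ℚ] AlgebraicClosure ℚ)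

variable {q : ℕ} [Fact q.Prime] (A : ValuationSubring Kbar) (hA : A.LiesOverPrime q)
variable (M' : ℕ) [NeZero M'] (S : Finset ℕ) {m : ℕ} [NeZero m] {ζ : ℂ}

local notation "𝕜" => ResidueField A

include hA in
/-- **half 1**: the old-killer of the level `M' q` sends the class of a `w₁`-unit of level
`M' q q` with `m`-divisible reduction into `ker r₁`. -/
theorem killer_mem_kerRed (hqM : ¬ q ∣ M') (h2 : q = 2 → 3 ∣ M') (h3 : q = 3 → 2 ∣ M')
    (hqm : ¬ q ∣ m) (hζ : IsPrimitiveRoot ζ m)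
    (hL'S : ∀ r : ℕ, r.Prime → r ∣ M' * q → r ∈ S)
    (hMS : ∀ r : ℕ, r.Prime → r ∣ M' * q * q → r ∈ S)
    (hmS : ∀ r : ℕ, r.Prime → r ∣ m → r ∈ S)
    (P : MvPolynomial (PrimeIdx S) ℤ)
    (hP : MvPolynomial.aeval (TfamH (N' := M' * q) (S := S) hL'S) P = 0)
    (u : pDivUnits Kb (FK (M' * q * q)) m)
    (h1 : ((u : (FK (M' * q * q))ˣ) : FK (M' * q * q)) ∈ (redDataBar (M' * q * q) A).Rw)
    (hr : (redDataBar (M' * q * q) A).red
      ⟨((u : (FK (M' * q * q))ˣ) : FK (M' * q * q)), h1⟩ ≠ 0)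
    (hd : ∀ Q : Place 𝕜 (FresBar (M' * q * q) A),
      (m : ℤ) ∣ Q.ord ((redDataBar (M' * q * q) A).red
        ⟨((u : (FK (M' * q * q))ˣ) : FK (M' * q * q)), h1⟩)) :
    kumHecke (M' * q * q) (↑S : Set ℕ) m hζ (MvPolynomial.aeval (TfamH hMS) P)
        (Additive.ofMul (Kum.mk u)) ∈ kerRed (M' * q * q) A m := by
  have hq : q.Prime := Fact.out
  haveI : NeZero q := ⟨hq.ne_zero⟩
  have hm : 1 ≤ m := Nat.one_le_iff_ne_zero.mpr (NeZero.ne m)
  obtain ⟨x₁, hx₁⟩ :=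
    Fermat.Agent.GE8.SQ.Ab31.exists_sub_aUp_aUp_mem_kerRed A hA M' hqM h2 h3 hm hqm u h1 hr hd
  exact aeval_dies_kerRed (N' := M' * q) (q := q) A S m hζ hL'S hMS hmS P hP hx₁

include hA in
/-- **half 2**: the same along `w₂ = w₁ ∘ W` for an automorphism `W` of `F_{M' q q}` over `ℚ̄`
commuting with the Galois action. -/
theorem killer_mem_kerRedW (hqM : ¬ q ∣ M') (h2 : q = 2 → 3 ∣ M') (h3 : q = 3 → 2 ∣ M')
    (hqm : ¬ q ∣ m) (hζ : IsPrimitiveRoot ζ m)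
    (hL'S : ∀ r : ℕ, r.Prime → r ∣ M' * q → r ∈ S)
    (hMS : ∀ r : ℕ, r.Prime → r ∣ M' * q * q → r ∈ S)
    (hmS : ∀ r : ℕ, r.Prime → r ∣ m → r ∈ S)
    (P : MvPolynomial (PrimeIdx S) ℤ)
    (hP : MvPolynomial.aeval (TfamH (N' := M' * q) (S := S) hL'S) P = 0)
    (W : FK (M' * q * q) ≃ₐ[Kb] FK (M' * q * q))
    (hW : ∀ (σ : GQ') (x : FK (M' * q * q)),
      W (Fermat.Agent.GJ.Kum.gal (M' * q * q) σ x) =
        Fermat.Agent.GJ.Kum.gal (M' * q * q) σ (W x))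
    (u : pDivUnits Kb (FK (M' * q * q)) m)
    (h1 : W ((u : (FK (M' * q * q))ˣ) : FK (M' * q * q)) ∈ (redDataBar (M' * q * q) A).Rw)
    (hr : (redDataBar (M' * q * q) A).red
      ⟨W ((u : (FK (M' * q * q))ˣ) : FK (M' * q * q)), h1⟩ ≠ 0)
    (hd : ∀ Q : Place 𝕜 (FresBar (M' * q * q) A),
      (m : ℤ) ∣ Q.ord ((redDataBar (M' * q * q) A).red
        ⟨W ((u : (FK (M' * q * q))ˣ) : FK (M' * q * q)), h1⟩)) :
    kumHecke (M' * q * q) (↑S : Set ℕ) m hζ (MvPolynomial.aeval (TfamH hMS) P)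
        (Additive.ofMul (Kum.mk u)) ∈
      kerRedW (M' * q * q) A (W : FK (M' * q * q) ≃+* FK (M' * q * q)) m := by
  have hq : q.Prime := Fact.out
  haveI : NeZero q := ⟨hq.ne_zero⟩
  have hm : 1 ≤ m := Nat.one_le_iff_ne_zero.mpr (NeZero.ne m)
  have hm0 : 0 < m := hm
  obtain ⟨x₂, hx₂⟩ :=
    Fermat.Agent.GE8.SQ.Ab31.exists_sub_W_aUp_aUp_mem_kerRedW A hA M' hqM h2 h3 hm hqm W u h1 hr hd
  -- `W⁻¹` commutes with the Galois action as well
  have hWs : ∀ (σ : GQ') (x : FK (M' * q * q)),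
      W.symm (Fermat.Agent.GJ.Kum.gal (M' * q * q) σ x) =
        Fermat.Agent.GJ.Kum.gal (M' * q * q) σ (W.symm x) := by
    intro σ x
    apply W.injective
    rw [W.apply_symm_apply, hW, W.apply_symm_apply]
  refine aeval_dies_of_sub_mem (N' := M' * q) (M := M' * q * q) S m hζ hL'S hMS hmS
    ((autEnd W.symm m).comp (aUp (M' * q) q m)) ?_ _ ?_ P hP (x₁ := aUp M' q m x₂) hx₂
  · intro σ x
    rw [LinearMap.comp_apply, LinearMap.comp_apply, aUp_gal,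
      autEnd_comm_gal W.symm (hWs σ) m]
  · intro i x hx
    have hnd : ¬ i.1 ∣ M' * q * q * m := by
      intro hdv
      rcases (Nat.Prime.dvd_mul i.2.1).mp hdv with hdv | hdv
      · exact i.2.2 (hMS _ i.2.1 hdv)
      · exact i.2.2 (hmS _ i.2.1 hdv)
    exact kumTl_mem_kerRedW m hm0 W hW i.2.1 hnd hx

include hA in
/-- **halves 1 + 2 in the `Stmt3.AbHyp3` spelling**, literal level `(M' q) q`: for an
`m`-divisible unit which is a unit along the three components and whose first two reductions are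
`m`-divisible, `t [u] ∈ ker r₁ ⊓ ker r₂`. -/
theorem killer_mem_K12 (hqM : ¬ q ∣ M') (h2 : q = 2 → 3 ∣ M') (h3 : q = 3 → 2 ∣ M')
    (h : HallDvd (q ^ 2) (M' * q * q))
    (hqm : ¬ q ∣ m) (hζ : IsPrimitiveRoot ζ m)
    (hL'S : ∀ r : ℕ, r.Prime → r ∣ M' * q → r ∈ S)
    (hMS : ∀ r : ℕ, r.Prime → r ∣ M' * q * q → r ∈ S)
    (hmS : ∀ r : ℕ, r.Prime → r ∣ m → r ∈ S)
    (P : MvPolynomial (PrimeIdx S) ℤ)
    (hP : MvPolynomial.aeval (TfamH (N' := M' * q) (S := S) hL'S) P = 0)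
    (u : pDivUnits Kb (FK (M' * q * q)) m)
    (hu : IsU3 (M' * q) q A h (u : (FK (M' * q * q))ˣ))
    (hd1 : redUnit₁ hu ∈ pDivUnits 𝕜 (FresBar (M' * q * q) A) m)
    (hd2 : redUnit₂ hu ∈ pDivUnits 𝕜 (FresBar (M' * q * q) A) m) :
    kumHecke (M' * q * q) (↑S : Set ℕ) m hζ (MvPolynomial.aeval (TfamH hMS) P)
        (Additive.ofMul (Kum.mk u)) ∈
      kerRed (M' * q * q) A m ⊓
        kerRedW (M' * q * q) A
          ((wAutQ h : FK (M' * q * q) ≃ₐ[Kb] FK (M' * q * q)) :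
            FK (M' * q * q) ≃+* FK (M' * q * q)) m := by
  refine ⟨?_, ?_⟩
  · exact killer_mem_kerRed A hA M' S hqM h2 h3 hqm hζ hL'S hMS hmS P hP u hu.1.1
      (redUnit₁ hu).ne_zero (fun Q => hd1 Q)
  · exact killer_mem_kerRedW A hA M' S hqM h2 h3 hqm hζ hL'S hMS hmS P hP (wAutQ h)
      (fun σ x => wAutQ_arithmeticRingAut h σ x) u hu.2.1.1 (redUnit₂ hu).ne_zero (fun Q => hd2 Q)

include hA in
/-- **halves 1 + 2 of `Stmt3.AbHyp3`** at a good auxiliary level `L'`: conjuncts 1, 2 of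
`Stmt3.tor3` for the old-killer of the level `L'` (the third reduction is not used). -/
theorem killer_mem_K12_of_good {L' : ℕ} [NeZero L'] (hgood : GoodAuxLevel L' q)
    (hqm : ¬ q ∣ m) (hζ : IsPrimitiveRoot ζ m)
    (hL'S : ∀ r : ℕ, r.Prime → r ∣ L' → r ∈ S)
    (hMS : ∀ r : ℕ, r.Prime → r ∣ L' * q → r ∈ S)
    (hmS : ∀ r : ℕ, r.Prime → r ∣ m → r ∈ S)
    (P : MvPolynomial (PrimeIdx S) ℤ)
    (hP : MvPolynomial.aeval (TfamH (N' := L') (S := S) hL'S) P = 0)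
    (u : pDivUnits Kb (FK (L' * q)) m)
    (hu : IsU3 L' q A (hallDvd_sq_of_good Fact.out hgood) (u : (FK (L' * q))ˣ))
    (hd1 : redUnit₁ hu ∈ pDivUnits 𝕜 (FresBar (L' * q) A) m)
    (hd2 : redUnit₂ hu ∈ pDivUnits 𝕜 (FresBar (L' * q) A) m) :
    kumHecke (L' * q) (↑S : Set ℕ) m hζ (MvPolynomial.aeval (TfamH hMS) P)
        (Additive.ofMul (Kum.mk u)) ∈
      kerRed (L' * q) A m ⊓
        kerRedW (L' * q) A
          ((wAutQ (hallDvd_sq_of_good Fact.out hgood) : FK (L' * q) ≃ₐ[Kb] FK (L' * q)) :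
            FK (L' * q) ≃+* FK (L' * q)) m := by
  have hq : q.Prime := Fact.out
  obtain ⟨c, hc⟩ := hgood.1
  have hL' : L' = c * q := by rw [hc, mul_comm]
  subst hL'
  have hc0 : c ≠ 0 := fun h0 => NeZero.ne (c * q) (by rw [h0, zero_mul])
  haveI : NeZero c := ⟨hc0⟩
  have hqc : ¬ q ∣ c := by
    intro hd
    apply hgood.2.1
    obtain ⟨d, rfl⟩ := hd
    exact ⟨d, by ring⟩
  have h2 : q = 2 → 3 ∣ c := by
    intro hq2
    have h3dvd : 3 ∣ c * q := hgood.2.2.2.1 hq2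
    rcases (Nat.Prime.dvd_mul Nat.prime_three).mp h3dvd with h | h
    · exact h
    · rw [hq2] at h
      exact absurd h (by decide)
  have h3 : q = 3 → 2 ∣ c := by
    intro hq3
    have h2dvd : 2 ∣ c * q := hgood.2.2.2.2 hq3
    rcases (Nat.Prime.dvd_mul Nat.prime_two).mp h2dvd with h | h
    · exact h
    · rw [hq3] at h
      exact absurd h (by decide)
  exact killer_mem_K12 A hA c S hqc h2 h3 (hallDvd_sq_of_good Fact.out hgood) hqm hζ hL'S hMS hmS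
    P hP u hu hd1 hd2

/-- **the plug for `Stmt3.AbHyp3Stmt`**: it remains to put `t [u]` into the third kernel
`kerRD (redData3 ..)` (AB3₃). -/
theorem abHyp3Stmt_of_third
    (h3rd : ∀ (p : ℕ) [Fact p.Prime] (_ : p ≠ 2) (L' q : ℕ) [NeZero L'] [Fact q.Prime] (_ : q ≠ p)
      (hgood : GoodAuxLevel L' q) (A : ValuationSubring Kb) (_ : A.LiesOverPrime q)
      (S : Finset ℕ) (hL'S : ∀ r : ℕ, r.Prime → r ∣ L' → r ∈ S)
      (hMS : ∀ r : ℕ, r.Prime → r ∣ L' * q → r ∈ S) (_ : p ∈ S)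
      (P : MvPolynomial (PrimeIdx S) ℤ) (_ : MvPolynomial.aeval (TfamH hL'S) P = 0)
      (ζ : ℂ) (hζ : IsPrimitiveRoot ζ p)
      (u : pDivUnits Kb (FK (L' * q)) p)
      (hu : IsU3 L' q A (hallDvd_sq_of_good Fact.out hgood) (u : (FK (L' * q))ˣ)),
      redUnit₃ hu ∈ pDivUnits (ResidueField A)
        (Fermat.Agent.GL.CuspVal.FresCusp (L' * q) A (Fermat.Agent.GL.W3.cusp3 (L' * q) q)) p →
      kumHecke (L' * q) (↑S : Set ℕ) p hζ (MvPolynomial.aeval (TfamH hMS) P)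
          (Additive.ofMul (Kum.mk u)) ∈
        kerRD (Fermat.Agent.GL.W3.redData3 (L' * q) A q) p) :
    AbHyp3Stmt := by
  intro p _ hp2 L' q _ _ hqp hgood A hA S hL'S hMS hpS P hP ζ hζ u hu n1 n2 n3
  have hp : p.Prime := Fact.out
  have hq : q.Prime := Fact.out
  have hqm : ¬ q ∣ p := fun hd => hqp ((Nat.prime_dvd_prime_iff_eq hq hp).mp hd)
  have hmS : ∀ r : ℕ, r.Prime → r ∣ p → r ∈ S := fun r hr hrp =>
    ((Nat.prime_dvd_prime_iff_eq hr hp).mp hrp) ▸ hpS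
  exact ⟨killer_mem_K12_of_good A hA S hgood hqm hζ hL'S hMS hmS P hP u hu n1 n2,
    h3rd p hp2 L' q hqp hgood A hA S hL'S hMS hpS P hP ζ hζ u hu n3⟩

end Fermat.Agent.GE8.SQ.Ab3Plug12
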