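/-
GATE-E (S59) / block E8 / node E8.SQ (helper97, owner): THE CORRECTED INTERNAL SEAMS of
`Stmt.Ab3Stmt` (RULING K0; replaces `Stmt3.{NodeHyp3Stmt, AbHyp3Stmt, Approx3Stmt}` and
`Stmt3Alt`, which are DEPRECATED).

WHY (helper21 7139, helper39 7166).  Over `ℚ̄` the residue field `FresCusp N A (cusp3 N q)` of the
third valuation `w₃` of `F_N`, `N = M' q q`, is the function field of the IGUSA cover of
`X₀(M')` (degree `(q-1)/2`, totally ramified at the supersingular places); only over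
`K₀ = ℚ̄^{I_A}` is it the rescaled copy `κ₃ = { z(t^N) : z ∈ FresBar M' A }` of the function field
of `X₀(M')`.  The old-killer of level `M' q` does not kill `Jac(Igusa)`, and for `p ∣ (q-1)/2`
"`p`-divisible / `p`-th power in the Igusa field" says nothing in `κ₃`.  Moreover (`e₃ = q - 1`)
"a `K₀`-rational representative which is a `w₃`-unit with `p`-th power reduction" is NOT a property
of the class when `p ∣ q - 1` — it is one for representatives which are ALSO `w₁`-units.  Hence: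

* `(D3)`      : the third reduction of an `I_A`-fixed three-unit is spelled IN THE COPY `κ₃`
                (helper39's spelling): `red₃ u = ub(t^N)`, `ub ∈ FresBar M' A` nonzero and
                `m`-divisible on `X₀(M')`;
* `IsPow3`, `K3fix` (helper39's spelling): the classes having an `I_A`-FIXED representative which
                is a unit along the THREE components and whose third reduction is an `m`-th power
                IN THE COPY `κ₃` (an `AddSubgroup`);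
* `NodeHyp3K` : (M2 NODE3) with `(D3)` as third conjunct;
* `AbSharp t` : (M3 AB3) for `I_A`-fixed three-units: `t [u] ∈ ker r₁ ⊓ ker r₂` (the `ℚ̄`-level
                kernels on main: no Igusa problem at `w₁`, `w₂`, where `e = 1`) and
                `t [u] ∈ K3fix`;
* `VSharp`    : `T_ℓ K3fix ⊆ K3fix` (by the norm row `RowsInst.hπ13`:
                `rd₃(T x)^(q-1) = T̄(rd₃ x)^(q-1)` is an EQUALITY, so `rd₃ (T x) = ζ · T̄(rd₃ x)`
                with `ζ` a CONSTANT);  `kumHecke_aeval_mem_K3fix`;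
* `ApproxSharp` : `y ∈ ker r₁`, `y ∈ ker r₂`, `y ∈ K3fix` ⟹ `Stmt.IsTor3 y` (ONE representative);
* `ab3_of_partsK`, `toTor3_of_partsK` : the plugs into `Stmt.Ab3Stmt` and `Stmt.ToTorStmt isTor3`.
-/
import Mathlib
import Fermat.Agent.GE8.SQ.Stmt3
import Fermat.Agent.GB.A.A5.HeckeKerRed

set_option autoImplicit false
set_option linter.unusedSectionVars false

noncomputable section

namespace Fermat.Agent.GE8.SQ.Stmt3K

open AlgebraicCurve ModularCurve IsLocalRing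
open Fermat.Agent.GJ Fermat.Agent.GJ.KumGroup Fermat.Agent.GJ.Kum.KumType
open Fermat.Agent.GJ.J1 Fermat.Agent.GJ.J1.Val
open Fermat.Agent.GK.UQ Fermat.Agent.GK.New Fermat.Agent.GK.Tate.KumHecke Fermat.Agent.GK.UTr
open Fermat.Agent.GK.UqKronecker
open Fermat.Agent.GB.A
open Fermat.Agent.GL.Final.GeomGate Fermat.Agent.GL.AL
open Fermat.Agent.GE8.SQ.Stmt Fermat.Agent.GE8.SQ.Stmt3

/-! ### closure properties of `IsUnitAt` and `RedOne` -/

section Generic

variable {L' q : ℕ} [NeZero L'] [Fact q.Prime] {k Ft : Type*} [Field k] [Field Ft] [Algebra k Ft]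
  (R : RedData Kb (FK (L' * q)) k Ft)

theorem isUnitAt_one : IsUnitAt L' q R 1 := by
  refine ⟨?_, ?_⟩
  · rw [Units.val_one]; exact R.Rw.one_mem
  · rw [inv_one, Units.val_one]; exact R.Rw.one_mem

variable {R}

theorem IsUnitAt.mul {u v : (FK (L' * q))ˣ} (hu : IsUnitAt L' q R u) (hv : IsUnitAt L' q R v) :
    IsUnitAt L' q R (u * v) := by
  refine ⟨?_, ?_⟩
  · rw [Units.val_mul]; exact R.Rw.mul_mem _ _ hu.1 hv.1
  · rw [mul_inv, Units.val_mul]; exact R.Rw.mul_mem _ _ hu.2 hv.2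

theorem IsUnitAt.inv {u : (FK (L' * q))ˣ} (hu : IsUnitAt L' q R u) : IsUnitAt L' q R u⁻¹ := by
  refine ⟨hu.2, ?_⟩
  rw [inv_inv]; exact hu.1

variable (R) in
theorem redOne_one : RedOne L' q R 1 := by
  have h1 : ((1 : (FK (L' * q))ˣ) : FK (L' * q)) ∈ R.Rw := by
    rw [Units.val_one]; exact R.Rw.one_mem
  refine ⟨h1, ?_⟩
  have : (⟨((1 : (FK (L' * q))ˣ) : FK (L' * q)), h1⟩ : R.Rw) = 1 := Subtype.ext Units.val_one
  rw [this, map_one]

theorem RedOne.mul {u v : (FK (L' * q))ˣ} (hu : RedOne L' q R u) (hv : RedOne L' q R v) :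
    RedOne L' q R (u * v) := by
  obtain ⟨h1, r1⟩ := hu
  obtain ⟨h2, r2⟩ := hv
  have h3 : ((u * v : (FK (L' * q))ˣ) : FK (L' * q)) ∈ R.Rw := by
    rw [Units.val_mul]; exact R.Rw.mul_mem _ _ h1 h2
  refine ⟨h3, ?_⟩
  have : (⟨((u * v : (FK (L' * q))ˣ) : FK (L' * q)), h3⟩ : R.Rw) = ⟨_, h1⟩ * ⟨_, h2⟩ :=
    Subtype.ext (Units.val_mul u v)
  rw [this, map_mul, r1, r2, one_mul]

theorem RedOne.inv {u : (FK (L' * q))ˣ} (hu : RedOne L' q R u) (hu' : IsUnitAt L' q R u) :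
    RedOne L' q R u⁻¹ := by
  obtain ⟨h1, r1⟩ := hu
  refine ⟨hu'.2, ?_⟩
  have e : (⟨((u : (FK (L' * q))ˣ) : FK (L' * q)), h1⟩ : R.Rw) *
      ⟨((u⁻¹ : (FK (L' * q))ˣ) : FK (L' * q)), hu'.2⟩ = 1 :=
    Subtype.ext (by
      show ((u : (FK (L' * q))ˣ) : FK (L' * q)) * ((u⁻¹ : (FK (L' * q))ˣ) : FK (L' * q)) = 1
      rw [← Units.val_mul, mul_inv_cancel, Units.val_one])
  have h2 := congrArg R.red e
  rw [map_mul, r1, one_mul, map_one] at h2
  exact h2

end Generic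

section U3

variable {L' q : ℕ} [NeZero L'] [Fact q.Prime] {A : ValuationSubring Kb}
  {h : HallDvd (q ^ 2) (L' * q)}

theorem isU3_one : IsU3 L' q A h 1 :=
  ⟨isUnitAt_one _, isUnitAt_one _, isUnitAt_one _⟩

theorem IsU3.mul {u v : (FK (L' * q))ˣ} (hu : IsU3 L' q A h u) (hv : IsU3 L' q A h v) :
    IsU3 L' q A h (u * v) :=
  ⟨IsUnitAt.mul hu.1 hv.1, IsUnitAt.mul hu.2.1 hv.2.1, IsUnitAt.mul hu.2.2 hv.2.2⟩

theorem IsU3.inv {u : (FK (L' * q))ˣ} (hu : IsU3 L' q A h u) : IsU3 L' q A h u⁻¹ :=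
  ⟨IsUnitAt.inv hu.1, IsUnitAt.inv hu.2.1, IsUnitAt.inv hu.2.2⟩

end U3

/-! ### the third reduction as a series, and the subgroup `K3fix` -/

section K3fix

variable {M' q : ℕ} [NeZero M'] [Fact q.Prime] (A : ValuationSubring Kb)
  (h : HallDvd (q ^ 2) (M' * q * q)) (m : ℕ)

local notation "𝕜" => ResidueField A

/-- the third reduction `red₃ v` (expansion at the cusp `1/(q M')`) as a Laurent series over the
residue field of `A`. -/
abbrev red3Ser (v : (FK (M' * q * q))ˣ)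
    (hv : ((v : (FK (M' * q * q))ˣ) : FK (M' * q * q)) ∈
      (Fermat.Agent.GL.W3.redData3 (M' * q * q) A q).Rw) : LaurentSeries 𝕜 :=
  (((Fermat.Agent.GL.W3.redData3 (M' * q * q) A q).red
      ⟨((v : (FK (M' * q * q))ˣ) : FK (M' * q * q)), hv⟩ :
    Fermat.Agent.GL.CuspVal.FresCusp (M' * q * q) A
      (Fermat.Agent.GL.W3.cusp3 (M' * q * q) q)) : LaurentSeries 𝕜)

theorem red3Ser_one (h1 : (((1 : (FK (M' * q * q))ˣ) : (FK (M' * q * q))ˣ) : FK (M' * q * q)) ∈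
    (Fermat.Agent.GL.W3.redData3 (M' * q * q) A q).Rw) : red3Ser A 1 h1 = 1 := by
  have : (⟨(((1 : (FK (M' * q * q))ˣ) : (FK (M' * q * q))ˣ) : FK (M' * q * q)), h1⟩ :
      (Fermat.Agent.GL.W3.redData3 (M' * q * q) A q).Rw) = 1 := Subtype.ext Units.val_one
  show ((((Fermat.Agent.GL.W3.redData3 (M' * q * q) A q).red _ : _) : LaurentSeries 𝕜)) = 1
  rw [this, map_one]
  rfl

theorem red3Ser_mul {u v : (FK (M' * q * q))ˣ}
    (hu : ((u : (FK (M' * q * q))ˣ) : FK (M' * q * q)) ∈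
      (Fermat.Agent.GL.W3.redData3 (M' * q * q) A q).Rw)
    (hv : ((v : (FK (M' * q * q))ˣ) : FK (M' * q * q)) ∈
      (Fermat.Agent.GL.W3.redData3 (M' * q * q) A q).Rw)
    (huv : ((u * v : (FK (M' * q * q))ˣ) : FK (M' * q * q)) ∈
      (Fermat.Agent.GL.W3.redData3 (M' * q * q) A q).Rw) :
    red3Ser A (u * v) huv = red3Ser A u hu * red3Ser A v hv := by
  have : (⟨((u * v : (FK (M' * q * q))ˣ) : FK (M' * q * q)), huv⟩ :
      (Fermat.Agent.GL.W3.redData3 (M' * q * q) A q).Rw) = ⟨_, hu⟩ * ⟨_, hv⟩ :=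
    Subtype.ext (Units.val_mul u v)
  show ((((Fermat.Agent.GL.W3.redData3 (M' * q * q) A q).red _ : _) : LaurentSeries 𝕜)) = _
  rw [this, map_mul]
  rfl

theorem red3Ser_inv {u : (FK (M' * q * q))ˣ}
    (hu : ((u : (FK (M' * q * q))ˣ) : FK (M' * q * q)) ∈
      (Fermat.Agent.GL.W3.redData3 (M' * q * q) A q).Rw)
    (hu' : ((u⁻¹ : (FK (M' * q * q))ˣ) : FK (M' * q * q)) ∈
      (Fermat.Agent.GL.W3.redData3 (M' * q * q) A q).Rw) :
    red3Ser A u⁻¹ hu' = (red3Ser A u hu)⁻¹ := by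
  have h1 : ((u⁻¹ * u : (FK (M' * q * q))ˣ) : FK (M' * q * q)) ∈
      (Fermat.Agent.GL.W3.redData3 (M' * q * q) A q).Rw := by
    rw [inv_mul_cancel, Units.val_one]
    exact (Fermat.Agent.GL.W3.redData3 (M' * q * q) A q).Rw.one_mem
  have h2 := red3Ser_mul A hu' hu h1
  have h3 : red3Ser A (u⁻¹ * u) h1 = 1 := by
    have e : (⟨((u⁻¹ * u : (FK (M' * q * q))ˣ) : FK (M' * q * q)), h1⟩ :
        (Fermat.Agent.GL.W3.redData3 (M' * q * q) A q).Rw) = 1 :=
      Subtype.ext (by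
        show ((u⁻¹ * u : (FK (M' * q * q))ˣ) : FK (M' * q * q)) = 1
        rw [inv_mul_cancel, Units.val_one])
    show ((((Fermat.Agent.GL.W3.redData3 (M' * q * q) A q).red _ : _) : LaurentSeries 𝕜)) = 1
    rw [e, map_one]
    rfl
  rw [h3] at h2
  exact eq_inv_of_mul_eq_one_left h2.symm

/-- **`IsPow3`** (helper39's spelling): `v` is `I_A`-fixed, a unit along the three components, and
its third reduction is an `m`-th power IN THE COPY `κ₃ = { H(t^N) : H ∈ FresBar M' A }`. -/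
def IsPow3 (v : (FK (M' * q * q))ˣ) : Prop :=
  (∀ σ ∈ A.inertiaSubgroupIn ℚ, galUnits (M' * q * q) σ v = v) ∧
    ∃ hv : IsU3 (M' * q) q A h v, ∃ H : FresBar M' A, H ≠ 0 ∧
      red3Ser A v hv.2.2.1 = qExpand 𝕜 (M' * q * q) (H : LaurentSeries 𝕜) ^ m

theorem isPow3_one : IsPow3 A h m 1 := by
  refine ⟨fun σ _ => map_one _, isU3_one, 1, one_ne_zero, ?_⟩
  rw [red3Ser_one]
  have : (((1 : FresBar M' A) : FresBar M' A) : LaurentSeries 𝕜) = 1 := rfl
  rw [this, map_one, one_pow]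

variable {A h m}

theorem IsPow3.mul {u v : (FK (M' * q * q))ˣ} (hu : IsPow3 A h m u) (hv : IsPow3 A h m v) :
    IsPow3 A h m (u * v) := by
  obtain ⟨fu, hu3, H, hH, eu⟩ := hu
  obtain ⟨fv, hv3, H', hH', ev⟩ := hv
  refine ⟨fun σ hσ => by rw [map_mul, fu σ hσ, fv σ hσ], IsU3.mul hu3 hv3, H * H',
    mul_ne_zero hH hH', ?_⟩
  rw [red3Ser_mul A hu3.2.2.1 hv3.2.2.1, eu, ev]
  have : (((H * H' : FresBar M' A) : FresBar M' A) : LaurentSeries 𝕜) =
      (H : LaurentSeries 𝕜) * (H' : LaurentSeries 𝕜) := rfl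
  rw [this, map_mul, mul_pow]

theorem IsPow3.inv {u : (FK (M' * q * q))ˣ} (hu : IsPow3 A h m u) : IsPow3 A h m u⁻¹ := by
  obtain ⟨fu, hu3, H, hH, eu⟩ := hu
  refine ⟨fun σ hσ => by rw [map_inv, fu σ hσ], IsU3.inv hu3, H⁻¹, inv_ne_zero hH, ?_⟩
  rw [red3Ser_inv A hu3.2.2.1, eu]
  have : (((H⁻¹ : FresBar M' A) : FresBar M' A) : LaurentSeries 𝕜) =
      ((H : LaurentSeries 𝕜))⁻¹ := rfl
  rw [this, map_inv₀, inv_pow]

variable (A h m)

/-- **`K3fix`** (helper39): the classes of `Kum_m(F_{M' q q})` having an `I_A`-fixed representative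
which is a unit along the three components of the fibre and whose third reduction is an `m`-th
power in the copy `κ₃` of the function field of `X₀(M')`. -/
def K3fix : AddSubgroup (Additive (Kum Kb (FK (M' * q * q)) m)) where
  carrier := {y | ∃ u : pDivUnits Kb (FK (M' * q * q)) m,
    Additive.ofMul (Kum.mk u) = y ∧ IsPow3 A h m (u : (FK (M' * q * q))ˣ)}
  zero_mem' := by
    refine ⟨1, ?_, ?_⟩
    · rw [map_one]; rfl
    · rw [OneMemClass.coe_one]; exact isPow3_one A h m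
  add_mem' := by
    rintro _ _ ⟨u, rfl, hu⟩ ⟨v, rfl, hv⟩
    refine ⟨u * v, ?_, ?_⟩
    · rw [map_mul]; rfl
    · rw [Subgroup.coe_mul]; exact IsPow3.mul hu hv
  neg_mem' := by
    rintro _ ⟨u, rfl, hu⟩
    refine ⟨u⁻¹, ?_, ?_⟩
    · rw [map_inv]; rfl
    · rw [Subgroup.coe_inv]; exact IsPow3.inv hu

variable {A h m}

theorem mem_K3fix {y : Additive (Kum Kb (FK (M' * q * q)) m)} :
    y ∈ K3fix A h m ↔ ∃ u : pDivUnits Kb (FK (M' * q * q)) m,
      Additive.ofMul (Kum.mk u) = y ∧ IsPow3 A h m (u : (FK (M' * q * q))ˣ) := Iff.rfl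

/-- classes of `K3fix` have an `I_A`-fixed three-unit representative. -/
theorem hasU3Rep_of_mem_K3fix {y : Additive (Kum Kb (FK (M' * q * q)) m)}
    (hy : y ∈ K3fix A h m) : HasU3Rep (L' := M' * q) A h m y := by
  obtain ⟨u, hy, hf, hu, -⟩ := hy
  exact ⟨u, ⟨hy, hf⟩, hu⟩

/-- classes of `K3fix` are inertia-invariant. -/
theorem K3fix_le_invSub : ∀ y ∈ K3fix A h m, y ∈ FP.invSub (M := M' * q * q) A m := by
  rintro _ ⟨u, rfl, hfu, -⟩ σ hσ
  rw [gal_mk]
  congr 2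
  exact Subtype.ext (hfu σ hσ)

variable (A h m)

/-- **(V♯)**: the Hecke operators `T_ℓ`, `ℓ ∤ M' q q m`, preserve `K3fix`. -/
def VSharp : Prop :=
  ∀ (ℓ : ℕ) (hℓ : ℓ.Prime) (hℓN : ¬ ℓ ∣ M' * q * q) (_ : ¬ ℓ ∣ m),
    ∀ y ∈ K3fix A h m, kumTl (M' * q * q) m hℓ hℓN y ∈ K3fix A h m

variable {A h m}

/-- under (V♯) every integer polynomial in the `T_ℓ`, `ℓ ∉ S ⊇ primes of M' q q m`, preserves
`K3fix`. -/
theorem kumHecke_aeval_mem_K3fix [NeZero m] (hV : VSharp A h m) (S : Finset ℕ)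
    (hMS : ∀ r : ℕ, r.Prime → r ∣ M' * q * q → r ∈ S) (hmS : ∀ r : ℕ, r.Prime → r ∣ m → r ∈ S)
    {ζ : ℂ} (hζ : IsPrimitiveRoot ζ m) (P : MvPolynomial (PrimeIdx S) ℤ)
    {y : Additive (Kum Kb (FK (M' * q * q)) m)} (hy : y ∈ K3fix A h m) :
    kumHecke (M' * q * q) (↑S : Set ℕ) m hζ (MvPolynomial.aeval (TfamH hMS) P) y ∈
      K3fix A h m := by
  refine Fermat.Agent.GB.A.A5.HeckeKerRed.kumHecke_aeval_mem_of_stable S m hζ hMS _
    (fun i x hx => ?_) P hy
  exact hV i.1 i.2.1 (PrimeIdx.not_dvd hMS i) (fun hd => i.2.2 (hmS _ i.2.1 hd)) x hx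

end K3fix

/-! ### the seams at the literal level `M' q q` -/

section Seams

variable {M' q : ℕ} [NeZero M'] [Fact q.Prime] (A : ValuationSubring Kb)
  (h : HallDvd (q ^ 2) (M' * q * q)) (m : ℕ)

local notation "𝕜" => ResidueField A

/-- **(D3)**: the third reduction of `u` lies in the rescaled copy `κ₃` of the function field of
`X₀(M')` and is `m`-divisible THERE. -/
def D3 {u : (FK (M' * q * q))ˣ} (hu : IsU3 (M' * q) q A h u) : Prop :=
  ∃ ub : FresBar M' A, ub ≠ 0 ∧ (∀ Q : Place 𝕜 (FresBar M' A), (m : ℤ) ∣ Q.ord ub) ∧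
    red3Ser A u hu.2.2.1 = qExpand 𝕜 (M' * q * q) (ub : LaurentSeries 𝕜)

/-- **(M2 NODE3), corrected**: for an `I_A`-fixed `m`-divisible unit which is a unit along the
three components, the first two reductions are `m`-divisible in `FresBar (M' q q) A` and the third
one is `m`-divisible IN THE COPY `κ₃` (D3). -/
def NodeHyp3K : Prop :=
  ∀ u : pDivUnits Kb (FK (M' * q * q)) m,
    (∀ σ ∈ A.inertiaSubgroupIn ℚ,
      galUnits (M' * q * q) σ (u : (FK (M' * q * q))ˣ) = (u : (FK (M' * q * q))ˣ)) →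
    ∀ hu : IsU3 (M' * q) q A h (u : (FK (M' * q * q))ˣ),
      redUnit₁ hu ∈ pDivUnits 𝕜 (FresBar (M' * q * q) A) m ∧
        redUnit₂ hu ∈ pDivUnits 𝕜 (FresBar (M' * q * q) A) m ∧
        D3 A h m hu

/-- **(M3 AB3), corrected** for an endomorphism `t` (the old-killer): an `I_A`-FIXED `m`-divisible
unit, unit along the three components, with the three reductions `m`-divisible (the third one in
the copy), has `t [u] ∈ ker r₁ ⊓ ker r₂` (`ℚ̄`-level kernels on main) and `t [u] ∈ K3fix`. -/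
def AbSharp (t : Module.End (ZMod m) (Additive (Kum Kb (FK (M' * q * q)) m))) : Prop :=
  ∀ u : pDivUnits Kb (FK (M' * q * q)) m,
    (∀ σ ∈ A.inertiaSubgroupIn ℚ,
      galUnits (M' * q * q) σ (u : (FK (M' * q * q))ˣ) = (u : (FK (M' * q * q))ˣ)) →
    ∀ hu : IsU3 (M' * q) q A h (u : (FK (M' * q * q))ˣ),
      redUnit₁ hu ∈ pDivUnits 𝕜 (FresBar (M' * q * q) A) m →
      redUnit₂ hu ∈ pDivUnits 𝕜 (FresBar (M' * q * q) A) m →
      D3 A h m hu →
        t (Additive.ofMul (Kum.mk u)) ∈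
            kerRed (M' * q * q) A m ⊓
              kerRedW (M' * q * q) A
                ((wAutQ h : FK (M' * q * q) ≃ₐ[Kb] FK (M' * q * q)) :
                  FK (M' * q * q) ≃+* FK (M' * q * q)) m ∧
          t (Additive.ofMul (Kum.mk u)) ∈ K3fix A h m

/-- **(APPROX♯)**: a class of `ker r₁ ⊓ ker r₂` (`ℚ̄`-level) lying in `K3fix` is toric in the sense
of `Stmt.IsTor3` (ONE `I_A`-fixed representative with the three reductions `1`). -/
def ApproxSharp (p : ℕ) [Fact p.Prime] : Prop :=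
  ∀ y : Additive (Kum Kb (FK (M' * q * q)) p),
    y ∈ kerRed (M' * q * q) A p →
    y ∈ kerRedW (M' * q * q) A
      ((wAutQ h : FK (M' * q * q) ≃ₐ[Kb] FK (M' * q * q)) :
        FK (M' * q * q) ≃+* FK (M' * q * q)) p →
    y ∈ K3fix A h p →
      IsTor3 p (M' * q) q A y

end Seams

/-! ### the `∀`-closed forms -/

/-- **(M2 NODE3), corrected, closed form**, modulus `p`. -/
def NodeHyp3KStmt : Prop :=
  ∀ (p : ℕ) [Fact p.Prime] (_ : p ≠ 2) (M' q : ℕ) [NeZero M'] [Fact q.Prime] (_ : q ≠ p)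
    (hgood : GoodAuxLevel (M' * q) q) (A : ValuationSubring Kb) (_ : A.LiesOverPrime q),
    NodeHyp3K (M' := M') (q := q) A (hallDvd_sq_of_good Fact.out hgood) p

/-- **(M3 AB3), corrected, closed form**: for every old-killer `t = P(T^{M' q q})`,
`P(T^{M' q}) = 0`. -/
def AbSharpStmt : Prop :=
  ∀ (p : ℕ) [Fact p.Prime] (_ : p ≠ 2) (M' q : ℕ) [NeZero M'] [Fact q.Prime] (_ : q ≠ p)
    (hgood : GoodAuxLevel (M' * q) q) (A : ValuationSubring Kb) (_ : A.LiesOverPrime q)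
    (S : Finset ℕ) (hL'S : ∀ r : ℕ, r.Prime → r ∣ M' * q → r ∈ S)
    (hMS : ∀ r : ℕ, r.Prime → r ∣ M' * q * q → r ∈ S) (_ : p ∈ S)
    (P : MvPolynomial (PrimeIdx S) ℤ) (_ : MvPolynomial.aeval (TfamH hL'S) P = 0)
    (ζ : ℂ) (hζ : IsPrimitiveRoot ζ p),
    AbSharp (M' := M') (q := q) A (hallDvd_sq_of_good Fact.out hgood) p
      (kumHecke (M' * q * q) (↑S : Set ℕ) p hζ (MvPolynomial.aeval (TfamH hMS) P))

/-- **(V♯), closed form.** -/
def VSharpStmt : Prop :=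
  ∀ (p : ℕ) [Fact p.Prime] (_ : p ≠ 2) (M' q : ℕ) [NeZero M'] [Fact q.Prime] (_ : q ≠ p)
    (hgood : GoodAuxLevel (M' * q) q) (A : ValuationSubring Kb) (_ : A.LiesOverPrime q),
    VSharp (M' := M') (q := q) A (hallDvd_sq_of_good Fact.out hgood) p

/-- **(APPROX♯), closed form.** -/
def ApproxSharpStmt : Prop :=
  ∀ (p : ℕ) [Fact p.Prime] (_ : p ≠ 2) (M' q : ℕ) [NeZero M'] [Fact q.Prime] (_ : q ≠ p)
    (hgood : GoodAuxLevel (M' * q) q) (A : ValuationSubring Kb) (_ : A.LiesOverPrime q),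
    ApproxSharp (M' := M') (q := q) A (hallDvd_sq_of_good Fact.out hgood) p

/-! ### the plugs -/

/-- **`NodeHyp3K ∧ AbSharp ∧ ApproxSharp ⟹ Stmt.Ab3Stmt`.** -/
theorem ab3_of_partsK (hnode : NodeHyp3KStmt) (hab : AbSharpStmt) (happ : ApproxSharpStmt) :
    Ab3Stmt := by
  intro p _ hp2 L' q _ _ hqp hgood A hA S hL'S hMS hpS P hP ζ hζ u hfix hU3
  obtain ⟨c, hc⟩ := hgood.1
  have hL' : L' = c * q := by rw [hc, mul_comm]
  subst hL'
  have hc0 : c ≠ 0 := by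
    intro h0
    exact NeZero.ne (c * q) (by rw [h0, zero_mul])
  have : NeZero c := ⟨hc0⟩
  obtain ⟨n1, n2, n3⟩ := hnode p hp2 c q hqp hgood A hA u hfix hU3
  obtain ⟨h12, h3⟩ :=
    hab p hp2 c q hqp hgood A hA S hL'S hMS hpS P hP ζ hζ u hfix hU3 n1 n2 n3
  exact happ p hp2 c q hqp hgood A hA _ h12.1 h12.2 h3

/-- **the whole valuation / reduction side, corrected**:
`Norm3 ∧ NodeHyp3K ∧ AbSharp ∧ ApproxSharp ⟹ ToTorStmt isTor3`. -/
theorem toTor3_of_partsK (hnorm : Norm3Stmt) (hnode : NodeHyp3KStmt) (hab : AbSharpStmt)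
    (happ : ApproxSharpStmt) : ToTorStmt isTor3 :=
  toTor_of_norm3_ab3 hnorm (ab3_of_partsK hnode hab happ)

end Fermat.Agent.GE8.SQ.Stmt3K
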