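/-
GATE-E (S59) / E8.SQ / M3 AB3, the plug of `Ab3Plug12` into the CORRECTED seam `Stmt3K.AbSharp`
(RULING K0) (helper87; second seat of helper39).

`Stmt3K.AbSharp t` asks, for an `I_A`-fixed three-unit `u` with `m`-divisible reductions,
  (1) `t [u] ∈ ker r₁ ⊓ ker r₂`  — this is `Ab3Plug12.killer_mem_K12` VERBATIM (no `I_A`-fixedness and
      no third reduction needed), and
  (2) `t [u] ∈ K3fix`            — AB3₃ + (V♯) (helper39 `Ab33`, helper30).

* `AbK3Stmt`            : part (2) alone, closed form (the binders of `Stmt3K.AbSharpStmt`);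
* `abSharp_of_K3`       : `AbSharp t` for the old-killer from part (2), one place `A`;
* `abSharpStmt_of_K3`   : `AbK3Stmt → Stmt3K.AbSharpStmt`.
-/
import Mathlib
import Fermat.Agent.GE8.SQ.Ab3Plug12
import Fermat.Agent.GE8.SQ.Stmt3K

set_option autoImplicit false
set_option linter.unusedSectionVars false
set_option synthInstance.maxHeartbeats 400000
set_option maxHeartbeats 1000000

noncomputable section

open AlgebraicCurve ModularCurve IsLocalRing

namespace Fermat.Agent.GE8.SQ.Ab3PlugK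

open Fermat.Agent.S24 Fermat.Agent.GJ Fermat.Agent.GJ.J1 Fermat.Agent.GJ.J1.Val
  Fermat.Agent.GJ.KumGroup Fermat.Agent.GJ.Kum.KumType
  Fermat.Agent.GK.UqKronecker Fermat.Agent.GK.UQ Fermat.Agent.GK.UTr
  Fermat.Agent.GK.New Fermat.Agent.GK.Tate.KumHecke
  Fermat.Agent.GB.A
  Fermat.Agent.GL.Final.GeomGate Fermat.Agent.GL.AL
  Fermat.Agent.GE8.SQ.Stmt Fermat.Agent.GE8.SQ.Stmt3 Fermat.Agent.GE8.SQ.Stmt3K

/-- **part (2) of `Stmt3K.AbSharpStmt`**, closed form: the old-killer sends the class of an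
`I_A`-fixed three-unit with `(D3)` into `K3fix`. -/
def AbK3Stmt : Prop :=
  ∀ (p : ℕ) [Fact p.Prime] (_ : p ≠ 2) (M' q : ℕ) [NeZero M'] [Fact q.Prime] (_ : q ≠ p)
    (hgood : GoodAuxLevel (M' * q) q) (A : ValuationSubring Kb) (_ : A.LiesOverPrime q)
    (S : Finset ℕ) (hL'S : ∀ r : ℕ, r.Prime → r ∣ M' * q → r ∈ S)
    (hMS : ∀ r : ℕ, r.Prime → r ∣ M' * q * q → r ∈ S) (_ : p ∈ S)
    (P : MvPolynomial (PrimeIdx S) ℤ) (_ : MvPolynomial.aeval (TfamH hL'S) P = 0)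
    (ζ : ℂ) (hζ : IsPrimitiveRoot ζ p)
    (u : pDivUnits Kb (FK (M' * q * q)) p),
    (∀ σ ∈ A.inertiaSubgroupIn ℚ,
      galUnits (M' * q * q) σ (u : (FK (M' * q * q))ˣ) = (u : (FK (M' * q * q))ˣ)) →
    ∀ hu : IsU3 (M' * q) q A (hallDvd_sq_of_good Fact.out hgood) (u : (FK (M' * q * q))ˣ),
      D3 A (hallDvd_sq_of_good Fact.out hgood) p hu →
        kumHecke (M' * q * q) (↑S : Set ℕ) p hζ (MvPolynomial.aeval (TfamH hMS) P)
            (Additive.ofMul (Kum.mk u)) ∈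
          K3fix A (hallDvd_sq_of_good Fact.out hgood) p

section OnePlace

variable {q : ℕ} [Fact q.Prime] (A : ValuationSubring Kb) (hA : A.LiesOverPrime q)
variable (M' : ℕ) [NeZero M'] (S : Finset ℕ) {m : ℕ} [NeZero m] {ζ : ℂ}

include hA in
/-- **`AbSharp` for the old-killer from its `K3fix` half.** -/
theorem abSharp_of_K3 (hgood : GoodAuxLevel (M' * q) q)
    (hqm : ¬ q ∣ m) (hζ : IsPrimitiveRoot ζ m)
    (hL'S : ∀ r : ℕ, r.Prime → r ∣ M' * q → r ∈ S)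
    (hMS : ∀ r : ℕ, r.Prime → r ∣ M' * q * q → r ∈ S)
    (hmS : ∀ r : ℕ, r.Prime → r ∣ m → r ∈ S)
    (P : MvPolynomial (PrimeIdx S) ℤ)
    (hP : MvPolynomial.aeval (TfamH (N' := M' * q) (S := S) hL'S) P = 0)
    (hK3 : ∀ u : pDivUnits Kb (FK (M' * q * q)) m,
      (∀ σ ∈ A.inertiaSubgroupIn ℚ,
        galUnits (M' * q * q) σ (u : (FK (M' * q * q))ˣ) = (u : (FK (M' * q * q))ˣ)) →
      ∀ hu : IsU3 (M' * q) q A (hallDvd_sq_of_good Fact.out hgood) (u : (FK (M' * q * q))ˣ),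
        D3 A (hallDvd_sq_of_good Fact.out hgood) m hu →
          kumHecke (M' * q * q) (↑S : Set ℕ) m hζ (MvPolynomial.aeval (TfamH hMS) P)
              (Additive.ofMul (Kum.mk u)) ∈
            K3fix A (hallDvd_sq_of_good Fact.out hgood) m) :
    AbSharp (M' := M') (q := q) A (hallDvd_sq_of_good Fact.out hgood) m
      (kumHecke (M' * q * q) (↑S : Set ℕ) m hζ (MvPolynomial.aeval (TfamH hMS) P)) := by
  intro u hfix hu n1 n2 n3
  refine ⟨?_, hK3 u hfix hu n3⟩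
  exact Fermat.Agent.GE8.SQ.Ab3Plug12.killer_mem_K12_of_good A hA S hgood hqm hζ hL'S hMS hmS
    P hP u hu n1 n2

end OnePlace

/-- **`AbK3Stmt → Stmt3K.AbSharpStmt`**: halves 1, 2 of (M3 AB3) are `Ab3Plug12`. -/
theorem abSharpStmt_of_K3 (hK3 : AbK3Stmt) : AbSharpStmt := by
  intro p _ hp2 M' q _ _ hqp hgood A hA S hL'S hMS hpS P hP ζ hζ
  have hp : p.Prime := Fact.out
  have hq : q.Prime := Fact.out
  have hqm : ¬ q ∣ p := fun hd => hqp ((Nat.prime_dvd_prime_iff_eq hq hp).mp hd)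
  have hmS : ∀ r : ℕ, r.Prime → r ∣ p → r ∈ S := fun r hr hrp =>
    ((Nat.prime_dvd_prime_iff_eq hr hp).mp hrp) ▸ hpS
  exact abSharp_of_K3 A hA M' S hgood hqm hζ hL'S hMS hmS P hP
    (fun u hfix hu n3 => hK3 p hp2 M' q hqp hgood A hA S hL'S hMS hpS P hP ζ hζ u hfix hu n3)

end Fermat.Agent.GE8.SQ.Ab3PlugK
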