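/-
GATE-E (S59) / E8.SQ / M3 AB3, the `K3fix` half of `Stmt3K.AbSharpStmt` from (V♯)
(helper87; second seat of helper39).

`Ab3PlugK.AbK3Stmt` asks: for the old-killer `t = P(T^{M' q q})`, `P(T^{M' q}) = 0`, and an
`I_A`-fixed three-unit `u` with `(D3)`, `t [u] ∈ K3fix`.

Assembly:
* helper39's `Ab33K0.exists_sub_mem_pow3` (AB3₃'): `[u] − α^* α^* x₃ = [v]`, `v` `I_A`-fixed,
  three-unit, `red₃ v` a `p`-th power in the copy `κ₃`  ⟹  `[u] − α^*(α^* x₃) ∈ K3fix`;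
* `K3fix` is stable under the `T_ℓ` by (V♯) (helper30's target `Stmt3K.VSharp`);
* helper56's `WCopy.aeval_dies_of_sub_mem` at the Galois-equivariant `α^*` from the level `M' q`:
  `t (α^* (α^* x₃)) = α^* (P(T^{M' q}) (α^* x₃)) = 0`.

* `isPow3_bridge`         : `Ab33K0.IsPow3 → Stmt3K.IsPow3` (regrouping of the existentials);
* `killer_mem_K3fix`      : one place `A`, any `VSharp A h p`;
* `abK3Stmt_of_vSharp`    : `VSharpStmt → Ab3PlugK.AbK3Stmt`;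
* `abSharpStmt_of_vSharp` : `VSharpStmt → Stmt3K.AbSharpStmt`.
-/
import Mathlib
import Fermat.Agent.GE8.SQ.Ab3PlugK
import Fermat.Agent.GE8.SQ.Ab33K0

set_option autoImplicit false
set_option linter.unusedSectionVars false
set_option synthInstance.maxHeartbeats 400000
set_option maxHeartbeats 1000000

noncomputable section

open AlgebraicCurve ModularCurve IsLocalRing

namespace Fermat.Agent.GE8.SQ.AbK3OfV

open Fermat.Agent.S24 Fermat.Agent.GJ Fermat.Agent.GJ.J1 Fermat.Agent.GJ.J1.Val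
  Fermat.Agent.GJ.KumGroup Fermat.Agent.GJ.Kum.KumType
  Fermat.Agent.GK.UqKronecker Fermat.Agent.GK.UQ Fermat.Agent.GK.UTr
  Fermat.Agent.GK.New Fermat.Agent.GK.Tate.KumHecke
  Fermat.Agent.GB.A Fermat.Agent.GB.A.A5.KerRedUp Fermat.Agent.GB.A.A5.HeckeKerRed
  Fermat.Agent.GB.A.A5.WCopy
  Fermat.Agent.GL.Final.GeomGate Fermat.Agent.GL.AL
  Fermat.Agent.GE8.SQ.Stmt Fermat.Agent.GE8.SQ.Stmt3 Fermat.Agent.GE8.SQ.Stmt3K
  Fermat.Agent.GE8.SQ.Ab3PlugK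

section OnePlace

variable {q : ℕ} [Fact q.Prime] (A : ValuationSubring Kb) (hA : A.LiesOverPrime q)
variable (M' : ℕ) [NeZero M'] (h : HallDvd (q ^ 2) (M' * q * q))

/-- helper39's `Ab33K0.IsPow3` is `Stmt3K.IsPow3` (regrouping of the existentials). -/
theorem isPow3_bridge {m : ℕ} {v : (FK (M' * q * q))ˣ}
    (hv : Fermat.Agent.GE8.SQ.Ab33K0.IsPow3 A M' h m v) : IsPow3 A h m v := by
  obtain ⟨hfix, hU3, hmem, H, hH0, hred⟩ := hv
  exact ⟨hfix, hU3, H, hH0, hred⟩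

include hA in
/-- **the `K3fix` half of (M3 AB3)** at one place `A`, from (V♯). -/
theorem killer_mem_K3fix (S : Finset ℕ) (p : ℕ) [Fact p.Prime] (hqp : q ≠ p)
    (hqM : ¬ q ∣ M') (h2 : q = 2 → 3 ∣ M') (h3 : q = 3 → 2 ∣ M')
    (hV : VSharp (M' := M') (q := q) A h p)
    {ζ : ℂ} (hζ : IsPrimitiveRoot ζ p)
    (hL'S : ∀ r : ℕ, r.Prime → r ∣ M' * q → r ∈ S)
    (hMS : ∀ r : ℕ, r.Prime → r ∣ M' * q * q → r ∈ S)
    (hmS : ∀ r : ℕ, r.Prime → r ∣ p → r ∈ S)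
    (P : MvPolynomial (PrimeIdx S) ℤ)
    (hP : MvPolynomial.aeval (TfamH (N' := M' * q) (S := S) hL'S) P = 0)
    (u : pDivUnits Kb (FK (M' * q * q)) p)
    (hfix : ∀ σ ∈ A.inertiaSubgroupIn ℚ,
      galUnits (M' * q * q) σ (u : (FK (M' * q * q))ˣ) = (u : (FK (M' * q * q))ˣ))
    (hu : IsU3 (M' * q) q A h (u : (FK (M' * q * q))ˣ))
    (hD3 : D3 A h p hu) :
    kumHecke (M' * q * q) (↑S : Set ℕ) p hζ (MvPolynomial.aeval (TfamH hMS) P)
        (Additive.ofMul (Kum.mk u)) ∈ K3fix A h p := by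
  have hq : q.Prime := Fact.out
  have hp : p.Prime := Fact.out
  haveI : NeZero q := ⟨hq.ne_zero⟩
  haveI : NeZero p := ⟨hp.ne_zero⟩
  obtain ⟨ub, hub0, hd, hred⟩ := hD3
  obtain ⟨x₃, v, hcls, hpow⟩ :=
    Fermat.Agent.GE8.SQ.Ab33K0.exists_sub_mem_pow3 A hA M' h p hqp hqM h2 h3 u hfix hu ub hub0 hd
      hred
  have hmem : Additive.ofMul (Kum.mk u) - aUp (M' * q) q p (aUp M' q p x₃) ∈ K3fix A h p :=
    ⟨v, hcls, isPow3_bridge A M' h hpow⟩
  refine aeval_dies_of_sub_mem (N' := M' * q) (M := M' * q * q) S p hζ hL'S hMS hmS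
    (aUp (M' * q) q p) (fun σ x => aUp_gal (M' * q) q p σ x) (K3fix A h p) ?_ P hP
    (x₁ := aUp M' q p x₃) hmem
  intro i x hx
  exact hV i.1 i.2.1 (PrimeIdx.not_dvd hMS i) (fun hdv => i.2.2 (hmS _ i.2.1 hdv)) x hx

end OnePlace

/-- **`VSharpStmt → Ab3PlugK.AbK3Stmt`**. -/
theorem abK3Stmt_of_vSharp (hV : VSharpStmt) : AbK3Stmt := by
  intro p _ hp2 M' q _ _ hqp hgood A hA S hL'S hMS hpS P hP ζ hζ u hfix hu hD3
  have hp : p.Prime := Fact.out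
  have hq : q.Prime := Fact.out
  have hmS : ∀ r : ℕ, r.Prime → r ∣ p → r ∈ S := fun r hr hrp =>
    ((Nat.prime_dvd_prime_iff_eq hr hp).mp hrp) ▸ hpS
  -- `GoodAuxLevel (M' q) q` unpacked at the literal level
  have hqM : ¬ q ∣ M' := by
    intro hd
    apply hgood.2.1
    obtain ⟨d, rfl⟩ := hd
    exact ⟨d, by ring⟩
  have h2 : q = 2 → 3 ∣ M' := by
    intro hq2
    have h3dvd : 3 ∣ M' * q := hgood.2.2.2.1 hq2
    rcases (Nat.Prime.dvd_mul Nat.prime_three).mp h3dvd with h | h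
    · exact h
    · rw [hq2] at h
      exact absurd h (by decide)
  have h3 : q = 3 → 2 ∣ M' := by
    intro hq3
    have h2dvd : 2 ∣ M' * q := hgood.2.2.2.2 hq3
    rcases (Nat.Prime.dvd_mul Nat.prime_two).mp h2dvd with h | h
    · exact h
    · rw [hq3] at h
      exact absurd h (by decide)
  exact killer_mem_K3fix A hA M' (hallDvd_sq_of_good Fact.out hgood) S p hqp hqM h2 h3
    (hV p hp2 M' q hqp hgood A hA) hζ hL'S hMS hmS P hP u hfix hu hD3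

/-- **`VSharpStmt → Stmt3K.AbSharpStmt`**: after this, (M3 AB3) depends only on (V♯). -/
theorem abSharpStmt_of_vSharp (hV : VSharpStmt) : AbSharpStmt :=
  abSharpStmt_of_K3 (abK3Stmt_of_vSharp hV)

end Fermat.Agent.GE8.SQ.AbK3OfV
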