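/-
GATE-E (S59) / block E8 / node E8.SQ, leaf (APPROX♯) in helper97's spelling `Stmt3K.ApproxSharp`
(helper21):

  **`approxSharpStmt : Stmt3K.ApproxSharpStmt`**  —  BINDER-FREE:
  `y ∈ kerRed N A p`, `y ∈ kerRedW N A (wAutQ h) p`, `y ∈ Stmt3K.K3fix A h p`  ⟹  `Stmt.IsTor3 y`
  (`N = M' q q`, `q ∤ M'`, `A ∣ q`).

The representative `u` of `K3fix` (`I_A`-fixed, unit along the three components, third reduction
`= (H(t^N))^p` with `H ∈ FresBar M' A`) is `mapK0Bar u₀`, `u₀ ∈ F₀ = K₀(X₀(N))`.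
* components 1, 2 : `ApproxSharp.powRedK0_of_isCPrin` (the `ℚ̄`-level kernels give `p`-th powers in
  `FresBar N A = (k₀ → 𝕜)_* FresK0 A N`);
* component 3 : `H = (k₀ → 𝕜)_* H₀`, `H₀ ∈ k₀(X₀(M'))`, and `H₀(t^N) ∈ Fres3K0`
  (helper39 `ResW3Top.mem_Fres3K0_iff`), so `red₃^{K₀} u₀ = (H₀(t^N))^p` in `Fres3K0`;
then `Approx3K0.isU2K0_of_isTorK0` (approximation over `K₀`) and `isTor3_of_isU2K0`.
-/
import Mathlib
import Fermat.Agent.GE8.SQ.ApproxSharp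
import Fermat.Agent.GE8.SQ.Stmt3K
import Fermat.Agent.GL.Val.ResW3Top

set_option autoImplicit false
set_option linter.unusedSectionVars false

noncomputable section

namespace Fermat.Agent.GE8.SQ.ApproxSharpK

open AlgebraicCurve ModularCurve IsLocalRing HahnSeries
open Fermat.Agent.S24 Fermat.Agent.S24_helper62
open Fermat.Agent.GJ Fermat.Agent.GJ.KumGroup Fermat.Agent.GJ.Kum.KumType
open Fermat.Agent.GJ.J1 Fermat.Agent.GJ.J1.Val
open Fermat.Agent.GK.AL Fermat.Agent.GK.MultiVal Fermat.Agent.GK.UqKronecker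
open Fermat.Agent.GB.A
open Fermat.Agent.GL.AL Fermat.Agent.GL.W3 Fermat.Agent.GL.CuspVal
open Fermat.Agent.GL.Val.GaussK0 Fermat.Agent.GL.Val.SecondK0 Fermat.Agent.GL.Val.SecondK0Hall
open Fermat.Agent.GL.Val.ThirdK0 Fermat.Agent.GL.Val.CuspK0 Fermat.Agent.GL.Val.CuspCoeff
open Fermat.Agent.GK.Val.BaseChange
open Fermat.Agent.GE8.SQ.Stmt Fermat.Agent.GE8.SQ.Approx3K0 Fermat.Agent.GE8.SQ.ApproxSharp
open Fermat.Agent.GE8.SQ.Stmt3K
open Fermat.Agent.Common_helper32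

variable {p : ℕ} [Fact p.Prime] {M' q : ℕ} [NeZero M'] [Fact q.Prime] {A : ValuationSubring Kb}

local notation "N" => M' * q * q
local notation "F₀" => modularFunctionFieldFullC (K0 A) (M' * q * q)
local notation "k₀" => ResidueField (R0 A)
local notation "𝕜" => ResidueField A

/-- **the general form**: a class of `ker r₁ ∩ ker r₂` (over `ℚ̄`) with a `K₀`-rational
representative `mapK0Bar u₀` which is a unit along the three components and whose third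
`K₀`-level reduction is a nonzero `p`-th power of `Fres3K0` is `IsTorK0`. -/
theorem isTorK0_of_mem_of_powRed (hqM : ¬ q ∣ M') (hA : (q : Kb) ∈ A.nonunits)
    (h : HallDvd (q ^ 2) (M' * q * q)) {y : Additive (Kum Kb (FK N) p)}
    (h1 : y ∈ kerRed N A p)
    (h2 : y ∈ kerRedW N A ((wAutQ h : FK N ≃ₐ[Kb] FK N) : FK N ≃+* FK N) p)
    (u : pDivUnits Kb (FK N) p) (hyu : Additive.ofMul (Kum.mk u) = y)
    (hU : IsU3 (M' * q) q A h (u : (FK N)ˣ)) (u₀ : F₀)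
    (hmap : mapK0Bar A N u₀ = ((u : (FK N)ˣ) : FK N))
    (h3 : PowRedK0 (M' * q) q A (redData3K0 A N q Fact.out hA) p u₀) :
    IsTorK0 p (M' * q) q A y := by
  have hp : 0 < p := (Fact.out : p.Prime).pos
  have hinv : mapK0Bar A N u₀⁻¹ = (((u : (FK N)ˣ)⁻¹ : (FK N)ˣ) : FK N) := by
    rw [map_inv₀, hmap, Units.val_inv_eq_inv_val]
  obtain ⟨⟨a1, a1'⟩, ⟨a2, a2'⟩, -⟩ := hU
  refine ⟨h, hA, u, u₀, hyu, hmap, ?_, ?_, h3⟩
  · -- component 1
    obtain ⟨v, hv, hvy⟩ := mem_kerRed.1 h1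
    obtain ⟨w, hw⟩ := exists_eq_mul_pow (hyu.trans hvy.symm)
    refine powRedK0_of_isCPrin hqM hA hp u₀ ((mem_Rw1K0_iff A N u₀).2 (by rw [hmap]; exact a1))
      ((mem_Rw1K0_iff A N u₀⁻¹).2 (by rw [hinv]; exact a1')) hv w.ne_zero ?_
    rw [hmap]
    exact hw
  · -- component 2
    obtain ⟨v, hv, hvy⟩ := mem_kerRedW.1 h2
    obtain ⟨w, hw⟩ := exists_eq_mul_pow (hyu.trans hvy.symm)
    have hx₀ : wAutQK0 A N h u₀ ∈ RwK0 A N :=
      (mem_Rw2QK0_iff A N h u₀).2 (by rw [hmap]; exact a2)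
    have hx₀' : (wAutQK0 A N h u₀)⁻¹ ∈ RwK0 A N := by
      rw [← map_inv₀]
      exact (mem_Rw2QK0_iff A N h u₀⁻¹).2 (by rw [hinv]; exact a2')
    have e : mapK0Bar A N (wAutQK0 A N h u₀) =
        ((wAutQ h : FK N ≃ₐ[Kb] FK N) : FK N ≃+* FK N) ((v : (FK N)ˣ) : FK N) *
          (wAutQ h ((w : (FK N)ˣ) : FK N)) ^ p := by
      rw [mapK0Bar_wAutQK0, hmap, hw, map_mul, map_pow]
      rfl
    obtain ⟨hx, V, hV, hVp⟩ := powRedK0_of_isCPrin hqM hA hp (wAutQK0 A N h u₀) hx₀ hx₀' hv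
      ((map_ne_zero (wAutQ h)).2 w.ne_zero) e
    exact ⟨hx, V, hV, hVp⟩

/-- **component 3 from `IsPow3`**: an `m`-th power in the copy `κ₃` over `ℚ̄` is an `m`-th power in
`Fres3K0` over `K₀`. -/
theorem powRedK0₃_of_pow (hqM : ¬ q ∣ M') (hA : (q : Kb) ∈ A.nonunits) (m : ℕ) (u₀ : F₀)
    (hu : mapK0Bar A N u₀ ∈ (redData3 N A q).Rw) {H : FresBar M' A} (hH : H ≠ 0)
    (e : (((redData3 N A q).red ⟨mapK0Bar A N u₀, hu⟩ : FresCusp N A (cusp3 N q)) :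
        LaurentSeries 𝕜) = qExpand 𝕜 N (H : LaurentSeries 𝕜) ^ m) :
    PowRedK0 (M' * q) q A (redData3K0 A N q Fact.out hA) m u₀ := by
  have hq : q.Prime := Fact.out
  -- `H` comes from `k₀(X₀(M'))`
  have h1 : (H : LaurentSeries 𝕜) ∈ modularFunctionFieldFullC 𝕜 M' := by
    have h0 : ∀ v : LaurentSeries 𝕜, v ∈ FresBar M' A → v ∈ modularFunctionFieldFullC 𝕜 M' := by
      intro v hv
      rw [Fermat.Agent.GJ.J1.Res.FresBar_eq_fullC M' A hqM hA] at hv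
      exact hv
    exact h0 _ H.2
  have h2 := coeffMap_mem_fullC ((resEquivK0 A hq hA).symm.toRingHom) M' h1
  set H₀ : LaurentSeries k₀ :=
    coeffMap ((resEquivK0 A hq hA).symm.toRingHom) (H : LaurentSeries 𝕜) with hH₀
  have hback : coeffMap (resMapK0 A) H₀ = (H : LaurentSeries 𝕜) := by
    rw [hH₀, coeffMap_coeffMap]
    have h3 : (resMapK0 A).comp ((resEquivK0 A hq hA).symm.toRingHom) = RingHom.id _ := by
      ext z
      exact (resEquivK0 A hq hA).apply_symm_apply z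
    rw [h3, coeffMap_id]
  have hV₃ : qExpand k₀ N H₀ ∈ Fres3K0 A N q hq hA :=
    (Fermat.Agent.GL.Val.ResW3Top.mem_Fres3K0_iff A hq hqM hA _).2 ⟨H₀, h2, rfl⟩
  have hx : u₀ ∈ (redData3K0 A N q hq hA).Rw := (mem_Rw3K0_iff_mapK0Bar A N q u₀).2 hu
  have hx'' : toFN0 A N u₀ ∈ (redDataCusp N A (cusp3 N q)).Rw := by
    rw [toFN0_eq_mapK0Bar]; exact hu
  refine ⟨hx, ⟨qExpand k₀ N H₀, hV₃⟩, ?_, ?_⟩
  · intro h0
    apply hH
    apply Subtype.ext
    have h4 : qExpand k₀ N H₀ = 0 := congrArg Subtype.val h0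
    have h5 : coeffMap (resMapK0 A) (qExpand k₀ N H₀) = 0 := by rw [h4, map_zero]
    rw [coeffMap_qExpand, hback] at h5
    have h6 : Function.Injective (qExpand 𝕜 N) := (qExpand 𝕜 N).injective
    exact h6 (h5.trans (map_zero _).symm)
  · apply Subtype.ext
    apply coeffMap_injective _ (resMapK0 A).injective
    have h7 := coeffMap_resMapK0_coe_red A N (cusp3 N q) hq hA u₀ hx hx''
    have h8 : (⟨toFN0 A N u₀, hx''⟩ : (redDataCusp N A (cusp3 N q)).Rw) =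
        (⟨mapK0Bar A N u₀, hu⟩ : (redData3 N A q).Rw) :=
      Subtype.ext (toFN0_eq_mapK0Bar A N u₀)
    rw [h8] at h7
    refine h7.trans ?_
    rw [e]
    show _ = coeffMap (resMapK0 A)
      (((⟨qExpand k₀ N H₀, hV₃⟩ : Fres3K0 A N q hq hA) ^ m : Fres3K0 A N q hq hA) :
        LaurentSeries k₀)
    rw [SubmonoidClass.coe_pow, map_pow, coeffMap_qExpand, hback]

/-- **(APPROX♯)** in helper97's spelling, at one place. -/
theorem approxSharp (hqM : ¬ q ∣ M') (hA : (q : Kb) ∈ A.nonunits)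
    (h : HallDvd (q ^ 2) (M' * q * q)) : Stmt3K.ApproxSharp (M' := M') (q := q) A h p := by
  intro y h1 h2 h3
  obtain ⟨u, hyu, hfix, hU, H, hH, e⟩ := h3
  obtain ⟨u₀, hmap⟩ := Fermat.Agent.GL.RatLiftK0.exists_mapK0Bar_of_fixed A N
    ((u : (FK N)ˣ) : FK N) (fun σ hσ' => congrArg Units.val (hfix σ hσ'))
  have hu : mapK0Bar A N u₀ ∈ (redData3 N A q).Rw := by rw [hmap]; exact hU.2.2.1
  have e' : (((redData3 N A q).red ⟨mapK0Bar A N u₀, hu⟩ : FresCusp N A (cusp3 N q)) :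
      LaurentSeries 𝕜) = qExpand 𝕜 N (H : LaurentSeries 𝕜) ^ p := by
    rw [← e]
    show _ = (((redData3 N A q).red ⟨((u : (FK N)ˣ) : FK N), hU.2.2.1⟩ :
      FresCusp N A (cusp3 N q)) : LaurentSeries 𝕜)
    congr 3
  exact isTor3_of_isU2K0 (isU2K0_of_isTorK0 (level_eq M' q) hqM
    (isTorK0_of_mem_of_powRed hqM hA h h1 h2 u hyu hU u₀ hmap
      (powRedK0₃_of_pow hqM hA p u₀ hu hH e')))

/-- **(APPROX♯), closed form: `Stmt3K.ApproxSharpStmt` holds.** -/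
theorem approxSharpStmt : Stmt3K.ApproxSharpStmt := by
  intro p _ _ M' q _ _ _ hgood A hA
  have hqM : ¬ q ∣ M' := fun hd => hgood.2.1 (by
    obtain ⟨d, rfl⟩ := hd
    exact ⟨d, by ring⟩)
  exact approxSharp hqM hA _

end Fermat.Agent.GE8.SQ.ApproxSharpK
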