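/-
GATE-E (S59) / block E8 / node E8.SQ, the `ℚ̄ ↔ K₀` BRIDGE of the toric predicate (helper21).

Level `N` with `q² ∥ N` (`N = M' q²`, `q ∤ M'`), `A ∣ q`, `K₀ = ℚ̄^{I_A}`, `F₀ = K₀(X₀(N))`,
`mapK0Bar : F₀ → F_N = ℚ̄(X₀(N))`.  The three reduction data over `K₀` (GATE-L):
  `redDataK0 A N`          (`w₁`, cusp `∞`,       residue field `FresK0 A N`),
  `redData2QK0 A N h`      (`w₂ = w₁ ∘ W_{q²}`,   residue field `FresK0 A N`),
  `redData3K0 A N q hq hA` (`w₃`, cusp `1/(q M')`, residue field `Fres3K0 A N q hq hA`),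
restrict the three reduction data over `ℚ̄` of `Stmt.IsTor3`
  (`redDataBar N A`, `GL.AL.redData2Q N A h`, `GL.W3.redData3 N A q`).

* `exists_red_one_three` : ABSTRACT — three incomparable reduction data, `red_i u = V_i ^ m`,
                           `V_i ≠ 0` ⟹ `u · β⁻¹ ^ m` has the three reductions `1`
                           (`GL/Chain/OneModRad.exists_one_mod_rad`);
* `redOne₁_iff`, `redOne₂_iff`, `redOne₃_iff` : for `x ∈ F₀`, `red_i^{K₀} x = 1 ↔ red_i (mapK0Bar x) = 1`;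
* `IsU2K0`   : `K₀`-level "ONE representative in `F₀` with the three `K₀`-reductions `1`"
               (`= H4OfXi.U2` of the GATE-L triple set-up, the input of the toric side);
* `IsTorK0`  : `K₀`-level "ONE representative in `F₀` whose three `K₀`-reductions are nonzero
               `p`-th powers";
* `isU2K0_of_isTorK0`  : `IsTorK0 ⟹ IsU2K0`   (approximation, `N = M' q²`, `q ∤ M'`);
* `isTor3_of_isU2K0`, `isU2K0_of_isTor3` : `IsU2K0 ⟺ Stmt.IsTor3` (the two bridges);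
* `isTor3_of_isTorK0`  : the composite, at a good auxiliary level.
-/
import Mathlib
import Fermat.Agent.GE8.SQ.Stmt
import Fermat.Agent.GL.Chain.OneModRad
import Fermat.Agent.GL.Val.ThirdK0Ne
import Fermat.Agent.GL.Val.ThirdK0Red
import Fermat.Agent.GL.Red.RatLiftK0

set_option autoImplicit false
set_option linter.unusedSectionVars false

noncomputable section

namespace Fermat.Agent.GE8.SQ.Approx3K0

open AlgebraicCurve ModularCurve IsLocalRing HahnSeries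
open Fermat.Agent.S24 Fermat.Agent.S24_helper62
open Fermat.Agent.GJ Fermat.Agent.GJ.KumGroup Fermat.Agent.GJ.Kum.KumType
open Fermat.Agent.GJ.J1 Fermat.Agent.GJ.J1.Val
open Fermat.Agent.GK.AL Fermat.Agent.GK.MultiVal
open Fermat.Agent.GB.A
open Fermat.Agent.GL.AL Fermat.Agent.GL.W3 Fermat.Agent.GL.CuspVal
open Fermat.Agent.GL.Val.GaussK0 Fermat.Agent.GL.Val.SecondK0 Fermat.Agent.GL.Val.SecondK0Hall
open Fermat.Agent.GL.Val.ThirdK0 Fermat.Agent.GL.Val.CuspK0 Fermat.Agent.GL.Val.CuspCoeff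
open Fermat.Agent.GK.Val.BaseChange
open Fermat.Agent.GE8.SQ.Stmt
open Fermat.Agent.Common_helper32

/-! ### the abstract approximation step -/

section Abstract

variable {K F : Type*} [Field K] [Field F] [Algebra K F]
  {k1 k2 k3 Ft1 Ft2 Ft3 : Type*} [Field k1] [Field k2] [Field k3]
  [Field Ft1] [Field Ft2] [Field Ft3] [Algebra k1 Ft1] [Algebra k2 Ft2] [Algebra k3 Ft3]

theorem red_ker_iff {k Ft : Type*} [Field k] [Field Ft] [Algebra k Ft] (R : RedData K F k Ft)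
    (x : R.Rw) : R.red x = 0 ↔ R.Rw.valuation (x : F) < 1 := by
  rw [R.red_eq_zero_iff, ValuationSubring.valuation_lt_one_iff]

/-- **three incomparable reduction data**: a common unit whose three reductions are nonzero
`m`-th powers becomes `≡ 1` at the three places after division by an `m`-th power. -/
theorem exists_red_one_three (R1 : RedData K F k1 Ft1) (R2 : RedData K F k2 Ft2)
    (R3 : RedData K F k3 Ft3) (hW : Incomparable ![R1.Rw, R2.Rw, R3.Rw]) (m : ℕ) {u : F}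
    (h1 : u ∈ R1.Rw) (h2 : u ∈ R2.Rw) (h3 : u ∈ R3.Rw)
    {V1 : Ft1} {V2 : Ft2} {V3 : Ft3} (hV1 : V1 ≠ 0) (hV2 : V2 ≠ 0) (hV3 : V3 ≠ 0)
    (e1 : R1.red ⟨u, h1⟩ = V1 ^ m) (e2 : R2.red ⟨u, h2⟩ = V2 ^ m)
    (e3 : R3.red ⟨u, h3⟩ = V3 ^ m) :
    ∃ β : F, β ≠ 0 ∧
      ∃ (g1 : u * β⁻¹ ^ m ∈ R1.Rw) (g2 : u * β⁻¹ ^ m ∈ R2.Rw) (g3 : u * β⁻¹ ^ m ∈ R3.Rw),
        R1.red ⟨u * β⁻¹ ^ m, g1⟩ = 1 ∧ R2.red ⟨u * β⁻¹ ^ m, g2⟩ = 1 ∧
          R3.red ⟨u * β⁻¹ ^ m, g3⟩ = 1 := by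
  obtain ⟨β, hβ, -, -, -, g1, g2, g3, r1, r2, r3⟩ :=
    Fermat.Agent.GL.Chain.exists_one_mod_rad hW R1.red R2.red R3.red R1.red_surjective
      R2.red_surjective R3.red_surjective (red_ker_iff R1) (red_ker_iff R2) (red_ker_iff R3)
      m h1 h2 h3 hV1 hV2 hV3 e1 e2 e3
  exact ⟨β, hβ, g1, g2, g3, r1, r2, r3⟩

end Abstract

/-! ### the three bridges `K₀ ↔ ℚ̄` for "the reduction is `1`" -/

section Bridges

variable (A : ValuationSubring Qb) (N : ℕ) [NeZero N]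

local notation "F₀" => modularFunctionFieldFullC (K0 A) N

theorem coeffMap_resMapK0_eq_one_iff (y : LaurentSeries (ResidueField (R0 A))) :
    coeffMap (resMapK0 A) y = 1 ↔ y = 1 := by
  constructor
  · intro h
    apply coeffMap_injective _ (resMapK0 A).injective
    rw [h, map_one]
  · rintro rfl
    exact map_one _

/-- `w₁`: the `K₀`-reduction of `x ∈ F₀` is `1` iff the `ℚ̄`-reduction of `mapK0Bar x` is `1`. -/
theorem redOne₁_iff (x : F₀) :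
    (∃ hx : x ∈ RwK0 A N, (redDataK0 A N).red ⟨x, hx⟩ = 1) ↔
      ∃ hx' : mapK0Bar A N x ∈ (redDataBar N A).Rw,
        (redDataBar N A).red ⟨mapK0Bar A N x, hx'⟩ = 1 := by
  constructor
  · rintro ⟨hx, e⟩
    have hx' := (mem_Rw1K0_iff A N x).1 hx
    refine ⟨hx', Subtype.ext ?_⟩
    rw [coe_red1K0 A N x hx hx', e]
    exact map_one _
  · rintro ⟨hx', e⟩
    have hx := (mem_Rw1K0_iff A N x).2 hx'
    refine ⟨hx, Subtype.ext ?_⟩
    have h1 := coe_red1K0 A N x hx hx'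
    rw [e] at h1
    exact (coeffMap_resMapK0_eq_one_iff A _).1 h1.symm

/-- `w₂ = w₁ ∘ W_{q²}`. -/
theorem redOne₂_iff {Q : ℕ} (h : HallDvd Q N) (x : F₀) :
    (∃ hx : x ∈ (redData2QK0 A N h).Rw, (redData2QK0 A N h).red ⟨x, hx⟩ = 1) ↔
      ∃ hx' : mapK0Bar A N x ∈ (redData2Q N A h).Rw,
        (redData2Q N A h).red ⟨mapK0Bar A N x, hx'⟩ = 1 := by
  constructor
  · rintro ⟨hx, e⟩
    have hx' := (mem_Rw2QK0_iff A N h x).1 hx
    refine ⟨hx', Subtype.ext ?_⟩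
    rw [coe_red2QK0 A N h x hx hx', e]
    exact map_one _
  · rintro ⟨hx', e⟩
    have hx := (mem_Rw2QK0_iff A N h x).2 hx'
    refine ⟨hx, Subtype.ext ?_⟩
    have h1 := coe_red2QK0 A N h x hx hx'
    rw [e] at h1
    exact (coeffMap_resMapK0_eq_one_iff A _).1 h1.symm

/-- `w₃` (cusp `1/(q M')`). -/
theorem redOne₃_iff {q : ℕ} (hq : q.Prime) (hA : (q : Qb) ∈ A.nonunits) (x : F₀) :
    (∃ hx : x ∈ (redData3K0 A N q hq hA).Rw, (redData3K0 A N q hq hA).red ⟨x, hx⟩ = 1) ↔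
      ∃ hx' : mapK0Bar A N x ∈ (redData3 N A q).Rw,
        (redData3 N A q).red ⟨mapK0Bar A N x, hx'⟩ = 1 := by
  constructor
  · rintro ⟨hx, e⟩
    have hx' : mapK0Bar A N x ∈ (redData3 N A q).Rw := (mem_Rw3K0_iff_mapK0Bar A N q x).1 hx
    have hx'' : toFN0 A N x ∈ (redDataCusp N A (cusp3 N q)).Rw := by
      rw [toFN0_eq_mapK0Bar]; exact hx'
    refine ⟨hx', Subtype.ext ?_⟩
    have h1 := coeffMap_resMapK0_coe_red A N (cusp3 N q) hq hA x hx hx''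
    have e' : (redDataCuspK0 A N (cusp3 N q) hq hA).red ⟨x, hx⟩ = 1 := e
    rw [e'] at h1
    have h2 : (⟨mapK0Bar A N x, hx'⟩ : (redData3 N A q).Rw) =
        (⟨toFN0 A N x, hx''⟩ : (redDataCusp N A (cusp3 N q)).Rw) :=
      Subtype.ext (toFN0_eq_mapK0Bar A N x).symm
    rw [h2]
    refine h1.symm.trans ?_
    exact map_one _
  · rintro ⟨hx', e⟩
    have hx : x ∈ (redData3K0 A N q hq hA).Rw := (mem_Rw3K0_iff_mapK0Bar A N q x).2 hx'
    have hx'' : toFN0 A N x ∈ (redDataCusp N A (cusp3 N q)).Rw := by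
      rw [toFN0_eq_mapK0Bar]; exact hx'
    refine ⟨hx, Subtype.ext ?_⟩
    have h1 := coeffMap_resMapK0_coe_red A N (cusp3 N q) hq hA x hx hx''
    have h2 : (⟨toFN0 A N x, hx''⟩ : (redDataCusp N A (cusp3 N q)).Rw) =
        (⟨mapK0Bar A N x, hx'⟩ : (redData3 N A q).Rw) :=
      Subtype.ext (toFN0_eq_mapK0Bar A N x)
    rw [h2] at h1
    have e' : (redDataCusp N A (cusp3 N q)).red ⟨mapK0Bar A N x, hx'⟩ = 1 := e
    rw [e'] at h1
    exact (coeffMap_resMapK0_eq_one_iff A _).1 h1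

end Bridges

/-! ### the `K₀`-level predicates and the bridge theorems -/

section Main

variable (p : ℕ) [Fact p.Prime] (L' q : ℕ) [NeZero L'] [Fact q.Prime] (A : ValuationSubring Kb)

local notation "F₀" => modularFunctionFieldFullC (K0 A) (L' * q)

/-- `u₀ ∈ F₀` lies in the valuation ring of the reduction datum and its reduction is `1`. -/
def RedOneK0 {k Ft : Type*} [Field k] [Field Ft] [Algebra k Ft]
    (R : RedData (K0 A) F₀ k Ft) (u₀ : F₀) : Prop :=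
  ∃ hu : u₀ ∈ R.Rw, R.red ⟨u₀, hu⟩ = 1

/-- `u₀ ∈ F₀` lies in the valuation ring of the reduction datum and its reduction is a nonzero
`m`-th power. -/
def PowRedK0 {k Ft : Type*} [Field k] [Field Ft] [Algebra k Ft]
    (R : RedData (K0 A) F₀ k Ft) (m : ℕ) (u₀ : F₀) : Prop :=
  ∃ (hu : u₀ ∈ R.Rw) (V : Ft), V ≠ 0 ∧ R.red ⟨u₀, hu⟩ = V ^ m

/-- **toric, `K₀`-level spelling with reductions `1`** (`= H4OfXi.U2` of the GATE-L triple
set-up): ONE representative `mapK0Bar u₀`, `u₀ ∈ F₀ = K₀(X₀(L' q))`, whose three `K₀`-level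
reductions are `1`. -/
def IsU2K0 (y : Additive (Kum Kb (FK (L' * q)) p)) : Prop :=
  ∃ (h : HallDvd (q ^ 2) (L' * q)) (hA : (q : Kb) ∈ A.nonunits)
    (u : pDivUnits Kb (FK (L' * q)) p) (u₀ : F₀),
    Additive.ofMul (Kum.mk u) = y ∧
    mapK0Bar A (L' * q) u₀ = ((u : (FK (L' * q))ˣ) : FK (L' * q)) ∧
    RedOneK0 L' q A (redDataK0 A (L' * q)) u₀ ∧
    RedOneK0 L' q A (redData2QK0 A (L' * q) h) u₀ ∧
    RedOneK0 L' q A (redData3K0 A (L' * q) q Fact.out hA) u₀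

/-- **toric, `K₀`-level spelling with `p`-th powers**: ONE representative `mapK0Bar u₀`,
`u₀ ∈ F₀`, whose three `K₀`-level reductions are nonzero `p`-th powers of the residue function
fields `FresK0`, `FresK0`, `Fres3K0` (constants are `p`-th powers: `k₀` is algebraically closed). -/
def IsTorK0 (y : Additive (Kum Kb (FK (L' * q)) p)) : Prop :=
  ∃ (h : HallDvd (q ^ 2) (L' * q)) (hA : (q : Kb) ∈ A.nonunits)
    (u : pDivUnits Kb (FK (L' * q)) p) (u₀ : F₀),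
    Additive.ofMul (Kum.mk u) = y ∧
    mapK0Bar A (L' * q) u₀ = ((u : (FK (L' * q))ˣ) : FK (L' * q)) ∧
    PowRedK0 L' q A (redDataK0 A (L' * q)) p u₀ ∧
    PowRedK0 L' q A (redData2QK0 A (L' * q) h) p u₀ ∧
    PowRedK0 L' q A (redData3K0 A (L' * q) q Fact.out hA) p u₀

variable {p L' q A}

/-- **APPROX over `K₀`**: `IsTorK0 ⟹ IsU2K0` at `L' q = M' q²`, `q ∤ M'`. -/
theorem isU2K0_of_isTorK0 {M' : ℕ} (hN : L' * q = M' * q ^ 2) (hqM : ¬ q ∣ M')
    {y : Additive (Kum Kb (FK (L' * q)) p)} (hy : IsTorK0 p L' q A y) : IsU2K0 p L' q A y := by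
  obtain ⟨h, hA, u, u₀, hyu, hmap, ⟨h1, V1, hV1, e1⟩, ⟨h2, V2, hV2, e2⟩, ⟨h3, V3, hV3, e3⟩⟩ := hy
  have hW : Incomparable ![(redDataK0 A (L' * q)).Rw, (redData2QK0 A (L' * q) h).Rw,
      (redData3K0 A (L' * q) q Fact.out hA).Rw] :=
    incomparable_three_K0 A Fact.out hN hqM hA h
  obtain ⟨β, hβ, g1, g2, g3, r1, r2, r3⟩ :=
    exists_red_one_three (redDataK0 A (L' * q)) (redData2QK0 A (L' * q) h)
      (redData3K0 A (L' * q) q Fact.out hA) hW p h1 h2 h3 hV1 hV2 hV3 e1 e2 e3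
  have hb0 : mapK0Bar A (L' * q) β ≠ 0 := (map_ne_zero (mapK0Bar A (L' * q))).2 hβ
  let bU : (FK (L' * q))ˣ := Units.mk0 (mapK0Bar A (L' * q) β) hb0
  let w : pDivUnits Kb (FK (L' * q)) p := ⟨bU⁻¹ ^ p, pow_mem_pDivUnits Kb (FK (L' * q)) p bU⁻¹⟩
  refine ⟨h, hA, u * w, u₀ * β⁻¹ ^ p, ?_, ?_, ⟨g1, r1⟩, ⟨g2, r2⟩, ⟨g3, r3⟩⟩
  · rw [← hyu]
    exact (ofMul_mk_eq_of (u := u) (v := u * w) bU⁻¹ rfl).symm
  · rw [map_mul, map_pow, map_inv₀, hmap]
    rfl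

/-- **bridge `K₀ → ℚ̄`**: `IsU2K0 ⟹ Stmt.IsTor3`. -/
theorem isTor3_of_isU2K0 {y : Additive (Kum Kb (FK (L' * q)) p)} (hy : IsU2K0 p L' q A y) :
    IsTor3 p L' q A y := by
  obtain ⟨h, hA, u, u₀, hyu, hmap, o1, o2, o3⟩ := hy
  refine ⟨h, u, ⟨hyu, fun σ hσ => ?_⟩, ?_, ?_, ?_⟩
  · apply Units.ext
    show galF (L' * q) σ ((u : (FK (L' * q))ˣ) : FK (L' * q)) = _
    rw [← hmap]
    exact Fermat.Agent.GL.RatLiftK0.galF_mapK0Bar A (L' * q) σ hσ u₀
  · have := (redOne₁_iff A (L' * q) u₀).1 o1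
    rw [hmap] at this
    exact this
  · have := (redOne₂_iff A (L' * q) h u₀).1 o2
    rw [hmap] at this
    exact this
  · have := (redOne₃_iff A (L' * q) Fact.out hA u₀).1 o3
    rw [hmap] at this
    exact this

/-- **bridge `ℚ̄ → K₀`**: `Stmt.IsTor3 ⟹ IsU2K0` (the representative is `I_A`-fixed, hence
`K₀`-rational). -/
theorem isU2K0_of_isTor3 (hA : A.LiesOverPrime q) {y : Additive (Kum Kb (FK (L' * q)) p)}
    (hy : IsTor3 p L' q A y) : IsU2K0 p L' q A y := by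
  obtain ⟨h, u, ⟨hyu, hfix⟩, o1, o2, o3⟩ := hy
  obtain ⟨u₀, hmap⟩ := Fermat.Agent.GL.RatLiftK0.exists_mapK0Bar_of_fixed A (L' * q)
    ((u : (FK (L' * q))ˣ) : FK (L' * q)) (fun σ hσ => congrArg Units.val (hfix σ hσ))
  refine ⟨h, hA, u, u₀, hyu, hmap, ?_, ?_, ?_⟩
  · refine (redOne₁_iff A (L' * q) u₀).2 ?_
    rw [hmap]
    exact o1
  · refine (redOne₂_iff A (L' * q) h u₀).2 ?_
    rw [hmap]
    exact o2
  · refine (redOne₃_iff A (L' * q) Fact.out hA u₀).2 ?_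
    rw [hmap]
    exact o3

/-- `IsU2K0 ⟺ Stmt.IsTor3` at a place over `q`. -/
theorem isU2K0_iff_isTor3 (hA : A.LiesOverPrime q) {y : Additive (Kum Kb (FK (L' * q)) p)} :
    IsU2K0 p L' q A y ↔ IsTor3 p L' q A y :=
  ⟨isTor3_of_isU2K0, isU2K0_of_isTor3 hA⟩

/-- the level of a good auxiliary level: `L' q = M' q²` with `q ∤ M'`. -/
theorem exists_level_eq {L' q : ℕ} (h1 : q ∣ L') (h2 : ¬ q ^ 2 ∣ L') :
    ∃ M' : ℕ, L' * q = M' * q ^ 2 ∧ ¬ q ∣ M' := by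
  obtain ⟨c, hc⟩ := h1
  refine ⟨c, by rw [hc]; ring, fun hd => h2 ?_⟩
  obtain ⟨d, rfl⟩ := hd
  exact ⟨d, by rw [hc]; ring⟩

/-- **`IsTorK0 ⟹ Stmt.IsTor3`** at a good auxiliary level. -/
theorem isTor3_of_isTorK0 (hgood : Fermat.Agent.GL.Final.GeomGate.GoodAuxLevel L' q)
    {y : Additive (Kum Kb (FK (L' * q)) p)} (hy : IsTorK0 p L' q A y) : IsTor3 p L' q A y := by
  obtain ⟨M', hN, hqM⟩ := exists_level_eq hgood.1 hgood.2.1
  exact isTor3_of_isU2K0 (isU2K0_of_isTorK0 hN hqM hy)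

end Main

end Fermat.Agent.GE8.SQ.Approx3K0
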