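/-
GATE-E (S59) / node E8.SQ = **Mazur's principle at `q²`** (helper97, node owner): the FINAL glue.

Every leaf of the node is a theorem on main except `Stmt3K.NodeHyp3KStmt` (NODE3, helper38,
`GE8/SQ/Node3/`), which is kept here as the ONE hypothesis:

* `Stmt.Norm3Stmt`               = `V.Norm3.norm3Stmt`                     (helper30)
* `Stmt3K.VSharpStmt`            = `V.SharpPlug.vSharpStmt`                (helper30 + helper21)
* `Stmt3K.AbSharpStmt`           = `AbK3OfV.abSharpStmt_of_vSharp`         (helper39 + helper87)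
* `Stmt3K.ApproxSharpStmt`       = `ApproxSharpK.approxSharpStmt`          (helper21)
* `Stmt.TorOldStmt isTor3`       = `SQ2.TorOldFin.torOldStmt`              (helper29 + helper94,
                                    helper68, helper69, helper99, helper9, helper92)
* `Stmt.ToTorStmt isTor3`        ⟸ `Stmt3K.toTor3_of_partsK`
* `Top.MP2Gate`                  ⟸ `AuxPlug.mp2Gate_of_nodes`
* `AuxPlug.SQSideStmt`           ⟸ `AuxPlug.sqSide_of_nodes`
-/
import Fermat.Agent.GE8.SQ.AuxPlug
import Fermat.Agent.GE8.SQ.Stmt3K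
import Fermat.Agent.GE8.SQ.V.Norm3
import Fermat.Agent.GE8.SQ.V.SharpPlug
import Fermat.Agent.GE8.SQ.AbK3OfV
import Fermat.Agent.GE8.SQ.ApproxSharpK
import Fermat.Agent.GE8.SQ2.TorOldFin

set_option autoImplicit false

namespace Fermat.Agent.GE8.SQ.FinalOfNode

open Fermat.Agent.GE8.SQ.Stmt Fermat.Agent.GE8.SQ.Stmt3K

/-- (M3 AB3), corrected form, is a theorem. -/
theorem abSharpStmt : AbSharpStmt :=
  Fermat.Agent.GE8.SQ.AbK3OfV.abSharpStmt_of_vSharp Fermat.Agent.GE8.SQ.V.SharpPlug.vSharpStmt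

/-- **the valuation side of Mazur's principle at `q²`** from NODE3. -/
theorem toTorStmt_of_node3 (hnode : NodeHyp3KStmt) : ToTorStmt isTor3 :=
  toTor3_of_partsK Fermat.Agent.GE8.SQ.V.Norm3.norm3Stmt hnode abSharpStmt
    Fermat.Agent.GE8.SQ.ApproxSharpK.approxSharpStmt

/-- **the toric side of Mazur's principle at `q²`** (binder-free). -/
theorem torOldStmt : TorOldStmt isTor3 :=
  Fermat.Agent.GE8.SQ2.TorOldFin.torOldStmt

/-- **`MP2Gate`** from NODE3. -/
theorem mp2Gate_of_node3 (hnode : NodeHyp3KStmt) : Fermat.Agent.GE8.SQ.Top.MP2Gate :=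
  Fermat.Agent.GE8.SQ.Asm.mp2Gate_of_nodes isTor3 (toTorStmt_of_node3 hnode) torOldStmt

/-- **node E8.SQ in the shape consumed by `GE8/Top/MinLevelSide`** from NODE3. -/
theorem sqSideStmt_of_node3 (hnode : NodeHyp3KStmt) :
    Fermat.Agent.GE8.SQ.AuxPlug.SQSideStmt :=
  Fermat.Agent.GE8.SQ.AuxPlug.sqSide_of_nodes isTor3 (toTorStmt_of_node3 hnode) torOldStmt

end Fermat.Agent.GE8.SQ.FinalOfNode
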