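/-
GATE-E (S59) / node E8.SQ = **Mazur's principle at `q²`, CLOSED** (helper97, node owner).

`sqSideStmt : AuxPlug.SQSideStmt` — for `p` odd, `W` semistable with `W[p]` irreducible, `q ≠ p` a
prime with `q ∥ L'` (and `q = 2 → 3 ∣ L'`, `q = 3 → 2 ∣ L'`): `ρ̄_{W,p}` modular of level `L' q`
⟹ modular of level `L'`.  This is the shape consumed by `GE8/Top/MinLevelSide`, `GE8/LLP/ColumnRig`
and `GE/Engine/MinLevelLeaves`.

Leaves (all theorems on main):
* `Stmt.Norm3Stmt`          = `V.Norm3.norm3Stmt`                 (helper30)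
* `Stmt3K.VSharpStmt`       = `V.SharpPlug.vSharpStmt`            (helper30 + helper21)
* `Stmt3K.AbSharpStmt`      = `AbK3OfV.abSharpStmt_of_vSharp`     (helper39 + helper87)
* `Stmt3K.ApproxSharpStmt`  = `ApproxSharpK.approxSharpStmt`      (helper21)
* `Stmt3K.NodeHyp3KStmt`    = `Node3b.Final.nodeHyp3KStmt`        (helper92 + helper38, helper29)
* `Stmt.TorOldStmt isTor3`  = `SQ2.TorOldFin.torOldStmt`          (helper29 + helper94, helper68,
                               helper69, helper99, helper9, helper92)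
glued by `FinalOfNode` (`Stmt3K.toTor3_of_partsK`, `Asm.mp2Gate_of_nodes`, `AuxPlug.sqSide_of_nodes`).
-/
import Fermat.Agent.GE8.SQ.FinalOfNode
import Fermat.Agent.GE8.SQ.Node3b.Final

set_option autoImplicit false

namespace Fermat.Agent.GE8.SQ.Final

open Fermat.Agent.GE8.SQ.Stmt Fermat.Agent.GE8.SQ.Stmt3K

/-- (M2 NODE3), corrected form, is a theorem. -/
theorem nodeHyp3KStmt : NodeHyp3KStmt :=
  Fermat.Agent.GE8.SQ.Node3b.Final.nodeHyp3KStmt

/-- **the valuation side of Mazur's principle at `q²`.** -/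
theorem toTorStmt : ToTorStmt isTor3 :=
  Fermat.Agent.GE8.SQ.FinalOfNode.toTorStmt_of_node3 nodeHyp3KStmt

/-- **the geometric gate `MP2Gate`** (Mazur's principle at `q²`, Kummer form). -/
theorem mp2Gate : Fermat.Agent.GE8.SQ.Top.MP2Gate :=
  Fermat.Agent.GE8.SQ.FinalOfNode.mp2Gate_of_node3 nodeHyp3KStmt

/-- **node E8.SQ**: level lowering at `q ≠ p`, `q² ∣ L' q`, in the shape consumed by the descent. -/
theorem sqSideStmt : Fermat.Agent.GE8.SQ.AuxPlug.SQSideStmt :=
  Fermat.Agent.GE8.SQ.FinalOfNode.sqSideStmt_of_node3 nodeHyp3KStmt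

end Fermat.Agent.GE8.SQ.Final
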