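/-
GATE-E (S59) / block E8 / node E8.SQ / M3 AB3 (helper39): THE PLUG `(V♯) ⟹ (AB♯)`, i.e.
`Stmt3K.VSharpStmt → Stmt3K.AbSharpStmt` (RULING K0 spelling, `GE8/SQ/Stmt3K.lean`).

LEVEL `N = M' q q`, `q ∤ M'`, `A` a place of `ℚ̄` over `q`, `p ≠ q` an odd prime,
`t = P(T^N)` the old-killer of the level `L' = M' q` (`P(T^{L'}) = 0`), `u` an `I_A`-fixed
`p`-divisible unit of `F_N`, unit along the three components of the fibre, with (D1), (D2), (D3).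

* first conjunct `t [u] ∈ ker r₁ ⊓ ker r₂`: helper87's `Ab3Plug12.killer_mem_K12`
  (AB3₁, AB3₂ of `Ab31` + `WCopy.aeval_dies_of_sub_mem`);
* second conjunct `t [u] ∈ K3fix`: `Ab33K0.exists_sub_mem_pow3` (AB3₃': `[u] − α^* α^* x₃ ∈ K3fix`,
  `x₃ ∈ Kum_p(F_{M'})` the lift of the third reduction `ū₃ ∈ FresBar M' A`), then
  `WCopy.aeval_dies_of_sub_mem` at the Galois-equivariant `α^*` from the level `L' = M' q`
  (`α^* α^* x₃` is `α^*` of a class of level `L'`, killed by `P(T^{L'}) = 0`) and the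
  `T_ℓ`-stability of `K3fix`, which is (V♯).

Also: `isPow3_of_K0` — the conversion `Ab33K0.IsPow3 → Stmt3K.IsPow3` (same predicate, the
`IsU3` proof moved inside the existential), `sub_mem_K3fix` (AB3₃' in the `K3fix` spelling),
`killer_mem_K3fix` (the `K3fix` half alone: no hypothesis on the first two reductions),
`abSharp_of_vSharp` (the open form), and `abK3Stmt : VSharpStmt → Ab3PlugK.AbK3Stmt` (helper87's
residual seam).
-/
import Mathlib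
import Fermat.Agent.GE8.SQ.Stmt3K
import Fermat.Agent.GE8.SQ.Ab3Plug12
import Fermat.Agent.GE8.SQ.Ab3PlugK
import Fermat.Agent.GE8.SQ.Ab33K0

set_option autoImplicit false
set_option linter.unusedSectionVars false
set_option synthInstance.maxHeartbeats 400000
set_option maxHeartbeats 1000000

noncomputable section

open AlgebraicCurve ModularCurve IsLocalRing

namespace Fermat.Agent.GE8.SQ.AbSharpPlug

open Fermat.Agent.S24 Fermat.Agent.GJ Fermat.Agent.GJ.J1 Fermat.Agent.GJ.J1.Val Fermat.Agent.GJ.HN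
  Fermat.Agent.GJ.KumGroup Fermat.Agent.GJ.Kum.KumType Fermat.Agent.GH.Inst
  Fermat.Agent.GK.AL Fermat.Agent.GK.UqKronecker Fermat.Agent.GK.UQ Fermat.Agent.GK.UTr
  Fermat.Agent.GK.PsiFNGood Fermat.Agent.GK.QS Fermat.Agent.GK.New Fermat.Agent.GK.Tate.KumHecke
  Fermat.Agent.GB.A Fermat.Agent.GB.A.A5.KerRedUp Fermat.Agent.GB.A.A5.HeckeKerRed
  Fermat.Agent.GB.A.A5.WCopy
  Fermat.Agent.GL.Final.GeomGate Fermat.Agent.GL.AL
  Fermat.Agent.GE8.SQ.Stmt Fermat.Agent.GE8.SQ.Stmt3 Fermat.Agent.GE8.SQ.Stmt3K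

local notation "GQ'" => (AlgebraicClosure ℚ ≃ₐ[ℚ] AlgebraicClosure ℚ)

section Conv

variable {M' q : ℕ} [NeZero M'] [Fact q.Prime] {A : ValuationSubring Kb}
  {h : HallDvd (q ^ 2) (M' * q * q)} {m : ℕ}

/-- the predicate `Ab33K0.IsPow3` IS `Stmt3K.IsPow3`. -/
theorem isPow3_of_K0 {v : (FK (M' * q * q))ˣ}
    (hv : Fermat.Agent.GE8.SQ.Ab33K0.IsPow3 A M' h m v) : Stmt3K.IsPow3 A h m v := by
  obtain ⟨hf, hU3, hmem, H, hH, e⟩ := hv
  exact ⟨hf, hU3, H, hH, e⟩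

theorem isPow3_iff_K0 {v : (FK (M' * q * q))ˣ} :
    Stmt3K.IsPow3 A h m v ↔ Fermat.Agent.GE8.SQ.Ab33K0.IsPow3 A M' h m v := by
  refine ⟨?_, isPow3_of_K0⟩
  rintro ⟨hf, hU3, H, hH, e⟩
  exact ⟨hf, hU3, hU3.2.2.1, H, hH, e⟩

end Conv

section Main

variable {M' q : ℕ} [NeZero M'] [Fact q.Prime] (A : ValuationSubring Kb)
  (hA : A.LiesOverPrime q) (h : HallDvd (q ^ 2) (M' * q * q))

local notation "𝕜" => ResidueField A

include hA in
/-- **AB3₃' in the `K3fix` spelling**: for an `I_A`-fixed `p`-divisible three-unit `u` of level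
`M' q q` with (D3), `[u] − α^* α^* x₃ ∈ K3fix` for some `x₃ ∈ Kum_p(F_{M'})`. -/
theorem sub_mem_K3fix (p : ℕ) [Fact p.Prime] (hqp : q ≠ p) (hqM : ¬ q ∣ M')
    (h2 : q = 2 → 3 ∣ M') (h3 : q = 3 → 2 ∣ M')
    (u : pDivUnits Kb (FK (M' * q * q)) p)
    (hfix : ∀ σ ∈ A.inertiaSubgroupIn ℚ,
      galUnits (M' * q * q) σ (u : (FK (M' * q * q))ˣ) = (u : (FK (M' * q * q))ˣ))
    (hU3 : IsU3 (M' * q) q A h (u : (FK (M' * q * q))ˣ))
    (hd3 : D3 A h p hU3) :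
    ∃ x₃ : Additive (Kum Kb (FK M') p),
      Additive.ofMul (Kum.mk u) - aUp (M' * q) q p (aUp M' q p x₃) ∈ K3fix A h p := by
  obtain ⟨ub, hub0, hdiv, hred⟩ := hd3
  obtain ⟨x₃, v, hv, hpow⟩ :=
    Fermat.Agent.GE8.SQ.Ab33K0.exists_sub_mem_pow3 A hA M' h p hqp hqM h2 h3 u hfix hU3 ub hub0
      hdiv hred
  exact ⟨x₃, v, hv, isPow3_of_K0 hpow⟩

include hA in
/-- **the `K3fix` half of (AB♯)** from (V♯): the old-killer `t = P(T^{M' q q})`, `P(T^{M' q}) = 0`,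
sends the class of an `I_A`-fixed `p`-divisible three-unit with (D3) into `K3fix` (no hypothesis
on the first two reductions). -/
theorem killer_mem_K3fix (p : ℕ) [Fact p.Prime] (hqp : q ≠ p) (hqM : ¬ q ∣ M')
    (h2 : q = 2 → 3 ∣ M') (h3 : q = 3 → 2 ∣ M')
    (hV : VSharp A h p)
    (S : Finset ℕ) (hL'S : ∀ r : ℕ, r.Prime → r ∣ M' * q → r ∈ S)
    (hMS : ∀ r : ℕ, r.Prime → r ∣ M' * q * q → r ∈ S) (hpS : p ∈ S)
    (P : MvPolynomial (PrimeIdx S) ℤ)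
    (hP : MvPolynomial.aeval (TfamH (N' := M' * q) (S := S) hL'S) P = 0)
    {ζ : ℂ} (hζ : IsPrimitiveRoot ζ p)
    (u : pDivUnits Kb (FK (M' * q * q)) p)
    (hfix : ∀ σ ∈ A.inertiaSubgroupIn ℚ,
      galUnits (M' * q * q) σ (u : (FK (M' * q * q))ˣ) = (u : (FK (M' * q * q))ˣ))
    (hU3 : IsU3 (M' * q) q A h (u : (FK (M' * q * q))ˣ))
    (hd3 : D3 A h p hU3) :
    kumHecke (M' * q * q) (↑S : Set ℕ) p hζ (MvPolynomial.aeval (TfamH hMS) P)
        (Additive.ofMul (Kum.mk u)) ∈ K3fix A h p := by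
  have hp : p.Prime := Fact.out
  have hq : q.Prime := Fact.out
  have : NeZero p := ⟨hp.ne_zero⟩
  have : NeZero q := ⟨hq.ne_zero⟩
  have hmS : ∀ r : ℕ, r.Prime → r ∣ p → r ∈ S := fun r hr hrp =>
    ((Nat.prime_dvd_prime_iff_eq hr hp).mp hrp) ▸ hpS
  obtain ⟨x₃, hx₃⟩ := sub_mem_K3fix A hA h p hqp hqM h2 h3 u hfix hU3 hd3
  refine aeval_dies_of_sub_mem (N' := M' * q) (M := M' * q * q) S p hζ hL'S hMS hmS
    (aUp (M' * q) q p) (fun σ y => aUp_gal (M' * q) q p σ y) (K3fix A h p) ?_ P hP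
    (x₁ := aUp M' q p x₃) hx₃
  intro i x hx
  exact hV i.1 i.2.1 (PrimeIdx.not_dvd hMS i) (fun hd => i.2.2 (hmS _ i.2.1 hd)) x hx

include hA in
/-- **(V♯) ⟹ (AB♯)**, open form at the literal level `M' q q`. -/
theorem abSharp_of_vSharp (p : ℕ) [Fact p.Prime] (hqp : q ≠ p) (hqM : ¬ q ∣ M')
    (h2 : q = 2 → 3 ∣ M') (h3 : q = 3 → 2 ∣ M')
    (hV : VSharp A h p)
    (S : Finset ℕ) (hL'S : ∀ r : ℕ, r.Prime → r ∣ M' * q → r ∈ S)
    (hMS : ∀ r : ℕ, r.Prime → r ∣ M' * q * q → r ∈ S) (hpS : p ∈ S)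
    (P : MvPolynomial (PrimeIdx S) ℤ)
    (hP : MvPolynomial.aeval (TfamH (N' := M' * q) (S := S) hL'S) P = 0)
    {ζ : ℂ} (hζ : IsPrimitiveRoot ζ p) :
    AbSharp A h p
      (kumHecke (M' * q * q) (↑S : Set ℕ) p hζ (MvPolynomial.aeval (TfamH hMS) P)) := by
  intro u hfix hU3 hd1 hd2 hd3
  have hp : p.Prime := Fact.out
  have hq : q.Prime := Fact.out
  have : NeZero p := ⟨hp.ne_zero⟩
  have hqm : ¬ q ∣ p := fun hd => hqp ((Nat.prime_dvd_prime_iff_eq hq hp).mp hd)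
  have hmS : ∀ r : ℕ, r.Prime → r ∣ p → r ∈ S := fun r hr hrp =>
    ((Nat.prime_dvd_prime_iff_eq hr hp).mp hrp) ▸ hpS
  exact ⟨Fermat.Agent.GE8.SQ.Ab3Plug12.killer_mem_K12 A hA M' S hqM h2 h3 h hqm hζ hL'S hMS hmS
    P hP u hU3 hd1 hd2,
    killer_mem_K3fix A hA h p hqp hqM h2 h3 hV S hL'S hMS hpS P hP hζ u hfix hU3 hd3⟩

end Main

/-- the arithmetic of a good auxiliary level `(M' q, q)`: `q ∤ M'`, `q = 2 → 3 ∣ M'`,
`q = 3 → 2 ∣ M'`. -/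
theorem good_arith {M' q : ℕ} (hgood : GoodAuxLevel (M' * q) q) :
    ¬ q ∣ M' ∧ (q = 2 → 3 ∣ M') ∧ (q = 3 → 2 ∣ M') := by
  refine ⟨?_, ?_, ?_⟩
  · intro hd
    apply hgood.2.1
    obtain ⟨d, rfl⟩ := hd
    exact ⟨d, by ring⟩
  · intro hq2
    have h3dvd : 3 ∣ M' * q := hgood.2.2.2.1 hq2
    rcases (Nat.Prime.dvd_mul Nat.prime_three).mp h3dvd with h | h
    · exact h
    · rw [hq2] at h
      exact absurd h (by decide)
  · intro hq3
    have h2dvd : 2 ∣ M' * q := hgood.2.2.2.2 hq3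
    rcases (Nat.Prime.dvd_mul Nat.prime_two).mp h2dvd with h | h
    · exact h
    · rw [hq3] at h
      exact absurd h (by decide)

/-- **`Stmt3K.VSharpStmt → Ab3PlugK.AbK3Stmt`**: the `K3fix` half of (AB♯), closed form. -/
theorem abK3Stmt (hV : VSharpStmt) : Fermat.Agent.GE8.SQ.Ab3PlugK.AbK3Stmt := by
  intro p _ hp2 M' q _ _ hqp hgood A hA S hL'S hMS hpS P hP ζ hζ u hfix hU3 hd3
  obtain ⟨hqM, h2, h3⟩ := good_arith hgood
  exact killer_mem_K3fix A hA (hallDvd_sq_of_good Fact.out hgood) p hqp hqM h2 h3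
    (hV p hp2 M' q hqp hgood A hA) S hL'S hMS hpS P hP hζ u hfix hU3 hd3

/-- **`Stmt3K.VSharpStmt → Stmt3K.AbSharpStmt`**: the corrected (M3 AB3) from the Hecke
stability (V♯) of `K3fix`. -/
theorem abSharpStmt (hV : VSharpStmt) : AbSharpStmt := by
  intro p _ hp2 M' q _ _ hqp hgood A hA S hL'S hMS hpS P hP ζ hζ
  obtain ⟨hqM, h2, h3⟩ := good_arith hgood
  exact abSharp_of_vSharp A hA (hallDvd_sq_of_good Fact.out hgood) p hqp hqM h2 h3
    (hV p hp2 M' q hqp hgood A hA) S hL'S hMS hpS P hP hζ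

end Fermat.Agent.GE8.SQ.AbSharpPlug
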