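/-
GATE-E (S59) / block E8 / node E8.SQ, leaf (APPROX♯) of helper97's RULING K0 (helper21).

Level `N = M' q q` literal, `q ∤ M'`, `A ∣ q`, `h : HallDvd (q²) N`, `p` a prime (any, `p ≥ 1` is
all that is used), `K₀ = ℚ̄^{I_A}`, `F₀ = K₀(X₀(N))`.

  **`isTor3_of_mem_of_rep`** :  `y ∈ kerRed N A p`  →  `y ∈ kerRedW N A (wAutQ h) p`  →
      (∃ `u`, `FP.FixedRep A p y u ∧ Stmt.IsU3 (M' q) q A h u ∧ Stmt.RedOne (M' q) q R₃ u`)  →
      `Stmt.IsTor3 p (M' q) q A y`.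

The ONE `I_A`-fixed 3-unit representative `u = mapK0Bar u₀` (third reduction `1`) is kept.
Components 1, 2: `y ∈ ker r_i` over `ℚ̄` gives `u = z · g^p` with `z` a constant times a principal
unit; `g = d · (w₁-unit)` (`hasGaussFrac`), the constant left over is a unit of `A`, hence a `p`-th
power modulo `𝔪_A` (`𝕜` algebraically closed): `red_i u = V^p`, `V ∈ FresBar N A`.  At the top level
`FresBar N A = FresBar M' A = 𝕜(X₀(M'))` (helper39 `ResBarTop`) `= (k₀ → 𝕜)_* k₀(X₀(M')) =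
(k₀ → 𝕜)_* FresK0 A N` (helper75 `ResK0Top`), so `V` comes from `FresK0` and the `K₀`-level reduction
of `u₀` is a `p`-th power there: `Approx3K0.IsTorK0`, then `isU2K0_of_isTorK0` (approximation over
`K₀`) and the bridge `isTor3_of_isU2K0`.  No Igusa curve anywhere.

* `exists_pow_of_isCPrin`        : the `ℚ̄`-level step (any level, any `A`);
* `exists_FresK0_of_mem_FresBar` : `FresBar (M' q q) A = (k₀ → 𝕜)_* FresK0 A (M' q q)`;
* `powRedK0_of_isCPrin`          : the `K₀`-level step for `w₁`;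
* `isTorK0_of_mem_of_rep`, `isTor3_of_mem_of_rep`.
-/
import Mathlib
import Fermat.Agent.GE8.SQ.Approx3K0
import Fermat.Agent.GE8.SQ.ResBarTop
import Fermat.Agent.GL.Val.ResK0Top
import Fermat.Agent.GK.Val.Inertia
import Fermat.Agent.GJ.J1.ResidueAlgClosed

set_option autoImplicit false
set_option linter.unusedSectionVars false

noncomputable section

namespace Fermat.Agent.GE8.SQ.ApproxSharp

open AlgebraicCurve ModularCurve IsLocalRing HahnSeries
open Fermat.Agent.S24 Fermat.Agent.S24_helper62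
open Fermat.Agent.GJ Fermat.Agent.GJ.KumGroup Fermat.Agent.GJ.Kum.KumType
open Fermat.Agent.GJ.J1 Fermat.Agent.GJ.J1.Val
open Fermat.Agent.GK.AL Fermat.Agent.GK.MultiVal Fermat.Agent.GK.UqKronecker
open Fermat.Agent.GB.A
open Fermat.Agent.GL.AL Fermat.Agent.GL.W3 Fermat.Agent.GL.CuspVal
open Fermat.Agent.GL.Val.GaussK0 Fermat.Agent.GL.Val.SecondK0 Fermat.Agent.GL.Val.SecondK0Hall
open Fermat.Agent.GL.Val.ThirdK0 Fermat.Agent.GL.Val.CuspK0 Fermat.Agent.GL.Val.CuspCoeff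
open Fermat.Agent.GK.Val.BaseChange
open Fermat.Agent.GE8.SQ.Stmt Fermat.Agent.GE8.SQ.Approx3K0
open Fermat.Agent.Common_helper32

/-! ### the `ℚ̄`-level step -/

section Bar

variable (N : ℕ) [NeZero N] (A : ValuationSubring Kb)

/-- a `w₁`-unit of the form `(constant × principal unit) · g ^ p` reduces to a `p`-th power of the
residue function field (`𝕜` is algebraically closed). -/
theorem exists_pow_of_isCPrin {p : ℕ} (hp : 0 < p) {x z g : FK N}
    (hx : x ∈ (redDataBar N A).Rw) (hx' : x⁻¹ ∈ (redDataBar N A).Rw)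
    (hz : IsCPrin (hasGaussFrac_bar N A) z) (hg : g ≠ 0) (e : x = z * g ^ p) :
    ∃ V : FresBar N A, V ≠ 0 ∧ (redDataBar N A).red ⟨x, hx⟩ = V ^ p := by
  have : IsAlgClosed (ResidueField A) :=
    Fermat.Agent.GJ.ResidueAlgClosed.isAlgClosed_residueField A
  have hz0 : z ≠ 0 := hz.ne_zero
  have hx0 : x ≠ 0 := by rw [e]; exact mul_ne_zero hz0 (pow_ne_zero _ hg)
  obtain ⟨c, hc, hprin⟩ := hz
  have hprin' := hprin.inv
  obtain ⟨he_mem, he_red⟩ := hprin
  obtain ⟨hei_mem, -⟩ := hprin'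
  obtain ⟨d, hd, hg1, hg1'⟩ := Fermat.Agent.GK.Val.Inertia.exists_const_mul_unit N A g hg
  have hcF : algebraMap Kb (FK N) c ≠ 0 := (map_ne_zero _).2 hc
  have hdF : algebraMap Kb (FK N) d ≠ 0 := (map_ne_zero _).2 hd
  -- the constant left over
  have hxe : x = algebraMap Kb (FK N) (c / d ^ p) *
      ((z / algebraMap Kb (FK N) c) * (algebraMap Kb (FK N) d * g) ^ p) := by
    rw [e, map_div₀, map_pow, mul_pow]
    field_simp
  have ha_eq : algebraMap Kb (FK N) (c / d ^ p) =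
      x * ((z / algebraMap Kb (FK N) c)⁻¹ * ((algebraMap Kb (FK N) d * g)⁻¹) ^ p) := by
    have h1 : z / algebraMap Kb (FK N) c ≠ 0 := div_ne_zero hz0 hcF
    have h2 : algebraMap Kb (FK N) d * g ≠ 0 := mul_ne_zero hdF hg
    have h3 : (z / algebraMap Kb (FK N) c) * (algebraMap Kb (FK N) d * g) ^ p ≠ 0 :=
      mul_ne_zero h1 (pow_ne_zero _ h2)
    rw [inv_pow, ← mul_inv]
    exact (eq_mul_inv_iff_mul_eq₀ h3).2 hxe.symm
  have ha_mem : algebraMap Kb (FK N) (c / d ^ p) ∈ (redDataBar N A).Rw := by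
    rw [ha_eq]
    exact mul_mem hx (mul_mem hei_mem (pow_mem hg1' p))
  have haA : c / d ^ p ∈ (redDataBar N A).A := ((redDataBar N A).mem_A_iff _).2 ha_mem
  -- the reduction
  have hem : (z / algebraMap Kb (FK N) c) * (algebraMap Kb (FK N) d * g) ^ p ∈
      (redDataBar N A).Rw := mul_mem he_mem (pow_mem hg1 p)
  have hred : (redDataBar N A).red ⟨x, hx⟩ =
      algebraMap (ResidueField A) (FresBar N A) ((redDataBar N A).res ⟨c / d ^ p, haA⟩) *
        (redDataBar N A).red ⟨algebraMap Kb (FK N) d * g, hg1⟩ ^ p := by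
    have h1 : (⟨x, hx⟩ : (redDataBar N A).Rw) =
        ⟨algebraMap Kb (FK N) (c / d ^ p), ha_mem⟩ *
          (⟨z / algebraMap Kb (FK N) c, he_mem⟩ * ⟨algebraMap Kb (FK N) d * g, hg1⟩ ^ p) :=
      Subtype.ext hxe
    have h2 : (redDataBar N A).red ⟨z / algebraMap Kb (FK N) c, he_mem⟩ = 1 :=
      Subtype.ext ((coe_red A (modularFunctionFieldBar N) (hasGaussFrac_bar N A) _).trans he_red)
    rw [h1, map_mul, map_mul, map_pow, h2, one_mul]
    congr 1
    exact (redDataBar N A).red_algebraMap ⟨c / d ^ p, haA⟩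
  obtain ⟨b, hb⟩ := IsAlgClosed.exists_pow_nat_eq ((redDataBar N A).res ⟨c / d ^ p, haA⟩) hp
  set V : FresBar N A := algebraMap (ResidueField A) (FresBar N A) b *
    (redDataBar N A).red ⟨algebraMap Kb (FK N) d * g, hg1⟩ with hV
  have hpow : (redDataBar N A).red ⟨x, hx⟩ = V ^ p := by
    rw [hred, ← hb, map_pow, hV, mul_pow]
  refine ⟨V, ?_, hpow⟩
  intro hV0
  have h1 : (redDataBar N A).red ⟨x, hx⟩ ≠ 0 :=
    (FP.redUnit (redDataBar N A) (Units.mk0 x hx0) hx hx').ne_zero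
  rw [hpow, hV0, zero_pow hp.ne'] at h1
  exact h1 rfl

end Bar

/-! ### the residue field of `w₁` at the top level is `K₀`-rational -/

section Top

variable (p : ℕ) [Fact p.Prime] (M' q : ℕ) [NeZero M'] [Fact q.Prime] (A : ValuationSubring Kb)

local notation "N" => M' * q * q
local notation "F₀" => modularFunctionFieldFullC (K0 A) (M' * q * q)
local notation "k₀" => ResidueField (R0 A)
local notation "𝕜" => ResidueField A

theorem level_eq : M' * q * q = M' * q ^ 2 := by ring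

variable {M' q A}

/-- **`FresBar (M' q q) A = (k₀ → 𝕜)_* FresK0 A (M' q q)`** (both are the function field of
`X₀(M')` over the residue field). -/
theorem exists_FresK0_of_mem_FresBar (hqM : ¬ q ∣ M') (hA : A.LiesOverPrime q)
    (V : FresBar N A) :
    ∃ V₀ : FresK0 A N, coeffMap (resMapK0 A) (V₀ : LaurentSeries k₀) = (V : LaurentSeries 𝕜) := by
  have hq : q.Prime := Fact.out
  have h1 : (V : LaurentSeries 𝕜) ∈ modularFunctionFieldFullC 𝕜 M' := by
    have h0 : ∀ v : LaurentSeries 𝕜, v ∈ FresBar N A → v ∈ modularFunctionFieldFullC 𝕜 M' := by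
      intro v hv
      rw [Fermat.Agent.GE8.SQ.ResBarTop.FresBar_top_eq M' A hq hqM hA,
        Fermat.Agent.GJ.J1.Res.FresBar_eq_fullC M' A hqM hA] at hv
      exact hv
    exact h0 _ V.2
  have h2 := coeffMap_mem_fullC ((resEquivK0 A hq hA).symm.toRingHom) M' h1
  rw [← Fermat.Agent.GL.Val.ResK0Top.FresK0_eq_fullC_top A hq (level_eq M' q) hqM hA] at h2
  refine ⟨⟨_, h2⟩, ?_⟩
  show coeffMap (resMapK0 A) (coeffMap ((resEquivK0 A hq hA).symm.toRingHom) (V : LaurentSeries 𝕜))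
    = _
  rw [coeffMap_coeffMap]
  have h3 : (resMapK0 A).comp ((resEquivK0 A hq hA).symm.toRingHom) = RingHom.id _ := by
    ext z
    exact (resEquivK0 A hq hA).apply_symm_apply z
  rw [h3, coeffMap_id]

/-- **the `K₀`-level step for `w₁`**: a `K₀`-rational `w₁`-unit `x₀` whose image over `ℚ̄` is
`(constant × principal unit) · g ^ p` has `red₁^{K₀} x₀` a nonzero `p`-th power of `FresK0`. -/
theorem powRedK0_of_isCPrin (hqM : ¬ q ∣ M') (hA : A.LiesOverPrime q) {p : ℕ} (hp : 0 < p)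
    (x₀ : F₀) (hx₀ : x₀ ∈ RwK0 A N) (hx₀' : x₀⁻¹ ∈ RwK0 A N) {z g : FK N}
    (hz : IsCPrin (hasGaussFrac_bar N A) z) (hg : g ≠ 0) (e : mapK0Bar A N x₀ = z * g ^ p) :
    PowRedK0 (M' * q) q A (redDataK0 A N) p x₀ := by
  have hx := (mem_Rw1K0_iff A N x₀).1 hx₀
  have hx' : (mapK0Bar A N x₀)⁻¹ ∈ (redDataBar N A).Rw := by
    rw [← map_inv₀]
    exact (mem_Rw1K0_iff A N x₀⁻¹).1 hx₀'
  obtain ⟨V, hV, hVp⟩ := exists_pow_of_isCPrin N A hp hx hx' hz hg e
  obtain ⟨V₀, hV₀⟩ := exists_FresK0_of_mem_FresBar hqM hA V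
  refine ⟨hx₀, V₀, ?_, ?_⟩
  · rintro rfl
    apply hV
    apply Subtype.ext
    rw [← hV₀]
    exact map_zero _
  · apply Subtype.ext
    apply coeffMap_injective _ (resMapK0 A).injective
    rw [← coe_red1K0 A N x₀ hx₀ hx, hVp]
    show ((V ^ p : FresBar N A) : LaurentSeries 𝕜) =
      coeffMap (resMapK0 A) ((V₀ ^ p : FresK0 A N) : LaurentSeries k₀)
    rw [SubmonoidClass.coe_pow, SubmonoidClass.coe_pow, map_pow, hV₀]

end Top

/-! ### (APPROX♯) -/

section Main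

variable {p : ℕ} [Fact p.Prime] {M' q : ℕ} [NeZero M'] [Fact q.Prime] {A : ValuationSubring Kb}

local notation "N" => M' * q * q

/-- two representatives of the same class: `u = v · w ^ p`. -/
theorem exists_eq_mul_pow {u v : pDivUnits Kb (FK N) p}
    (huv : (Additive.ofMul (Kum.mk u) : Additive (Kum Kb (FK N) p)) = Additive.ofMul (Kum.mk v)) :
    ∃ w : (FK N)ˣ, ((u : (FK N)ˣ) : FK N) = ((v : (FK N)ˣ) : FK N) * ((w : (FK N)ˣ) : FK N) ^ p := by
  have h1 : Kum.mk u = Kum.mk v := Additive.ofMul.injective huv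
  obtain ⟨w, hw⟩ := Kum.mk_eq_mk_iff.1 h1
  refine ⟨w⁻¹, ?_⟩
  have h2 : (u : (FK N)ˣ) = (v : (FK N)ˣ) * w⁻¹ ^ p := by
    rw [hw, inv_pow, mul_inv_cancel_right]
  have h3 := congrArg Units.val h2
  rw [Units.val_mul, Units.val_pow_eq_pow_val] at h3
  exact h3

/-- **(APPROX♯), `K₀`-form**: a class of `ker r₁ ∩ ker r₂` (over `ℚ̄`) with an `I_A`-fixed 3-unit
representative whose third reduction is `1` is `IsTorK0`. -/
theorem isTorK0_of_mem_of_rep (hqM : ¬ q ∣ M') (hA : A.LiesOverPrime q)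
    (h : HallDvd (q ^ 2) (M' * q * q)) {y : Additive (Kum Kb (FK N) p)}
    (h1 : y ∈ kerRed N A p)
    (h2 : y ∈ kerRedW N A ((wAutQ h : FK N ≃ₐ[Kb] FK N) : FK N ≃+* FK N) p)
    (u : pDivUnits Kb (FK N) p) (hfix : FP.FixedRep A p y u)
    (hU : IsU3 (M' * q) q A h (u : (FK N)ˣ))
    (h3 : RedOne (M' * q) q (redData3 N A q) (u : (FK N)ˣ)) :
    IsTorK0 p (M' * q) q A y := by
  have hp : 0 < p := (Fact.out : p.Prime).pos
  have hq : q.Prime := Fact.out
  obtain ⟨hyu, hσ⟩ := hfix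
  obtain ⟨u₀, hmap⟩ := Fermat.Agent.GL.RatLiftK0.exists_mapK0Bar_of_fixed A N
    ((u : (FK N)ˣ) : FK N) (fun σ hσ' => congrArg Units.val (hσ σ hσ'))
  have hinv : mapK0Bar A N u₀⁻¹ = (((u : (FK N)ˣ)⁻¹ : (FK N)ˣ) : FK N) := by
    rw [map_inv₀, hmap, Units.val_inv_eq_inv_val]
  obtain ⟨⟨a1, a1'⟩, ⟨a2, a2'⟩, -⟩ := hU
  refine ⟨h, hA, u, u₀, hyu, hmap, ?_, ?_, ?_⟩
  · -- component 1
    obtain ⟨v, hv, hvy⟩ := mem_kerRed.1 h1
    obtain ⟨w, hw⟩ := exists_eq_mul_pow (hyu.trans hvy.symm)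
    refine powRedK0_of_isCPrin hqM hA hp u₀ ((mem_Rw1K0_iff A N u₀).2 (by rw [hmap]; exact a1))
      ((mem_Rw1K0_iff A N u₀⁻¹).2 (by rw [hinv]; exact a1')) hv w.ne_zero ?_
    rw [hmap]
    exact hw
  · -- component 2
    obtain ⟨v, hv, hvy⟩ := mem_kerRedW.1 h2
    obtain ⟨w, hw⟩ := exists_eq_mul_pow (hyu.trans hvy.symm)
    have hx₀ : wAutQK0 A N h u₀ ∈ RwK0 A N :=
      (mem_Rw2QK0_iff A N h u₀).2 (by rw [hmap]; exact a2)
    have hx₀' : (wAutQK0 A N h u₀)⁻¹ ∈ RwK0 A N := by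
      rw [← map_inv₀]
      exact (mem_Rw2QK0_iff A N h u₀⁻¹).2 (by rw [hinv]; exact a2')
    have e : mapK0Bar A N (wAutQK0 A N h u₀) =
        ((wAutQ h : FK N ≃ₐ[Kb] FK N) : FK N ≃+* FK N) ((v : (FK N)ˣ) : FK N) *
          (wAutQ h ((w : (FK N)ˣ) : FK N)) ^ p := by
      rw [mapK0Bar_wAutQK0, hmap, hw, map_mul, map_pow]
      rfl
    obtain ⟨hx, V, hV, hVp⟩ := powRedK0_of_isCPrin hqM hA hp (wAutQK0 A N h u₀) hx₀ hx₀' hv
      ((map_ne_zero (wAutQ h)).2 w.ne_zero) e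
    exact ⟨hx, V, hV, hVp⟩
  · -- component 3
    obtain ⟨hx, e⟩ := (redOne₃_iff A N hq hA u₀).2 (by rw [hmap]; exact h3)
    exact ⟨hx, 1, one_ne_zero, by rw [e, one_pow]⟩

/-- **(APPROX♯)**: a class of `ker r₁ ∩ ker r₂` (over `ℚ̄`) with an `I_A`-fixed 3-unit
representative whose third reduction is `1` is toric in the sense of `Stmt.IsTor3`. -/
theorem isTor3_of_mem_of_rep (hqM : ¬ q ∣ M') (hA : A.LiesOverPrime q)
    (h : HallDvd (q ^ 2) (M' * q * q)) {y : Additive (Kum Kb (FK N) p)}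
    (h1 : y ∈ kerRed N A p)
    (h2 : y ∈ kerRedW N A ((wAutQ h : FK N ≃ₐ[Kb] FK N) : FK N ≃+* FK N) p)
    (h3 : ∃ u : pDivUnits Kb (FK N) p, FP.FixedRep A p y u ∧
      IsU3 (M' * q) q A h (u : (FK N)ˣ) ∧
      RedOne (M' * q) q (redData3 N A q) (u : (FK N)ˣ)) :
    IsTor3 p (M' * q) q A y := by
  obtain ⟨u, hfix, hU, hr⟩ := h3
  exact isTor3_of_isU2K0 (isU2K0_of_isTorK0 (level_eq M' q) hqM
    (isTorK0_of_mem_of_rep hqM hA h h1 h2 u hfix hU hr))

end Main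

end Fermat.Agent.GE8.SQ.ApproxSharp
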