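/-
GATE-E (S59 pre-work) / E8 node SQ, leaf AUX (helper90; assembly left open by helper10, board 7103).

**The auxiliary-prime node of `GE8/SQ/Top.lean`, for SEMISTABLE curves, binder-free.**

`Top.AuxStmt` as stated on main cannot be proved: `GoodAuxLevel (L' * r) q` contains the tame-chart
conditions `q = 2 → 3 ∣ L' * r` and `q = 3 → 2 ∣ L' * r`, while `r` has to be prime to `L' q p` and
REMOVABLE; e.g. at `(p, q, L') = (3, 2, 2)` no `r` exists.  It also lacks `W.IsSemistableModel`, which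
the chooser (`GE8/AuxR/Sigma.exists_aux_prime_not_dvd`) needs.  This file states and proves the
corrected node:

* `AuxStmtSS`  = `Top.AuxStmt` + `(hss : W.IsSemistableModel)` + the side conditions
                 `(q = 2 → 3 ∣ L')`, `(q = 3 → 2 ∣ L')`, MINUS the binder `hcard` (it follows from
                 `Δ ≠ 0`), with `r` a PRIME `≡ 11 (mod 12)`;
* `auxStmtSS : AuxStmtSS`  — binder-free: chooser (helper90 `Sigma`) + remover (helper10 `Remove`);
* `SQStmtSS`   = `Top.SQStmt` for semistable `W` (no `hunip`, no `hcard`) with the side conditions;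
* `sqStmtSS_of_good : SQGood → SQStmtSS`, `sqStmtSS_of_gate : MP2Gate → SQStmtSS`;
* `sq_two`, `sq_three` : without the side condition, SQ at `q = 2` (resp. `3`) holds UP TO the
  auxiliary factor `3` (resp. `2`): `ResMod p (L' * 2) → ResMod p (L' * 3)`; the factor is then
  stripped by the squarefree lowering E8.3 (LLQ) at the very end.
-/
import Mathlib
import Fermat.Agent.GE8.SQ.Unip
import Fermat.Agent.GE8.AuxR.Sigma
import Fermat.Agent.GE8.AuxR.Remove
import Fermat.Agent.GL.AuxPrime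

set_option autoImplicit false
set_option linter.unusedSectionVars false
set_option linter.unusedVariables false

namespace Fermat.Agent.GE8.SQ.AuxSS

open Fermat.Agent.GB.A.A6.ECDet Fermat.Agent.GE8.SQ.Top Fermat.Agent.GL.Final.GeomGate
open Fermat.Agent.GL.Hecke Fermat.Agent.GL.Final

/-! ### the corrected auxiliary-prime node -/

/-- **The auxiliary-prime node, semistable form.**  For a level `L'` with `q ∥ L'` satisfying the
tame-chart side conditions there is a PRIME `r ≡ 11 (mod 12)`, prime to `L' q p`, such that `L' r`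
is a good auxiliary level and `r` can be removed from the level of `ρ̄_{W,p}`. -/
def AuxStmtSS : Prop :=
  ∀ (p : ℕ) [Fact p.Prime] (_ : p ≠ 2) (W : WeierstrassCurve ℤ) (_ : W.IsSemistableModel)
    (_ : W.Δ ≠ 0) (_ : W.ModRepIsIrreducible p)
    (L' q : ℕ) [NeZero L'] [Fact q.Prime] (_ : q ≠ p) (_ : q ∣ L') (_ : ¬ q ^ 2 ∣ L')
    (_ : q = 2 → 3 ∣ L') (_ : q = 3 → 2 ∣ L'),
    ∃ r : ℕ, r.Prime ∧ r % 12 = 11 ∧ Nat.Coprime r (L' * q * p) ∧ GoodAuxLevel (L' * r) q ∧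
      (W.IsResiduallyModularOfLevel p (L' * r) → W.IsResiduallyModularOfLevel p L')

/-- a prime `r ≡ 11 (mod 12)` not dividing `L'`, different from `q`, makes `L' r` good. -/
theorem goodAuxLevel_mul_prime {L' q r : ℕ} (hq : q.Prime) (hqL' : q ∣ L') (hq2 : ¬ q ^ 2 ∣ L')
    (hr : r.Prime) (hmod : r % 12 = 11) (hrq : r ≠ q)
    (h2 : q = 2 → 3 ∣ L') (h3 : q = 3 → 2 ∣ L') : GoodAuxLevel (L' * r) q := by
  refine ⟨hqL'.mul_right r, ?_, ⟨r, hr, hmod, hrq, Dvd.intro_left L' rfl, fun N'' h => ?_⟩,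
    fun h => (h2 h).mul_right r, fun h => (h3 h).mul_right r⟩
  · intro h
    have hcop : Nat.Coprime (q ^ 2) r :=
      Nat.Coprime.pow_left 2 ((Nat.coprime_primes hq hr).mpr (Ne.symm hrq))
    exact hq2 (hcop.dvd_of_dvd_mul_right h)
  · exact ⟨Fermat.Agent.GL.AuxPrime.nuTwo_eq_zero_of_dvd hr
        (Fermat.Agent.GL.AuxPrime.mod_four_of_mod_twelve hmod) h,
      Fermat.Agent.GL.AuxPrime.nuThree_eq_zero_of_dvd hr
        (Fermat.Agent.GL.AuxPrime.mod_three_of_mod_twelve hmod) h⟩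

/-- **AUX, binder-free.** -/
theorem auxStmtSS : AuxStmtSS := by
  intro p _ hp2 W hss hΔ hirr L' q _ _ hqp hqL' hq2 h2 h3
  have hp : p.Prime := Fact.out
  have hq : q.Prime := Fact.out
  have hL'0 : L' ≠ 0 := NeZero.ne L'
  have hn : L' * q * p ≠ 0 := mul_ne_zero (mul_ne_zero hL'0 hq.ne_zero) hp.ne_zero
  obtain ⟨r, hr, hrn, hmod, hrp, hgood, hne⟩ :=
    Fermat.Agent.GE8.AuxR.Sigma.exists_aux_prime_not_dvd W hss hΔ hp2 hirr hn
  have hrL' : ¬ r ∣ L' := fun h => hrn ((h.mul_right q).mul_right p)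
  have hrq : r ≠ q := fun h => hrL' (h ▸ hqL')
  refine ⟨r, hr, hmod, (Nat.Prime.coprime_iff_not_dvd hr).mpr hrn,
    goodAuxLevel_mul_prime hq hqL' hq2 hr hmod hrq h2 h3, fun hres => ?_⟩
  exact Fermat.Agent.GE8.AuxR.Remove.isResiduallyModularOfLevel_of_mul_aux hp2 hΔ hirr hL'0 hr hrL'
    hrp hgood hne hres

/-! ### SQ for semistable curves -/

/-- **SQ for semistable curves**, `q ∥ L'`, with the tame-chart side conditions. -/
def SQStmtSS : Prop :=
  ∀ (p : ℕ) [Fact p.Prime] (_ : p ≠ 2) (W : WeierstrassCurve ℤ) (_ : W.IsSemistableModel)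
    (_ : W.Δ ≠ 0) (_ : W.ModRepIsIrreducible p)
    (L' q : ℕ) [NeZero L'] [Fact q.Prime] (_ : q ≠ p) (_ : q ∣ L') (_ : ¬ q ^ 2 ∣ L')
    (_ : q = 2 → 3 ∣ L') (_ : q = 3 → 2 ∣ L')
    (_ : W.IsResiduallyModularOfLevel p (L' * q)),
    W.IsResiduallyModularOfLevel p L'

/-- **`SQGood → SQStmtSS`**: add the auxiliary prime by old forms, lower at the good level, remove
the auxiliary prime. -/
theorem sqStmtSS_of_good (hgood : SQGood) : SQStmtSS := by
  intro p _ hp2 W hss hΔ hirr L' q _ _ hqp hqL' hq2 h2 h3 hres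
  have hq : q.Prime := Fact.out
  have hL'0 : L' ≠ 0 := NeZero.ne L'
  have hcard : Nat.card (Tp W p) = p ^ 2 :=
    Fermat.Agent.GE8.Irr2.Transv.card_tors W hΔ (Fact.out : p.Prime)
  obtain ⟨r, hr, -, -, hgl, hrem⟩ := auxStmtSS p hp2 W hss hΔ hirr L' q hqp hqL' hq2 h2 h3
  haveI : NeZero (L' * r) := ⟨mul_ne_zero hL'0 hr.ne_zero⟩
  refine hrem (Fermat.Agent.GE8.SQ.Unip.sq_good_semistable hgood p hp2 W hss hΔ hcard hirr
    (L' * r) q hqp hgl ?_)
  refine Fermat.Agent.GB.Top.SplitT.isResiduallyModularOfLevel_of_dvd hres ⟨r, by ring⟩ ?_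
  exact mul_ne_zero (mul_ne_zero hL'0 hr.ne_zero) hq.ne_zero

/-- **`MP2Gate → SQStmtSS`.** -/
theorem sqStmtSS_of_gate (hgate : MP2Gate) : SQStmtSS :=
  sqStmtSS_of_good (sq_good_of_gate hgate)

/-! ### `q = 2`, `q = 3` without the side condition: SQ up to the auxiliary factor -/

/-- `q = 2`: `ResMod p (L' * 2) → ResMod p (L' * 3)` (`2 ∥ L'`, `p ≠ 2`). -/
theorem sq_two (hsq : SQStmtSS) (p : ℕ) [Fact p.Prime] (hp2 : p ≠ 2) (W : WeierstrassCurve ℤ)
    (hss : W.IsSemistableModel) (hΔ : W.Δ ≠ 0) (hirr : W.ModRepIsIrreducible p)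
    (L' : ℕ) [NeZero L'] (h2L' : 2 ∣ L') (h4 : ¬ 2 ^ 2 ∣ L')
    (hres : W.IsResiduallyModularOfLevel p (L' * 2)) :
    W.IsResiduallyModularOfLevel p (L' * 3) := by
  have hL'0 : L' ≠ 0 := NeZero.ne L'
  haveI : NeZero (L' * 3) := ⟨mul_ne_zero hL'0 (by norm_num)⟩
  haveI : Fact (Nat.Prime 2) := ⟨Nat.prime_two⟩
  refine hsq p hp2 W hss hΔ hirr (L' * 3) 2 (Ne.symm hp2) (h2L'.mul_right 3) ?_
    (fun _ => Dvd.intro_left L' rfl) (fun h => absurd h (by norm_num)) ?_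
  · intro h
    have hcop : Nat.Coprime (2 ^ 2) 3 := by norm_num
    exact h4 (hcop.dvd_of_dvd_mul_right h)
  · refine Fermat.Agent.GB.Top.SplitT.isResiduallyModularOfLevel_of_dvd hres ⟨3, by ring⟩ ?_
    exact mul_ne_zero (mul_ne_zero hL'0 (by norm_num)) (by norm_num)

/-- `q = 3`: `ResMod p (L' * 3) → ResMod p (L' * 2)` (`3 ∥ L'`, `p ≠ 3`). -/
theorem sq_three (hsq : SQStmtSS) (p : ℕ) [Fact p.Prime] (hp2 : p ≠ 2) (hp3 : p ≠ 3)
    (W : WeierstrassCurve ℤ)
    (hss : W.IsSemistableModel) (hΔ : W.Δ ≠ 0) (hirr : W.ModRepIsIrreducible p)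
    (L' : ℕ) [NeZero L'] (h3L' : 3 ∣ L') (h9 : ¬ 3 ^ 2 ∣ L')
    (hres : W.IsResiduallyModularOfLevel p (L' * 3)) :
    W.IsResiduallyModularOfLevel p (L' * 2) := by
  have hL'0 : L' ≠ 0 := NeZero.ne L'
  haveI : NeZero (L' * 2) := ⟨mul_ne_zero hL'0 (by norm_num)⟩
  haveI : Fact (Nat.Prime 3) := ⟨Nat.prime_three⟩
  refine hsq p hp2 W hss hΔ hirr (L' * 2) 3 (Ne.symm hp3) (h3L'.mul_right 2) ?_
    (fun h => absurd h (by norm_num)) (fun _ => Dvd.intro_left L' rfl) ?_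
  · intro h
    have hcop : Nat.Coprime (3 ^ 2) 2 := by norm_num
    exact h9 (hcop.dvd_of_dvd_mul_right h)
  · refine Fermat.Agent.GB.Top.SplitT.isResiduallyModularOfLevel_of_dvd hres ⟨2, by ring⟩ ?_
    exact mul_ne_zero (mul_ne_zero hL'0 (by norm_num)) (by norm_num)

end Fermat.Agent.GE8.SQ.AuxSS
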