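/-
GATE-E (S59) / block E8.2 (SQ) / node (SQ-ETA), ABSTRACT CORE (helper99), Mathlib only.

The `η`-step of the (PHI) route (helper39, board 6885; RULING A3, board 6967): on the
non-Eisenstein part the operator `η = T_ℓ - (ℓ + 1)` is invertible, and by (V) it maps the
inertia invariants into `ker ν₃` (= the classes with a representative which is a unit along all
three components); so every inertia-invariant class of the eigenspace lies in `ker ν₃`, and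
(HENS) (the `p`-power torsion of `ker ν₃ ∩ invariants` is divisible) lifts it to every level `p^k`.

Vocabulary (all abstract): `V₁` = `Kum_p(F_N)`, `Vk` = `Kum_{p^k}(F_N)` (additive groups),
`π : Vk →+ V₁` = `[v]_{p^k} ↦ [v]_p` (= multiplication by `p^(k-1)`), `Inv₁ ≤ V₁`, `Invk ≤ Vk` the
inertia invariants, `U₁ ≤ V₁` = `ker ν₃`, `T : V₁ →+ V₁` the Hecke operator `T_ℓ`, `a` its eigenvalue.

* `smul_mem_of_eta`        : `(a - (ℓ+1)) • y ∈ U₁` for an invariant eigenvector (this is (V));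
* `mem_of_eta`             : `y ∈ U₁` when `a - (ℓ+1)` is prime to `p` and `p • y = 0`;
* `exists_lift_of_eta`     : **the η-step**: (V) + (HENS) ⟹ the lift `z ∈ Invk`, `π z = y`;
* `nu_eq_zero_of_eigen`    : the `ν`-form: `ν (T y) = (ℓ+1) • ν y`, `T y = a • y` ⟹ `ν y = 0`;
* `exists_lift_of_nu`      : the η-step with `U₁ := ker ν` spelled through `ν`;
* `exists_lift_of_eta_pow` : the same for a generalized eigenvector, `(T - a)^n y = 0`.
-/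
import Mathlib

set_option autoImplicit false

namespace Fermat.Agent.GE8.SQ.EtaAbs

section Core

variable {V₁ Vk : Type*} [AddCommGroup V₁] [AddCommGroup Vk]

/-- (V) on an eigenvector: `(a - (ℓ+1)) • y ∈ U₁`. -/
theorem smul_mem_of_eta (Inv₁ U₁ : AddSubgroup V₁) (T : V₁ →+ V₁) (l a : ℤ)
    (hV : ∀ x ∈ Inv₁, T x - (l + 1) • x ∈ U₁) {y : V₁} (hy : y ∈ Inv₁) (hTy : T y = a • y) :
    (a - (l + 1)) • y ∈ U₁ := by
  have := hV y hy
  rwa [hTy, ← sub_smul] at this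

/-- an element killed by `p` with `c • y ∈ U`, `c` prime to `p`, lies in `U`. -/
theorem mem_of_smul_mem_of_isCoprime (U : AddSubgroup V₁) {p c : ℤ} (hcop : IsCoprime c p)
    {y : V₁} (hp : p • y = 0) (hc : c • y ∈ U) : y ∈ U := by
  obtain ⟨u, v, huv⟩ := hcop
  have h1 : y = u • (c • y) + v • (p • y) := by
    rw [smul_smul, smul_smul, ← add_smul, huv, one_smul]
  rw [h1, hp, smul_zero, add_zero]
  exact U.zsmul_mem hc u

/-- non-Eisenstein eigenvectors in the invariants lie in `U₁ = ker ν₃`. -/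
theorem mem_of_eta (Inv₁ U₁ : AddSubgroup V₁) (T : V₁ →+ V₁) (p l a : ℤ)
    (hV : ∀ x ∈ Inv₁, T x - (l + 1) • x ∈ U₁) (hcop : IsCoprime (a - (l + 1)) p)
    {y : V₁} (hp : p • y = 0) (hy : y ∈ Inv₁) (hTy : T y = a • y) : y ∈ U₁ :=
  mem_of_smul_mem_of_isCoprime U₁ hcop hp (smul_mem_of_eta Inv₁ U₁ T l a hV hy hTy)

/-- **the η-step**: (V) + (HENS) ⟹ every inertia-invariant non-Eisenstein eigenvector of `V₁`
lifts to an inertia-invariant class of `Vk`. -/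
theorem exists_lift_of_eta (π : Vk →+ V₁) (Inv₁ U₁ : AddSubgroup V₁) (Invk : AddSubgroup Vk)
    (T : V₁ →+ V₁) (p l a : ℤ)
    (hV : ∀ x ∈ Inv₁, T x - (l + 1) • x ∈ U₁)
    (hHens : ∀ x ∈ U₁ ⊓ Inv₁, ∃ z ∈ Invk, π z = x)
    (hcop : IsCoprime (a - (l + 1)) p)
    {y : V₁} (hp : p • y = 0) (hy : y ∈ Inv₁) (hTy : T y = a • y) :
    ∃ z ∈ Invk, π z = y :=
  hHens y ⟨mem_of_eta Inv₁ U₁ T p l a hV hcop hp hy hTy, hy⟩

end Core

section Nu

variable {V₁ Vk Q : Type*} [AddCommGroup V₁] [AddCommGroup Vk] [AddCommGroup Q]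

/-- the `ν`-form of (V): `ν (T y) = (ℓ+1) • ν y` and `T y = a • y`, `a - (ℓ+1)` prime to `p`,
`p • ν y = 0` ⟹ `ν y = 0`.  (`ν` is defined on the invariants only.) -/
theorem nu_eq_zero_of_eigen (Inv₁ : AddSubgroup V₁) (ν : Inv₁ →+ Q) (T : V₁ →+ V₁)
    (hT : ∀ x ∈ Inv₁, T x ∈ Inv₁) (p l a : ℤ)
    (hν : ∀ (x : V₁) (hx : x ∈ Inv₁), ν ⟨T x, hT x hx⟩ = (l + 1) • ν ⟨x, hx⟩)
    (hcop : IsCoprime (a - (l + 1)) p)
    {y : V₁} (hy : y ∈ Inv₁) (hp : p • ν ⟨y, hy⟩ = 0) (hTy : T y = a • y) : ν ⟨y, hy⟩ = 0 := by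
  have h1 : ν ⟨T y, hT y hy⟩ = a • ν ⟨y, hy⟩ := by
    have : (⟨T y, hT y hy⟩ : Inv₁) = a • ⟨y, hy⟩ := Subtype.ext (by simpa using hTy)
    rw [this, map_zsmul]
  have h2 : (a - (l + 1)) • ν ⟨y, hy⟩ = 0 := by
    rw [sub_smul, ← h1, hν y hy, sub_self]
  obtain ⟨u, v, huv⟩ := hcop
  have h3 : ν ⟨y, hy⟩ = u • ((a - (l + 1)) • ν ⟨y, hy⟩) + v • (p • ν ⟨y, hy⟩) := by
    rw [smul_smul, smul_smul, ← add_smul, huv, one_smul]
  rw [h3, h2, hp, smul_zero, smul_zero, add_zero]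

/-- **the η-step, `ν`-form**: (V) for `ν`, (HENS) for `ker ν`. -/
theorem exists_lift_of_nu (π : Vk →+ V₁) (Inv₁ : AddSubgroup V₁) (Invk : AddSubgroup Vk)
    (ν : Inv₁ →+ Q) (T : V₁ →+ V₁) (hT : ∀ x ∈ Inv₁, T x ∈ Inv₁) (p l a : ℤ)
    (hν : ∀ (x : V₁) (hx : x ∈ Inv₁), ν ⟨T x, hT x hx⟩ = (l + 1) • ν ⟨x, hx⟩)
    (hHens : ∀ (x : V₁) (hx : x ∈ Inv₁), ν ⟨x, hx⟩ = 0 → ∃ z ∈ Invk, π z = x)
    (hcop : IsCoprime (a - (l + 1)) p)
    {y : V₁} (hp : p • y = 0) (hy : y ∈ Inv₁) (hTy : T y = a • y) :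
    ∃ z ∈ Invk, π z = y := by
  refine hHens y hy (nu_eq_zero_of_eigen Inv₁ ν T hT p l a hν hcop hy ?_ hTy)
  have : p • (⟨y, hy⟩ : Inv₁) = 0 := Subtype.ext (by simpa using hp)
  rw [← map_zsmul, this, map_zero]

end Nu

section Generalized

variable {V₁ Vk : Type*} [AddCommGroup V₁] [AddCommGroup Vk]

/-- generalized eigenvectors: if `(T - a)^n y = 0`, `T` preserves `Inv₁`, then `y ∈ U₁`
(induction on `n`; `U₁ ⊓ Inv₁` need not be `T`-stable). -/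
theorem mem_of_eta_pow (Inv₁ U₁ : AddSubgroup V₁) (T : V₁ →+ V₁) (hT : ∀ x ∈ Inv₁, T x ∈ Inv₁)
    (p l a : ℤ) (hV : ∀ x ∈ Inv₁, T x - (l + 1) • x ∈ U₁) (hcop : IsCoprime (a - (l + 1)) p)
    (n : ℕ) : ∀ {y : V₁}, p • y = 0 → y ∈ Inv₁ →
      ((fun x => T x - a • x)^[n]) y = 0 → y ∈ U₁ := by
  induction n with
  | zero =>
    intro y _ _ h0
    simp only [Function.iterate_zero, id_eq] at h0
    rw [h0]; exact U₁.zero_mem
  | succ n ih =>
    intro y hp hy h0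
    rw [Function.iterate_succ, Function.comp_apply] at h0
    have hy' : T y - a • y ∈ Inv₁ := Inv₁.sub_mem (hT y hy) (Inv₁.zsmul_mem hy a)
    have hp' : p • (T y - a • y) = 0 := by
      rw [smul_sub, ← map_zsmul, smul_comm, hp, map_zero, smul_zero, sub_zero]
    have h1 : T y - a • y ∈ U₁ := ih hp' hy' h0
    have h2 : T y - (l + 1) • y ∈ U₁ := hV y hy
    have h3 : (a - (l + 1)) • y ∈ U₁ := by
      have : (a - (l + 1)) • y = (T y - (l + 1) • y) - (T y - a • y) := by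
        rw [sub_smul]; abel
      rw [this]; exact U₁.sub_mem h2 h1
    exact mem_of_smul_mem_of_isCoprime U₁ hcop hp h3

/-- **the η-step for generalized eigenvectors**. -/
theorem exists_lift_of_eta_pow (π : Vk →+ V₁) (Inv₁ U₁ : AddSubgroup V₁) (Invk : AddSubgroup Vk)
    (T : V₁ →+ V₁) (hT : ∀ x ∈ Inv₁, T x ∈ Inv₁) (p l a : ℤ)
    (hV : ∀ x ∈ Inv₁, T x - (l + 1) • x ∈ U₁)
    (hHens : ∀ x ∈ U₁ ⊓ Inv₁, ∃ z ∈ Invk, π z = x)
    (hcop : IsCoprime (a - (l + 1)) p) (n : ℕ)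
    {y : V₁} (hp : p • y = 0) (hy : y ∈ Inv₁) (hTy : ((fun x => T x - a • x)^[n]) y = 0) :
    ∃ z ∈ Invk, π z = y :=
  hHens y ⟨mem_of_eta_pow Inv₁ U₁ T hT p l a hV hcop n hp hy hTy, hy⟩

end Generalized

end Fermat.Agent.GE8.SQ.EtaAbs
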