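/-
GATE-E (S59) / block E8 / node E8.SQ (helper97, owner): a SECOND spelling of "toric" which needs
NO approximation step on the valuation / reduction side.

`IsTorQ y` := `y` has an `I_A`-fixed representative which is a unit along the three components
(`Stmt3.HasU3Rep`) AND `y ∈ K₁ ⊓ K₂ ⊓ K₃` (`Stmt3.tor3`, the `ℚ̄`-level kernels of the three
reductions, constants allowed, three separate representatives).

* `toTorQ_of_parts : Norm3Stmt → NodeHyp3Stmt → AbHyp3Stmt → HeckeU3Stmt → ToTorStmt isTorQ`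
  (no `Approx3Stmt`);
* `isTor3_of_isTorQ : Approx3Stmt → (IsTorQ y → IsTor3 y)` at the good levels, so the toric side
  may consume either spelling: with `isTorQ` the approximation (`K₀`-rational lifting of the three
  `p`-th roots + `GL/Chain/OneModRad.exists_one_mod_rad`) moves INSIDE `TorOldStmt isTorQ`, where
  the `K₀`-level vocabulary lives anyway.
-/
import Mathlib
import Fermat.Agent.GE8.SQ.Stmt3

set_option autoImplicit false
set_option linter.unusedSectionVars false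

noncomputable section

namespace Fermat.Agent.GE8.SQ.Stmt3Alt

open AlgebraicCurve ModularCurve IsLocalRing
open Fermat.Agent.GJ Fermat.Agent.GJ.KumGroup Fermat.Agent.GJ.Kum.KumType
open Fermat.Agent.GK.UQ Fermat.Agent.GK.New Fermat.Agent.GK.Tate.KumHecke
open Fermat.Agent.GB.A
open Fermat.Agent.GL.Final.GeomGate Fermat.Agent.GL.AL
open Fermat.Agent.GE8.SQ.Stmt Fermat.Agent.GE8.SQ.Stmt3

/-- **toric, `ℚ̄`-level spelling with a fixed three-unit representative.** -/
def IsTorQ (p : ℕ) [Fact p.Prime] (L' q : ℕ) [NeZero L'] [Fact q.Prime] (A : ValuationSubring Kb)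
    (y : Additive (Kum Kb (FK (L' * q)) p)) : Prop :=
  ∃ h : HallDvd (q ^ 2) (L' * q), HasU3Rep A h p y ∧ y ∈ tor3 A h p

/-- the predicate as a `TorPred`. -/
def isTorQ : TorPred := fun p _ L' q _ _ A y => IsTorQ p L' q A y

/-- **the valuation / reduction side without the approximation step.** -/
theorem toTorQ_of_parts (hnorm : Norm3Stmt) (hnode : NodeHyp3Stmt) (hab : AbHyp3Stmt)
    (hV : HeckeU3Stmt) : ToTorStmt isTorQ := by
  intro p _ hp2 L' q _ _ hqp hgood A hA S hL'S hMS hpS P hP ζ hζ ℓ hℓ hℓM _ y hy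
  obtain ⟨u, ⟨hu, hfix⟩, hU3⟩ := hnorm p hp2 L' q hqp hgood A hA ℓ hℓ hℓM y hy
  obtain ⟨n1, n2, n3⟩ := hnode p hp2 L' q hqp hgood A hA u hfix hU3
  have h1 := hab p hp2 L' q hqp hgood A hA S hL'S hMS hpS P hP ζ hζ u hU3 n1 n2 n3
  have h2 := hV p hp2 L' q hqp hgood A hA S hMS hpS P ζ hζ _ ⟨u, ⟨rfl, hfix⟩, hU3⟩
  rw [hu] at h1 h2
  exact ⟨_, h2, h1⟩

/-- with the approximation node, `IsTorQ` implies the default `IsTor3` at the good levels. -/
theorem isTor3_of_isTorQ (happ : Approx3Stmt) {p : ℕ} [Fact p.Prime] (hp2 : p ≠ 2) {L' q : ℕ}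
    [NeZero L'] [Fact q.Prime] (hqp : q ≠ p) (hgood : GoodAuxLevel L' q)
    {A : ValuationSubring Kb} (hA : A.LiesOverPrime q)
    {y : Additive (Kum Kb (FK (L' * q)) p)} (hy : IsTorQ p L' q A y) : IsTor3 p L' q A y := by
  obtain ⟨h, h1, h2⟩ := hy
  exact happ p hp2 L' q hqp hgood A hA y h1 h2

/-- `TorOldStmt isTor3 ∧ Approx3Stmt ⟹ TorOldStmt isTorQ`. -/
theorem torOldQ_of_torOld3 (happ : Approx3Stmt) (h3 : TorOldStmt isTor3) : TorOldStmt isTorQ := by
  intro p _ hp2 L' q _ _ hqp hgood A hA y hy hyI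
  exact h3 p hp2 L' q hqp hgood A hA y (isTor3_of_isTorQ happ hp2 hqp hgood hA hy) hyI

end Fermat.Agent.GE8.SQ.Stmt3Alt
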